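import Fermat.Agent.ResidualSetup.Big
import Fermat.Agent.EllLocal.Frey
import Fermat.Prelude.Def_GaloisRep_LocalConditions
import Fermat.Prelude.Def_GaloisRep_ResidualEquiv

/-!
# Residual hypotheses for `E[p]` of a semistable model

`IsModRep W p i ρ` says that `ρ` is `E[p]` with scalars extended along `i`. For such `ρ` and
odd `p`: absolute irreducibility and its index two refinement `IsModRep.big` when `E[p]` is
irreducible; cyclotomic determinant; for semistable `W`, unipotent inertia away from `p` and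
ramification at `l ≠ p` exactly when `p` does not divide `v_l(Δ)`
(`IsModRep.isUnramifiedAt`, `IsModRep.not_isUnramifiedAt`).
-/

set_option autoImplicit false
set_option linter.style.haveILetI false
set_option linter.unusedSectionVars false

noncomputable section

open WeierstrassCurve WeierstrassCurve.Affine.Point
open scoped WeierstrassCurve.Affine TensorProduct
open Polynomial (X C)

namespace FLTAgent.ResidualSetup

open FLTAgent.MazurP

local notation "Qb" => AlgebraicClosure ℚ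
local notation "Γℚ" => (AlgebraicClosure ℚ ≃ₐ[ℚ] AlgebraicClosure ℚ)

variable {W : WeierstrassCurve ℤ} {p : ℕ} [Fact p.Prime] {k : Type} [Field k]

/-- `ρbar` is `E[p]` with coefficients extended along `i`, in matrix form. -/
def IsModRep (W : WeierstrassCurve ℤ) (p : ℕ) [Fact p.Prime] {k : Type} [Field k]
    (i : ZMod p →+* k) (ρbar : ResidualGaloisRep k) : Prop :=
  ∀ b : Module.Basis (Fin 2) (ZMod p) (TorsSpace W p),
    ∃ B : Module.Basis (Fin 2) k ρbar.V, ∀ σ,
      LinearMap.toMatrix B B (ρbar.ρ σ) = (LinearMap.toMatrix b b (modRep W p σ)).map i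

theorem isModRep_baseChangeAlong (i : ZMod p →+* k)
    (hcard : Nat.card (Submodule.torsionBy ℤ
      ((W.map (Int.castRingHom ℚ))⁄(AlgebraicClosure ℚ)).Point p) = p ^ 2)
    (hker : GaloisFactorsThroughFiniteLevel
      (galoisRepModuleEnd (K := AlgebraicClosure ℚ) ℚ (W.map (Int.castRingHom ℚ)) p)) :
    IsModRep W p i
      (((W.map (Int.castRingHom ℚ)).residualGaloisRepOf p hcard hker).baseChangeAlong i) := by
  intro b
  letI : Algebra (ZMod p) k := i.toAlgebra
  refine ⟨Algebra.TensorProduct.basis k b, fun σ => ?_⟩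
  show LinearMap.toMatrix (Algebra.TensorProduct.basis k b) (Algebra.TensorProduct.basis k b)
    ((modRep W p σ).baseChange k) = _
  refine (LinearMap.toMatrix_baseChange k (modRep W p σ) b b).trans ?_
  rfl

theorem IsModRep.of_equiv {i : ZMod p →+* k} {ρ₁ ρ₂ : ResidualGaloisRep k} (h : IsModRep W p i ρ₁)
    (e : ρ₁.IsEquiv ρ₂) : IsModRep W p i ρ₂ := by
  intro b
  obtain ⟨e⟩ := e
  obtain ⟨B, hB⟩ := h b
  refine ⟨B.map e.toLinearEquiv, fun σ => ?_⟩
  rw [← hB σ]
  ext a c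
  simp only [LinearMap.toMatrix_apply, Module.Basis.map_apply, Module.Basis.map_repr,
    LinearEquiv.trans_apply]
  rw [← e.map_apply, LinearEquiv.symm_apply_apply]

theorem exists_isModRep (hΔ : W.Δ ≠ 0) (i : ZMod p →+* k) :
    ∃ ρbar : ResidualGaloisRep k, IsModRep W p i ρbar := by
  haveI := EllTorsion.isElliptic_map_rat hΔ
  exact ⟨_, isModRep_baseChangeAlong i
    (EllTorsion.natCard_torsionBy_rat (W.map (Int.castRingHom ℚ)) p (Fact.out : p.Prime).ne_zero)
    (EllTorsion.galoisRepModuleEnd_factorsThroughFiniteLevel _ p (Fact.out : p.Prime).ne_zero)⟩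

/-- At a good prime, or a multiplicative prime with `p ∣ v(Δ)`, inertia is trivial on `E[p]`. -/
theorem smul_eq_of_dvd (hΔ : W.Δ ≠ 0) (hss : W.IsSemistableModel) (hp2 : p ≠ 2) {l : ℕ}
    (hl : l.Prime) (hlp : l ≠ p) (hv : p ∣ padicValInt l W.Δ) {A : ValuationSubring Qb}
    (hA : A.LiesOverPrime l) {σ : Γℚ} (hσ : σ ∈ A.inertiaSubgroupIn ℚ) (P : TorsSpace W p) :
    σ • P = P := by
  have hp : p.Prime := Fact.out
  haveI : Fact l.Prime := ⟨hl⟩
  have hP : p • (P : EllP.QPoint W) = 0 := by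
    rw [← natCast_zsmul]; exact (Submodule.mem_torsionBy_iff _ _).mp P.2
  have hlp' : ¬ l ∣ p := fun h => hlp ((Nat.prime_dvd_prime_iff_eq hl hp).mp h)
  refine Subtype.ext ?_
  show σ • (P : EllP.QPoint W) = (P : EllP.QPoint W)
  by_cases hlΔ : (l : ℤ) ∣ W.Δ
  swap
  · exact Local.Curve.smul_eq_of_good hl hA hlΔ hlp' hσ hP
  apply (EllP.toModel A).injective
  obtain ⟨e, he⟩ := hv
  obtain ⟨m, u, hu, hm⟩ :=
    Nat.exists_eq_pow_mul_and_not_dvd (Int.natAbs_ne_zero.2 hΔ) l hl.ne_one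
  have hu0 : u ≠ 0 := fun h => hu (h ▸ dvd_zero l)
  have hme : m = p * e := by
    rwa [padicValInt, hm, padicValNat.mul (pow_ne_zero _ hl.ne_zero) hu0, padicValNat.prime_pow,
      padicValNat.eq_zero_of_not_dvd hu, add_zero] at he
  refine EllLocal.eq_of_conj_semistable (A := A) (W₀ := EllP.modelAt A W) rfl
    (EllLocal.inertiaLike_of_mem hσ) (EllP.genCurve_map_fixed σ) (hp.odd_of_ne_two hp2)
    (Local.Curve.natCast_residue_ne_zero_of_coprime hl hA hlp')
    (Or.inr ⟨?_, ?_, (l : Qb) ^ e, by simp, ?_⟩) (EllP.isConjPoint_toModel σ (P : EllP.QPoint W))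
    (by rw [← map_nsmul, hP, _root_.map_zero])
    (by
      rw [← map_nsmul, show p • σ • (P : EllP.QPoint W) = σ • (p • (P : EllP.QPoint W)) from
        (map_nsmul (DistribSMul.toAddMonoidHom (EllP.QPoint W) σ) p _).symm, hP,
        smul_zero (A := EllP.QPoint W) σ, _root_.map_zero])
  · rw [map_c₄]; exact EllP.residue_map_ne_zero hl hA (hss l hl hlΔ)
  · rw [map_Δ]
    intro h
    exact hΔ (by simpa using congrArg (fun z : A => (z : Qb)) h)
  · rw [map_pow, ← pow_mul, mul_comm e, ← hme, map_Δ]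
    have hvu : A.valuation ((u : ℤ) : Qb) = 1 := EllLocal.valuation_intCast_eq_one hl hA
      (mod_cast hu)
    rcases Int.natAbs_eq W.Δ with hn | hn <;>
      (rw [hn, hm]; simp [map_mul, map_pow, Valuation.map_neg] at hvu ⊢; simp [hvu])

theorem modTr_modDet_of_inertia (hΔ : W.Δ ≠ 0) (hss : W.IsSemistableModel) (hp2 : p ≠ 2) {l : ℕ}
    (hl : l.Prime) (hlp : l ≠ p) {A : ValuationSubring Qb} (hA : A.LiesOverPrime l) {σ : Γℚ}
    (hσ : σ ∈ A.inertiaSubgroupIn ℚ) : modTr W p σ = 2 ∧ modDet W p σ = 1 := by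
  have hsq := smul_sub_smul_sub (p := p) hss hΔ hp2 hl hlp hA hσ
  have hd : modDet W p σ = 1 := by
    have h := congrArg (LinearMap.det (A := ZMod p) (M := TorsSpace W p))
      (pow_prime_eq_one_of_sq hsq)
    rw [map_pow, ZMod.pow_card, map_one] at h
    exact h
  refine ⟨?_, hd⟩
  set M := modRep W p σ with hM
  have h1 := cayley_hamilton (p := p) hΔ σ
  rw [← hM, hd, map_one] at h1
  have h2 : (M - 1) * (M - 1) = 0 := by
    refine LinearMap.ext fun P => ?_
    show σ • (σ • P - P) - (σ • P - P) = 0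
    exact hsq P
  have h3 : algebraMap (ZMod p) (Module.End (ZMod p) (TorsSpace W p)) (2 - modTr W p σ) * M = 0 := by
    rw [map_sub, sub_mul, map_ofNat]
    have : (2 : Module.End (ZMod p) (TorsSpace W p)) * M -
        algebraMap (ZMod p) _ (modTr W p σ) * M =
        (M * M - algebraMap (ZMod p) _ (modTr W p σ) * M + 1) - (M - 1) * (M - 1) := by
      noncomm_ring
    rw [this, h1, h2, sub_zero]
  by_contra hne
  have hu : IsUnit (algebraMap (ZMod p) (Module.End (ZMod p) (TorsSpace W p))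
      (2 - modTr W p σ)) := (isUnit_iff_ne_zero.mpr (sub_ne_zero.mpr (Ne.symm hne))).map _
  have hM0 : M = 0 := hu.mul_right_eq_zero.mp h3
  haveI : Nontrivial (TorsSpace W p) :=
    Module.nontrivial_of_finrank_eq_succ (finrank_torsSpace hΔ)
  have h4 : M * modRep W p σ⁻¹ = 1 := by rw [hM, ← map_mul, mul_inv_cancel, map_one]
  rw [hM0, zero_mul] at h4
  exact zero_ne_one h4

variable {i : ZMod p →+* k} {ρbar : ResidualGaloisRep k} (h : IsModRep W p i ρbar)
  (hΔ : W.Δ ≠ 0)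

include h hΔ

theorem IsModRep.charpoly (σ : Γℚ) : LinearMap.charpoly (ρbar.ρ σ) =
    X ^ 2 - C (i (modTr W p σ)) * X + C (i (modDet W p σ)) := by
  haveI := moduleFinite_torsSpace (p := p) hΔ
  obtain ⟨B, hB⟩ := h (Module.finBasisOfFinrankEq _ _ (finrank_torsSpace hΔ))
  rw [← LinearMap.charpoly_toMatrix _ B, hB, Matrix.charpoly_map, LinearMap.charpoly_toMatrix,
    Reps.charpoly_of_finrank_eq_two (finrank_torsSpace hΔ)]
  simp only [Polynomial.map_add, Polynomial.map_sub, Polynomial.map_pow, Polynomial.map_mul,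
    Polynomial.map_X, Polynomial.map_C]
  rfl

theorem IsModRep.det_eq (σ : Γℚ) : LinearMap.det (ρbar.ρ σ) = i (modDet W p σ) := by
  haveI := moduleFinite_torsSpace (p := p) hΔ
  obtain ⟨B, hB⟩ := h (Module.finBasisOfFinrankEq _ _ (finrank_torsSpace hΔ))
  rw [← LinearMap.det_toMatrix B, hB, ← RingHom.mapMatrix_apply, ← RingHom.map_det,
    LinearMap.det_toMatrix]
  rfl

theorem IsModRep.eq_one_iff (σ : Γℚ) : ρbar.ρ σ = 1 ↔ ∀ P : TorsSpace W p, σ • P = P := by
  haveI := moduleFinite_torsSpace (p := p) hΔ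
  obtain ⟨B, hB⟩ := h (Module.finBasisOfFinrankEq _ _ (finrank_torsSpace hΔ))
  rw [ResidualSetup.eq_one_iff hB]
  exact LinearMap.ext_iff

/-- `E[p]` irreducible implies absolutely irreducible, for odd `p`. -/
theorem IsModRep.isAbsolutelyIrreducible (hp2 : p ≠ 2) (hirr : W.ModRepIsIrreducible p) :
    ρbar.IsAbsolutelyIrreducible := by
  obtain ⟨b, hb⟩ := exists_isOddBasis hΔ hp2 hirr
  obtain ⟨B, hB⟩ := h b
  intro L hL
  refine ResidualSetup.irreducible (R := (ρbar.baseChange (AlgebraicClosure k)).ρ)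
    (j := (algebraMap k (AlgebraicClosure k)).comp i) (B := Algebra.TensorProduct.basis (AlgebraicClosure k) B)
    (b := b) (fun σ => ?_) hp2 hb L hL
  show LinearMap.toMatrix _ _ ((ρbar.ρ σ).baseChange (AlgebraicClosure k)) = _
  refine (LinearMap.toMatrix_baseChange _ (ρbar.ρ σ) B B).trans ?_
  rw [hB, Matrix.map_map]
  rfl

/-- Irreducibility persists on subgroups of index two. -/
theorem IsModRep.big (hss : W.IsSemistableModel) (hp2 : p ≠ 2) (hirr : W.ModRepIsIrreducible p)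
    (K : Type) [Field K] [Algebra k K] (G : Subgroup Γℚ) (hG : G.index = 2)
    (V : Submodule K (ρbar.baseChange K).V)
    (hV : ∀ σ ∈ G, ∀ x ∈ V, (ρbar.baseChange K).ρ σ x ∈ V) : V = ⊥ ∨ V = ⊤ := by
  obtain ⟨b, hb⟩ := exists_isOddBasis hΔ hp2 hirr
  obtain ⟨B, hB⟩ := h b
  refine eq_bot_or_eq_top_of_index_two (R := (ρbar.baseChange K).ρ)
    (j := (algebraMap k K).comp i) (B := Algebra.TensorProduct.basis K B)
    hΔ hss hp2 hb (fun σ => ?_) hG hV
  show LinearMap.toMatrix _ _ ((ρbar.ρ σ).baseChange K) = _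
  refine (LinearMap.toMatrix_baseChange _ (ρbar.ρ σ) B B).trans ?_
  rw [hB, Matrix.map_map]
  rfl

theorem IsModRep.detIsCyclotomic :
    (GaloisRepAdic.ofResidualGaloisRep ρbar).DetIsCyclotomic p := by
  have hpk : (p : k) = 0 := by rw [← map_natCast i, ZMod.natCast_self, _root_.map_zero]
  refine ⟨by rw [hpk]; exact zero_mem _, fun n σ a ha => ?_⟩
  rcases Nat.eq_zero_or_pos n with rfl | hn
  · rw [pow_zero, Nat.cast_one, Ideal.span_singleton_one]; exact Submodule.mem_top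
  show LinearMap.det (ρbar.ρ σ) - (a : k) ∈ _
  rw [h.det_eq hΔ, modDet_eq_of_spec hΔ (j := a) fun t ht => ha t ?_, map_natCast, sub_self]
  · exact zero_mem _
  · obtain ⟨m, rfl⟩ := Nat.exists_eq_succ_of_ne_zero hn.ne'
    rw [pow_succ', pow_mul, ht, one_pow]

theorem IsModRep.split (hsplit : ∀ a b : ZMod p, ∃ α β : k, α + β = i a ∧ α * β = i b) (σ : Γℚ) :
    ∃ α β : k, LinearMap.charpoly (ρbar.ρ σ) = (X - C α) * (X - C β) := by
  obtain ⟨α, β, hs, hm⟩ := hsplit (modTr W p σ) (modDet W p σ)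
  refine ⟨α, β, ?_⟩
  rw [h.charpoly hΔ, ← hs, ← hm, map_add, map_mul]
  ring

theorem IsModRep.isUnipotentOnInertiaAt (hss : W.IsSemistableModel) (hp2 : p ≠ 2) {l : ℕ}
    (hl : l.Prime) (hlp : l ≠ p) :
    (GaloisRepAdic.ofResidualGaloisRep ρbar).IsUnipotentOnInertiaAt l := by
  intro A hA σ hσ
  show LinearMap.charpoly (ρbar.ρ σ) = _
  obtain ⟨h1, h2⟩ := modTr_modDet_of_inertia (p := p) hΔ hss hp2 hl hlp hA hσ
  rw [h.charpoly hΔ, h1, h2, map_one, map_ofNat, map_ofNat, map_one]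
  ring

theorem IsModRep.isUnramifiedAt (hss : W.IsSemistableModel) (hp2 : p ≠ 2) {l : ℕ}
    (hl : l.Prime) (hlp : l ≠ p) (hv : p ∣ padicValInt l W.Δ) : ρbar.IsUnramifiedAt l :=
  fun _ hA σ hσ =>
    (h.eq_one_iff hΔ σ).mpr (smul_eq_of_dvd hΔ hss hp2 hl hlp hv hA hσ)

theorem IsModRep.not_isUnramifiedAt (hss : W.IsSemistableModel) (hp2 : p ≠ 2) {l : ℕ}
    (hl : l.Prime) (hlp : l ≠ p) (hv : ¬ p ∣ padicValInt l W.Δ) :
    ¬ ρbar.IsUnramifiedAt l := by
  intro hunr
  obtain ⟨A, hA⟩ := GalCommon.exists_liesOverPrime hl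
  have hlΔ : (l : ℤ) ∣ W.Δ := by
    by_contra hn
    refine hv ?_
    rw [padicValInt, padicValNat.eq_zero_of_not_dvd fun h => hn (Int.natCast_dvd.mpr h)]
    exact dvd_zero p
  obtain ⟨σ, hσ, P, hP, hne⟩ := Local.Curve.exists_inertia_smul_ne_of_not_dvd hl hA hΔ hlΔ
    (hss l hl hlΔ) Fact.out hp2 hlp hv
  exact hne (congrArg Subtype.val ((h.eq_one_iff hΔ σ).mp (hunr A hA σ hσ)
    ⟨P, by rw [Submodule.mem_torsionBy_iff, natCast_zsmul]; exact hP⟩))

end FLTAgent.ResidualSetup
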