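import Fermat.Agent.FlatHopf.Ops
import Fermat.Agent.FlatHopf.Dual

/-!
# Descending an order from a product

`hasOrder_of_pull`: a finitely generated ring of integral equivariant functions on `G × U`, which
separates points and is stable under translation by `G` in the first factor, gives an order on
the finite group `G` (the functions on `G` whose pull back lies in the ring), hence a finite flat
model.
-/

set_option autoImplicit false
set_option linter.style.haveILetI false
set_option linter.unusedSectionVars false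

noncomputable section

namespace FLTAgent.ResidualSetup

open FlatHopf

variable {R : Type} [CommRing R] [IsDomain R] [IsPrincipalIdealRing R] {K : Type} [Field K]
  [Algebra R K] [FaithfulSMul R K] {Γ : Type} [Group Γ] {φ : Γ →* (K ≃ₐ[R] K)}
  {G : Type} [AddCommGroup G] [Finite G] {act : Γ →* AddMonoid.End G}
  {U : Type} [Finite U] [Nonempty U] [MulAction Γ U]

/-- Functions on `G` as functions on `G × U`. -/
def pullAlg (R : Type) [CommRing R] (K : Type) [CommRing K] [Algebra R K] (G U : Type) :
    (G → K) →ₐ[R] (G × U → K) :=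
  AlgHom.pi fun z => Pi.evalAlgHom R _ z.1

theorem pullAlg_injective : Function.Injective (pullAlg R K G U) := fun f g h =>
  funext fun x => congrFun h (x, Classical.arbitrary U)

/-- An order on `G`. -/
theorem hasOrder_of_pull (hfix : FixedIsFrac φ) (HX : Subalgebra R (G × U → K))
    (hfg : (Subalgebra.toSubmodule HX).FG)
    (heq : ∀ a ∈ HX, ∀ σ (z : G × U), a (act σ z.1, σ • z.2) = φ σ (a z))
    (hsep : ∀ x y, (∀ a ∈ HX, a x = a y) → x = y)
    (hρ : ∀ a ∈ HX, (fun ζ : (G × U) × (G × U) => a (ζ.1.1 + ζ.2.1, ζ.1.2)) ∈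
      prodSpan (Subalgebra.toSubmodule HX) (Subalgebra.toSubmodule HX)) :
    HasOrder φ act := by
  classical
  haveI := Fintype.ofFinite U
  haveI := Fintype.ofFinite G
  let f₀ : Γ → G × U → G × U := fun σ z => (act σ z.1, σ • z.2)
  have hf₀ : ∀ σ, Function.Surjective (f₀ σ) := fun σ z => by
    obtain ⟨x, hx⟩ := act_surjective (act := act) σ z.1
    exact ⟨(x, σ⁻¹ • z.2), Prod.ext hx (smul_inv_smul σ z.2)⟩
  obtain ⟨ι, _, b, hb⟩ := exists_basis_of_fg hfix (Subalgebra.toSubmodule HX) hfg f₀ hf₀
    (fun a ha σ z => heq a ha σ z)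
  have hspanX := span_eq_top_of_separates HX hsep
  have hbs : ⊤ ≤ Submodule.span K (Set.range fun i => (b i : G × U → K)) := by
    rw [← hspanX, Submodule.span_le]
    intro a ha
    have h1 : (⟨a, ha⟩ : ↥(Subalgebra.toSubmodule HX)) ∈ Submodule.span R (Set.range b) := by
      rw [b.span_eq]; exact Submodule.mem_top
    have h2 := Submodule.mem_map_of_mem (f := (Subalgebra.toSubmodule HX).subtype) h1
    rw [Submodule.map_span, ← Set.range_comp] at h2
    exact Submodule.span_le_restrictScalars R K _ h2
  let bK : Module.Basis ι K (G × U → K) := Module.Basis.mk hb hbs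
  have hbK : ∀ i, bK i = (b i : G × U → K) := fun i => Module.Basis.mk_apply _ _ i
  have hexp : ∀ (a : G × U → K) (ha : a ∈ HX),
      a = ∑ i, algebraMap R K (b.repr ⟨a, ha⟩ i) • bK i := fun a ha => by
    have h1 := congrArg Subtype.val (b.sum_repr (⟨a, ha⟩ : ↥(Subalgebra.toSubmodule HX)))
    rw [Submodule.coe_sum] at h1
    refine h1.symm.trans (Finset.sum_congr rfl fun i _ => ?_)
    rw [hbK, Submodule.coe_smul, algebraMap_smul]
  -- equivariant functions are fractions
  have hfrac : ∀ v : G × U → K, (∀ σ z, v (f₀ σ z) = φ σ (v z)) →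
      ∃ r : R, r ≠ 0 ∧ r • v ∈ HX := by
    intro v hv
    set c : ι → K := fun i => bK.repr v i with hc
    have hsum : ∀ x, v x = ∑ i, c i * (b i : G × U → K) x := fun x => by
      conv_lhs => rw [← bK.sum_repr v]
      simp [hbK, hc]
    have hfixed : ∀ i σ, φ σ (c i) = c i := by
      intro i σ
      have h0 : ∑ j, (φ σ (c j) - c j) • bK j = 0 := by
        funext y
        obtain ⟨x, rfl⟩ := hf₀ σ y
        have h1 := congrArg (φ σ) (hsum x)
        rw [← hv, map_sum, hsum (f₀ σ x)] at h1
        simp only [Finset.sum_apply, Pi.smul_apply, smul_eq_mul, hbK, sub_mul, Pi.zero_apply,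
          Finset.sum_sub_distrib, sub_eq_zero]
        rw [h1]
        refine Finset.sum_congr rfl fun j _ => ?_
        rw [map_mul]
        exact congrArg _ (heq _ (b j).2 σ x)
      exact sub_eq_zero.1 (Fintype.linearIndependent_iff.1 bK.linearIndependent _ h0 i)
    choose a d hd0 had using fun i => hfix (c i) (hfixed i)
    refine ⟨∏ i, d i, Finset.prod_ne_zero_iff.2 fun i _ => hd0 i, ?_⟩
    have e : (∏ i, d i) • v = ∑ i, (a i * ∏ j ∈ Finset.univ.erase i, d j) • (b i : G × U → K) := by
      funext x
      simp only [Pi.smul_apply, Finset.sum_apply]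
      rw [Algebra.smul_def, hsum, Finset.mul_sum]
      refine Finset.sum_congr rfl fun i _ => ?_
      rw [Algebra.smul_def, map_mul, ← had i,
        ← Finset.mul_prod_erase Finset.univ d (Finset.mem_univ i), map_mul]
      ring
    rw [e]
    exact sum_mem fun i _ => HX.smul_mem (b i).2 _
  -- the ring on `G`
  set H : Subalgebra R (G → K) := HX.comap (pullAlg R K G U) with hH
  have heqH : ∀ a ∈ H, ∀ σ g, a (act σ g) = φ σ (a g) := fun a ha σ g =>
    heq _ ha σ (g, Classical.arbitrary U)
  have hspanH : Submodule.span K (H : Set (G → K)) = ⊤ := by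
    let push : (G × U → K) →ₗ[K] (G → K) :=
      { toFun := fun h g => ∑ u, h (g, u)
        map_add' := fun h h' => funext fun g => by simp [Finset.sum_add_distrib]
        map_smul' := fun c h => funext fun g => by simp [Finset.mul_sum] }
    have hpush : ∀ a ∈ HX, push a ∈ Submodule.span K (H : Set (G → K)) := by
      intro a ha
      have hpe : ∀ σ g, push a (act σ g) = φ σ (push a g) := by
        intro σ g
        show ∑ u, a (act σ g, u) = φ σ (∑ u, a (g, u))
        rw [map_sum]
        exact (Fintype.sum_equiv (MulAction.toPerm σ) _ _ fun u => (heq a ha σ (g, u)).symm).symm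
      obtain ⟨r, hr, hrm⟩ := hfrac (pullAlg R K G U (push a)) fun σ z => hpe σ z.1
      rw [← map_smul] at hrm
      have h1 : r • push a ∈ Submodule.span K (H : Set (G → K)) := Submodule.subset_span hrm
      rw [← algebraMap_smul K r (push a)] at h1
      exact (Submodule.smul_mem_iff _ ((map_ne_zero_iff _
        (FaithfulSMul.algebraMap_injective R K)).mpr hr)).mp h1
    rw [eq_top_iff]
    intro f _
    have hf : f = push (fun z => if z.2 = Classical.arbitrary U then f z.1 else 0) :=
      funext fun g => by simp [push]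
    rw [hf]
    have hmem : (fun z : G × U => if z.2 = Classical.arbitrary U then f z.1 else 0) ∈
        Submodule.span K (HX : Set (G × U → K)) := hspanX ▸ Submodule.mem_top
    have h2 := Submodule.mem_map_of_mem (f := push) hmem
    rw [Submodule.map_span] at h2
    refine (Submodule.span_le.mpr ?_) h2
    rintro _ ⟨a, ha, rfl⟩
    exact hpush a ha
  have hfgH : (Subalgebra.toSubmodule H).FG := by
    refine Submodule.fg_of_fg_map_injective (pullAlg R K G U).toLinearMap
      (pullAlg_injective (R := R) (K := K) (G := G) (U := U)) ?_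
    haveI : Module.Finite R ↥(Subalgebra.toSubmodule HX) := Module.Finite.iff_fg.2 hfg
    haveI : IsNoetherian R ↥(Subalgebra.toSubmodule HX) := isNoetherian_of_isNoetherianRing_of_finite R _
    refine isNoetherian_submodule.mp ‹_› _ ?_
    rintro _ ⟨a, ha, rfl⟩
    exact ha
  refine ⟨H, hfgH, heqH, hspanH, fun f hf => ?_⟩
  -- a retraction onto the functions on `G`
  let M : Submodule R ↥(Subalgebra.toSubmodule HX) :=
    ((Subalgebra.toSubmodule H).map (pullAlg R K G U).toLinearMap).comap
      (Subalgebra.toSubmodule HX).subtype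
  haveI : Module.Finite R ↥(Subalgebra.toSubmodule HX) := Module.Finite.iff_fg.2 hfg
  haveI : Module.IsTorsionFree R (↥(Subalgebra.toSubmodule HX) ⧸ M) := by
    refine Module.IsTorsionFree.of_smul_eq_zero fun r m h => ?_
    obtain ⟨m, rfl⟩ := Submodule.Quotient.mk_surjective M m
    by_cases hr : r = 0
    · exact Or.inl hr
    refine Or.inr ((Submodule.Quotient.mk_eq_zero M).mpr ?_)
    rw [← Submodule.Quotient.mk_smul, Submodule.Quotient.mk_eq_zero] at h
    obtain ⟨a, ha, hae⟩ := h
    have hrK : algebraMap R K r ≠ 0 :=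
      (map_ne_zero_iff _ (FaithfulSMul.algebraMap_injective R K)).mpr hr
    have e : pullAlg R K G U ((algebraMap R K r)⁻¹ • a) = (m : G × U → K) := funext fun z => by
      have h1 : a z.1 = algebraMap R K r * (m : G × U → K) z :=
        (congrFun hae z).trans (Algebra.smul_def r ((m : G × U → K) z))
      show (algebraMap R K r)⁻¹ * a z.1 = _
      rw [h1, inv_mul_cancel_left₀ hrK]
    refine ⟨_, ?_, e⟩
    show pullAlg R K G U ((algebraMap R K r)⁻¹ • a) ∈ HX
    rw [e]
    exact m.2
  obtain ⟨s, hs⟩ := Module.projective_lifting_property M.mkQ LinearMap.id M.mkQ_surjective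
  have hr : ∀ a : ↥(Subalgebra.toSubmodule HX),
      ∃ a₀ ∈ H, pullAlg R K G U a₀ = ((a - s (M.mkQ a) : ↥(Subalgebra.toSubmodule HX)) : G × U → K) := by
    intro a
    have h : a - s (M.mkQ a) ∈ M := by
      rw [← Submodule.Quotient.mk_eq_zero M, ← Submodule.mkQ_apply, map_sub,
        show M.mkQ (s (M.mkQ a)) = M.mkQ a from LinearMap.congr_fun hs _, sub_self]
    obtain ⟨a₀, h₀, e⟩ := h
    exact ⟨a₀, h₀, e⟩
  choose r hrH hre using hr
  let π : (G × U → K) →ₗ[K] (G × U → K) :=
    bK.constr K fun i => pullAlg R K G U (r (b i))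
  have hπHX : ∀ a (ha : a ∈ HX), π a = pullAlg R K G U (r ⟨a, ha⟩) := by
    intro a ha
    conv_lhs => rw [hexp a ha]
    rw [map_sum, hre]
    conv_rhs => rw [← b.sum_repr (⟨a, ha⟩ : ↥(Subalgebra.toSubmodule HX))]
    rw [map_sum, map_sum, ← Finset.sum_sub_distrib, Submodule.coe_sum]
    refine Finset.sum_congr rfl fun i _ => ?_
    rw [map_smul, show π (bK i) = pullAlg R K G U (r (b i)) from bK.constr_basis K _ i, hre,
      map_smul, map_smul, ← smul_sub, Submodule.coe_smul, algebraMap_smul]
  have hπH : ∀ a ∈ H, π (pullAlg R K G U a) = pullAlg R K G U a := by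
    intro a ha
    have hm : (⟨pullAlg R K G U a, ha⟩ : ↥(Subalgebra.toSubmodule HX)) ∈ M := ⟨a, ha, rfl⟩
    have h0 := (Submodule.Quotient.mk_eq_zero M).mpr hm
    rw [← Submodule.mkQ_apply] at h0
    refine ((hπHX _ ha).trans (hre _)).trans ?_
    erw [h0, map_zero, sub_zero]
    rfl
  have hπpull : ∀ a : G → K, π (fun z => a z.1) = fun z => a z.1 := by
    intro a
    have ha : a ∈ Submodule.span K (H : Set (G → K)) := hspanH ▸ Submodule.mem_top
    induction ha using Submodule.span_induction with
    | mem a ha => exact hπH a ha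
    | zero => exact map_zero π
    | add a a' _ _ h h' =>
      rw [show (fun z : G × U => (a + a') z.1) = (fun z => a z.1) + fun z => a' z.1 from rfl,
        map_add, h, h']
    | smul c a _ h =>
      rw [show (fun z : G × U => (c • a) z.1) = c • fun z => a z.1 from rfl, map_smul, h]
  obtain ⟨A, hA, hg⟩ := exists_eq_sum_mul_basis b (hρ _ hf)
  set u₀ : U := Classical.arbitrary U
  have h1 : ∀ z₁ z₂ : G × U, f (z₁.1 + z₂.1) = ∑ i, π (A i) z₁ * (b i : G × U → K) z₂ := by
    intro z₁ z₂
    have e : (fun z : G × U => f (z.1 + z₂.1)) = ∑ i, (b i : G × U → K) z₂ • A i := by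
      funext z
      rw [Finset.sum_apply]
      refine (hg z z₂).trans (Finset.sum_congr rfl fun i _ => ?_)
      rw [Pi.smul_apply, smul_eq_mul, mul_comm]
    have h := congrFun (hπpull fun g => f (g + z₂.1)) z₁
    rw [e, map_sum] at h
    rw [← h, Finset.sum_apply]
    refine Finset.sum_congr rfl fun i _ => ?_
    rw [map_smul, Pi.smul_apply, smul_eq_mul, mul_comm]
  have h2 : ∀ z₁ z₂ : G × U, f (z₁.1 + z₂.1) = ∑ i, π (A i) z₁ * π (b i : G × U → K) z₂ := by
    intro z₁ z₂
    have e : (fun z : G × U => f (z₁.1 + z.1)) = ∑ i, π (A i) z₁ • (b i : G × U → K) := by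
      funext z
      rw [h1 z₁ z, Finset.sum_apply]
      exact Finset.sum_congr rfl fun i _ => rfl
    have h := congrFun (hπpull fun g => f (z₁.1 + g)) z₂
    rw [e, map_sum] at h
    rw [← h, Finset.sum_apply]
    refine Finset.sum_congr rfl fun i _ => ?_
    rw [map_smul]
    rfl
  have h3 : (fun z : G × G => f (z.1 + z.2)) =
      ∑ i, fun z : G × G => r ⟨A i, hA i⟩ z.1 * r (b i) z.2 := by
    funext z
    rw [Finset.sum_apply, h2 (z.1, u₀) (z.2, u₀)]
    refine Finset.sum_congr rfl fun i _ => ?_
    rw [hπHX _ (hA i), hπHX _ (b i).2]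
    rfl
  rw [h3]
  exact sum_mem fun i _ => Submodule.subset_span ⟨_, hrH _, _, hrH _, rfl⟩

end FLTAgent.ResidualSetup
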