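import Fermat.Agent.ResidualSetup.AddLocal
import Fermat.Agent.ResidualSetup.FlatPush
import Fermat.Agent.FlatHopf.Rat
import Fermat.Agent.EllTorsion.Galois

/-!
# Finite flat models of torsion at a good prime

`hasFlatModel_torsion`: if `p` is a good prime of an integral model, `E[N]` has a finite flat
model at `p`. For an auxiliary large prime `l` the points `P + k T`, with `P` in `E[N]` and `T` a
nonzero `l`-torsion point, never reduce to the origin, so their coordinates generate an order of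
functions on `E[N] × (E[l] - 0)`, which `hasOrder_of_pull` descends to `E[N]`.
-/

set_option autoImplicit false
set_option linter.style.haveILetI false
set_option linter.unusedSectionVars false

noncomputable section

open WeierstrassCurve
open scoped WeierstrassCurve.Affine

namespace FLTAgent.ResidualSetup

local notation "Qb" => AlgebraicClosure ℚ
local notation "Γℚ" => (AlgebraicClosure ℚ ≃ₐ[ℚ] AlgebraicClosure ℚ)

/-- The nonzero `l`-torsion points. -/
abbrev NzTorsion (W : WeierstrassCurve ℤ) (l : ℕ) : Type := {T : EllP.QTorsion W l // T ≠ 0}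

instance instMulActionNzTorsion (W : WeierstrassCurve ℤ) (l : ℕ) :
    MulAction Γℚ (NzTorsion W l) where
  smul σ T := ⟨σ • T.1, fun h => T.2 ((smul_eq_zero_iff_eq σ).mp h)⟩
  one_smul T := Subtype.ext (one_smul _ T.1)
  mul_smul σ τ T := Subtype.ext (mul_smul σ τ T.1)

/-- The action on torsion. -/
def torsEnd (W : WeierstrassCurve ℤ) (N : ℕ) : Γℚ →* AddMonoid.End (EllP.QTorsion W N) :=
  DistribMulAction.toAddMonoidEnd Γℚ (EllP.QTorsion W N)

variable {W : WeierstrassCurve ℤ} {N l : ℕ}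

/-- `j P + k T`. -/
def pt (j k : ℕ) (z : EllP.QTorsion W N × NzTorsion W l) : EllP.QPoint W :=
  j • (z.1 : EllP.QPoint W) + k • ((z.2.1 : EllP.QTorsion W l) : EllP.QPoint W)

theorem nsmul_smul_point (σ : Γℚ) (n : ℕ) (P : EllP.QPoint W) : n • σ • P = σ • (n • P) :=
  (map_nsmul (DistribSMul.toAddMonoidHom (EllP.QPoint W) σ) n P).symm

theorem pt_smul (j k : ℕ) (σ : Γℚ) (z : EllP.QTorsion W N × NzTorsion W l) :
    pt j k (σ • z.1, σ • z.2) = σ • pt j k z := by
  rw [pt, pt]
  refine Eq.trans ?_ (smul_add (A := EllP.QPoint W) σ _ _).symm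
  exact congrArg₂ (· + ·) (nsmul_smul_point σ j _) (nsmul_smul_point σ k _)

theorem nsmul_coe_eq_zero {n : ℕ} (P : EllP.QTorsion W n) : n • (P : EllP.QPoint W) = 0 := by
  rw [← natCast_zsmul]; exact (Submodule.mem_torsionBy_iff _ _).mp P.2

/-- The coordinate functions. -/
def gens (W : WeierstrassCurve ℤ) (N l : ℕ) :
    Set (EllP.QTorsion W N × NzTorsion W l → Qb) :=
  ⋃ i ∈ {i : Fin 2 × Fin l | (i.2 : ℕ) ≠ 0}, {xFun (pt i.1 i.2), yFun (pt i.1 i.2)}

theorem mem_gens {j k : ℕ} (hj : j < 2) (hk : k < l) (hk0 : k ≠ 0) :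
    xFun (pt (W := W) (N := N) (l := l) j k) ∈ gens W N l ∧
      yFun (pt (W := W) (N := N) (l := l) j k) ∈ gens W N l := by
  constructor <;>
  · simp only [gens, Set.mem_iUnion]
    exact ⟨(⟨j, hj⟩, ⟨k, hk⟩), hk0, by simp⟩

variable {p : ℕ} [Fact p.Prime] (hgood : ¬ (p : ℤ) ∣ W.Δ) (hl : l.Prime) (hlp : l ≠ p)
  (hlN : ¬ l ∣ N)

include hl hlp hlN in
theorem not_formal {B : ValuationSubring Qb} (hB : B.LiesOverPrime p) {P V : EllP.QPoint W}
    (hP : N • P = 0) (hV : l • V = 0) (hV0 : V ≠ 0) : ¬ EllP.InFormalAt B (P + V) := by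
  intro h
  have h1 : EllP.toModel B (N • V) ∈ EllLocal.E1 B (EllP.modelAt B W) := by
    rw [show N • V = N • (P + V) by rw [nsmul_add, hP, zero_add], map_nsmul]
    exact AddSubgroup.nsmul_mem _ ((EllP.mem_E1_iff B).mpr h) N
  have h2 : N • V = 0 := Local.Curve.eq_zero_of_E1 Fact.out hB
    (fun h => hlp ((Nat.prime_dvd_prime_iff_eq Fact.out hl).mp h).symm)
    (by rw [smul_comm, hV, nsmul_zero]) h1
  exact hV0 (AddMonoid.addOrderOf_eq_one_iff.mp (Nat.eq_one_of_dvd_coprimes
    ((hl.coprime_iff_not_dvd).mpr hlN) (addOrderOf_dvd_of_nsmul_eq_zero hV)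
    (addOrderOf_dvd_of_nsmul_eq_zero h2)))

include hl in
theorem nsmul_ne_zero (T : NzTorsion W l) {k : ℕ} (hk : k < l) (hk0 : k ≠ 0) :
    k • ((T.1 : EllP.QTorsion W l) : EllP.QPoint W) ≠ 0 := by
  intro h
  refine T.2 (Subtype.ext (AddMonoid.addOrderOf_eq_one_iff.mp (Nat.eq_one_of_dvd_coprimes
    ((hl.coprime_iff_not_dvd).mpr fun h' => absurd (Nat.le_of_dvd (Nat.pos_of_ne_zero hk0) h')
      hk.not_ge) (addOrderOf_dvd_of_nsmul_eq_zero (nsmul_coe_eq_zero T.1))
    (addOrderOf_dvd_of_nsmul_eq_zero h))))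

include hl hlp hlN in
theorem pt_not_formal {B : ValuationSubring Qb} (hB : B.LiesOverPrime p) {j k : ℕ} (hk : k < l)
    (hk0 : k ≠ 0) (z : EllP.QTorsion W N × NzTorsion W l) : ¬ EllP.InFormalAt B (pt j k z) :=
  not_formal hl hlp hlN hB (by rw [smul_comm, nsmul_coe_eq_zero, nsmul_zero])
    (by rw [smul_comm, nsmul_coe_eq_zero, nsmul_zero]) (nsmul_ne_zero hl z.2 hk hk0)

include hl hlp hlN in
theorem pt_ne_zero {j k : ℕ} (hk : k < l) (hk0 : k ≠ 0)
    (z : EllP.QTorsion W N × NzTorsion W l) : pt j k z ≠ 0 := by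
  obtain ⟨B, hB⟩ := GalCommon.exists_liesOverPrime (Fact.out : p.Prime)
  exact fun h => pt_not_formal hl hlp hlN hB hk hk0 z (Or.inl h)

include hl hlp hlN in
theorem gens_mem {B : ValuationSubring Qb} (hB : B.LiesOverPrime p)
    {f : EllP.QTorsion W N × NzTorsion W l → Qb} (hf : f ∈ gens W N l)
    (z : EllP.QTorsion W N × NzTorsion W l) : f z ∈ B := by
  simp only [gens, Set.mem_iUnion] at hf
  obtain ⟨⟨j, k⟩, hk, hf⟩ := hf
  have h := pt_not_formal hl hlp hlN hB k.2 hk (j := j) z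
  obtain ⟨n, e⟩ := exists_eq_some (fun h0 => h (Or.inl h0))
  have hx : EllP.xCoord (pt j k z) ∈ B := by
    by_contra hx
    exact h (Or.inr hx)
  rcases hf with rfl | rfl
  · exact hx
  · exact EllLocal.y_mem_of_x_mem (W₀ := EllP.modelAt B W)
      ((EllP.genCurve_modelAt B W).symm ▸ n.1) hx

/-- The ring of the coordinate functions. -/
abbrev coordRing (W : WeierstrassCurve ℤ) (N l p : ℕ) :
    Subalgebra (GaloisRep.ratLocalizedAt p) (EllP.QTorsion W N × NzTorsion W l → Qb) :=
  Algebra.adjoin _ (gens W N l)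

/-- The ring of the coordinate functions of two points. -/
abbrev pairRing (W : WeierstrassCurve ℤ) (N l p : ℕ) :
    Subalgebra (GaloisRep.ratLocalizedAt p)
      ((EllP.QTorsion W N × NzTorsion W l) × (EllP.QTorsion W N × NzTorsion W l) → Qb) :=
  Algebra.adjoin _ ((fun f ζ => f ζ.1) '' gens W N l ∪ (fun f ζ => f ζ.2) '' gens W N l)

include hl hlp hlN in
theorem pairRing_mem {B : ValuationSubring Qb} (hB : B.LiesOverPrime p)
    {a : (EllP.QTorsion W N × NzTorsion W l) × (EllP.QTorsion W N × NzTorsion W l) → Qb}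
    (ha : a ∈ pairRing W N l p) (ζ) : a ζ ∈ B := by
  induction ha using Algebra.adjoin_induction with
  | mem a ha =>
    rcases ha with ⟨f, hf, rfl⟩ | ⟨f, hf, rfl⟩ <;> exact gens_mem hl hlp hlN hB hf _
  | algebraMap r => exact FlatJ.algebraMap_Rl_mem hB r
  | add a b _ _ h h' => exact add_mem h h'
  | mul a b _ _ h h' => exact mul_mem h h'

variable [Finite (EllP.QTorsion W N)] [Finite (NzTorsion W l)]

include hl hlp hlN in
theorem hasCoords_fst {j k : ℕ} (hj : j < 2) (hk : k < l) (hk0 : k ≠ 0)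
    (ζ₀ : (EllP.QTorsion W N × NzTorsion W l) × (EllP.QTorsion W N × NzTorsion W l))
    (B : ValuationSubring Qb) :
    HasCoords (locIn (pairRing W N l p) ζ₀ B) ζ₀ B 1 (fun ζ => pt j k ζ.1) where
  w_mem := one_mem _
  w_unit := by simp
  ne_zero _ _ := pt_ne_zero (p := p) hl hlp hlN hk hk0 _
  x_mem := le_locIn (Algebra.subset_adjoin (Or.inl ⟨_, (mem_gens hj hk hk0).1, rfl⟩))
  y_mem := le_locIn (Algebra.subset_adjoin (Or.inl ⟨_, (mem_gens hj hk hk0).2, rfl⟩))

include hl hlp hlN in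
theorem hasCoords_snd {j k : ℕ} (hj : j < 2) (hk : k < l) (hk0 : k ≠ 0)
    (ζ₀ : (EllP.QTorsion W N × NzTorsion W l) × (EllP.QTorsion W N × NzTorsion W l))
    (B : ValuationSubring Qb) :
    HasCoords (locIn (pairRing W N l p) ζ₀ B) ζ₀ B 1 (fun ζ => pt j k ζ.2) where
  w_mem := one_mem _
  w_unit := by simp
  ne_zero _ _ := pt_ne_zero (p := p) hl hlp hlN hk hk0 _
  x_mem := le_locIn (Algebra.subset_adjoin (Or.inr ⟨_, (mem_gens hj hk hk0).1, rfl⟩))
  y_mem := le_locIn (Algebra.subset_adjoin (Or.inr ⟨_, (mem_gens hj hk hk0).2, rfl⟩))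

include hgood hl hlp hlN in
theorem coord_sum_mem (hl2 : 2 < l) {j k : ℕ} (hj : j < 2) (hk : k < l) (hk0 : k ≠ 0) :
    (fun ζ : (EllP.QTorsion W N × NzTorsion W l) × (EllP.QTorsion W N × NzTorsion W l) =>
        xFun (pt j k) (ζ.1.1 + ζ.2.1, ζ.1.2)) ∈ pairRing W N l p ∧
      (fun ζ : (EllP.QTorsion W N × NzTorsion W l) × (EllP.QTorsion W N × NzTorsion W l) =>
        yFun (pt j k) (ζ.1.1 + ζ.2.1, ζ.1.2)) ∈ pairRing W N l p := by
  obtain rfl | rfl : j = 0 ∨ j = 1 := by omega
  · simp only [xFun, yFun, pt, zero_nsmul, zero_add]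
    constructor
    · refine Algebra.subset_adjoin (Or.inl ⟨_, (mem_gens (by omega : 0 < 2) hk hk0).1, ?_⟩)
      funext ζ
      simp [xFun, pt]
    · refine Algebra.subset_adjoin (Or.inl ⟨_, (mem_gens (by omega : 0 < 2) hk hk0).2, ?_⟩)
      funext ζ
      simp [yFun, pt]
  refine (and_iff_left_of_imp fun _ => ?_).mpr ?_ <;>
  refine mem_of_forall_locIn (fun a ha ζ B hB => pairRing_mem hl hlp hlN hB ha ζ)
    fun ζ₀ B hB => ?_
  all_goals
    obtain ⟨⟨P₁, T₁⟩, ⟨P₂, T₂⟩⟩ := ζ₀
    obtain ⟨m, hm1, hm2, hne⟩ : ∃ m : ℕ, 1 ≤ m ∧ m ≤ 2 ∧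
        k • ((T₁.1 : EllP.QTorsion W l) : EllP.QPoint W) +
          m • ((T₂.1 : EllP.QTorsion W l) : EllP.QPoint W) ≠ 0 := by
      by_cases h : k • ((T₁.1 : EllP.QTorsion W l) : EllP.QPoint W) +
          1 • ((T₂.1 : EllP.QTorsion W l) : EllP.QPoint W) = 0
      · refine ⟨2, by omega, le_rfl, fun h2 => nsmul_ne_zero hl T₂ (k := 1) (by omega) one_ne_zero ?_⟩
        rw [← add_left_cancel_iff (a := k • ((T₁.1 : EllP.QTorsion W l) : EllP.QPoint W) +
          1 • ((T₂.1 : EllP.QTorsion W l) : EllP.QPoint W)), add_assoc, ← add_nsmul, add_zero, h2, h]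
      · exact ⟨1, le_rfl, by omega, h⟩
    have hint : ∀ a ∈ pairRing W N l p,
        a ((P₁, T₁), (P₂, T₂)) ∈ B := fun a ha => pairRing_mem hl hlp hlN hB ha _
    obtain ⟨w, hQ⟩ := exists_hasCoords_add Fact.out hB hgood hint
      (hasCoords_fst hl hlp hlN (j := 1) (by omega) hk hk0 _ B)
      (hasCoords_snd hl hlp hlN (j := 1) (k := m) (by omega) (by omega) (by omega) _ B) (by
        simp only [pt, one_nsmul]
        rw [add_add_add_comm]
        refine not_formal hl hlp hlN hB (by rw [nsmul_add, nsmul_coe_eq_zero, nsmul_coe_eq_zero,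
          add_zero]) ?_ hne
        rw [nsmul_add, smul_comm, nsmul_coe_eq_zero, nsmul_zero, smul_comm, nsmul_coe_eq_zero,
          nsmul_zero, add_zero])
    have hsnd := hasCoords_snd (W := W) (N := N) hl hlp hlN (j := 0) (k := l - m) (by omega)
      (by omega) (by omega) ((P₁, T₁), (P₂, T₂)) B
    have e : ∀ ζ : (EllP.QTorsion W N × NzTorsion W l) × (EllP.QTorsion W N × NzTorsion W l),
        pt 1 k ζ.1 + pt 1 m ζ.2 + pt 0 (l - m) ζ.2 = pt 1 k (ζ.1.1 + ζ.2.1, ζ.1.2) := by
      intro ζ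
      simp only [pt, one_nsmul, zero_nsmul, zero_add, Submodule.coe_add]
      rw [add_add_add_comm, add_assoc, add_assoc (k • _), ← add_nsmul, Nat.add_sub_cancel' (by omega),
        nsmul_coe_eq_zero, add_zero]
    obtain ⟨w', hS⟩ := exists_hasCoords_add Fact.out hB hgood hint (w := w)
      (P₂ := fun ζ => pt 0 (l - m) ζ.2) hQ
      ⟨hQ.w_mem, hQ.w_unit, fun z _ => hsnd.ne_zero z (by simp), hsnd.x_mem, hsnd.y_mem⟩
      (by
        show ¬ EllP.InFormalAt B (pt 1 k (P₁, T₁) + pt 1 m (P₂, T₂) + pt 0 (l - m) (P₂, T₂))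
        rw [e ((P₁, T₁), (P₂, T₂))]
        exact pt_not_formal hl hlp hlN hB hk hk0 _)
    rw [funext e] at hS
    first | exact hS.x_mem | exact hS.y_mem

include hgood in
/-- `E[N]` of an integral model has a finite flat model at a good prime. -/
theorem hasFlatModel_torsion (hΔ : W.Δ ≠ 0) (hN : N ≠ 0) :
    FlatHopf.HasFlatModel p (torsEnd W N) := by
  classical
  haveI := EllTorsion.isElliptic_map_rat hΔ
  obtain ⟨l, hle, hl⟩ := Nat.exists_infinite_primes (N + p + 3)
  haveI : Finite (EllP.QTorsion W N) :=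
    EllTorsion.finite_torsionBy_rat (W.map (Int.castRingHom ℚ)) N hN
  haveI : Finite (EllP.QTorsion W l) :=
    EllTorsion.finite_torsionBy_rat (W.map (Int.castRingHom ℚ)) l hl.ne_zero
  haveI : Nonempty (NzTorsion W l) := by
    haveI := EllTorsion.nontrivial_torsionBy_rat (W.map (Int.castRingHom ℚ)) l hl.two_le
    obtain ⟨T, hT⟩ := exists_ne (0 : EllP.QTorsion W l)
    exact ⟨⟨T, hT⟩⟩
  have hlp : l ≠ p := by omega
  have hlN : ¬ l ∣ N := fun h => absurd (Nat.le_of_dvd (Nat.pos_of_ne_zero hN) h) (by omega)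
  have hgfin : (gens W N l).Finite :=
    Set.Finite.biUnion (Set.toFinite _) fun _ _ => Set.toFinite _
  refine FlatHopf.hasFlatModel_iff_hasOrder.2 (hasOrder_of_pull (U := NzTorsion W l)
    FlatHopf.fixedIsFrac_galR (coordRing W N l p) ?_ ?_ ?_ ?_)
  · exact fg_adjoin_of_finite hgfin fun f hf => isIntegral_of_forall_apply fun z =>
      FlatJ.isIntegral_Rl_of_forall_mem fun V hV => gens_mem hl hlp hlN hV hf z
  · intro a ha σ
    induction ha using Algebra.adjoin_induction with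
    | mem a ha =>
      simp only [gens, Set.mem_iUnion] at ha
      obtain ⟨i, -, rfl | rfl⟩ := ha <;> intro z
      · exact (congrArg EllP.xCoord (pt_smul i.1 i.2 σ z)).trans (EllP.xCoord_smul σ _)
      · exact (congrArg yCoord (pt_smul i.1 i.2 σ z)).trans (yCoord_smul σ _)
    | algebraMap r => intro z; exact (AlgEquiv.commutes (FlatHopf.galR p σ) r).symm
    | add a b _ _ h h' => intro z; simp only [Pi.add_apply, h z, h' z, map_add]
    | mul a b _ _ h h' => intro z; simp only [Pi.mul_apply, h z, h' z, map_mul]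
  · intro z z' h
    have hpt : ∀ j, j < 2 → pt j 1 z = pt j 1 z' := fun j hj => eq_of_coord
      (pt_ne_zero (p := p) hl hlp hlN (by omega) one_ne_zero z)
      (pt_ne_zero (p := p) hl hlp hlN (by omega) one_ne_zero z')
      (h _ (Algebra.subset_adjoin (mem_gens hj (by omega) one_ne_zero).1))
      (h _ (Algebra.subset_adjoin (mem_gens hj (by omega) one_ne_zero).2))
    have h0 := hpt 0 (by omega)
    have h1 := hpt 1 (by omega)
    simp only [pt, zero_nsmul, one_nsmul, zero_add] at h0 h1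
    rw [h0, add_left_inj] at h1
    exact Prod.ext (Subtype.ext h1) (Subtype.ext (Subtype.ext h0))
  · intro a ha
    have hle : pairRing W N l p ≤ Submodule.toSubalgebra
        (FlatHopf.prodSpan (Subalgebra.toSubmodule (coordRing W N l p))
          (Subalgebra.toSubmodule (coordRing W N l p)))
        (FlatHopf.one_mem_prodSpan _ _) (fun _ _ => FlatHopf.mul_mem_prodSpan _ _) := by
      refine Algebra.adjoin_le ?_
      rintro _ (⟨f, hf, rfl⟩ | ⟨f, hf, rfl⟩)
      · exact Submodule.subset_span ⟨f, Algebra.subset_adjoin hf, 1,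
          one_mem (coordRing W N l p),
          funext fun ζ => by simp⟩
      · exact Submodule.subset_span ⟨1, one_mem (coordRing W N l p), f,
          Algebra.subset_adjoin hf,
          funext fun ζ => by simp⟩
    refine hle ?_
    induction ha using Algebra.adjoin_induction with
    | mem a ha =>
      simp only [gens, Set.mem_iUnion] at ha
      obtain ⟨⟨j, k⟩, hk, rfl | rfl⟩ := ha
      · exact (coord_sum_mem hgood hl hlp hlN (by omega) j.2 k.2 hk).1
      · exact (coord_sum_mem hgood hl hlp hlN (by omega) j.2 k.2 hk).2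
    | algebraMap r => exact Subalgebra.algebraMap_mem _ r
    | add a b _ _ h h' => exact add_mem h h'
    | mul a b _ _ h h' => exact mul_mem h h'

end FLTAgent.ResidualSetup
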