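import Fermat.Agent.ResidualSetup.TateRep
import Fermat.Agent.ResidualSetup.Flat

/-!
# Local properties of the Tate representation

For `tateRep` over a discrete valuation ring, with `p` odd and `E[p]` irreducible where needed:
the determinant is cyclotomic (`tateRep_det`, through `Reps.det_eq_cyc`), the trace of Frobenius
at a good `ℓ ≠ p` is `a_ℓ` (`tateRep_trace_frob`), inertia at `l ≠ p` is unipotent for semistable
`W` (`tateRep_unipotent`) and trivial at good `l` (`tateRep_unramified`), and the representation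
is flat at a good `p` (`tateRep_flat`).
-/

set_option autoImplicit false
set_option linter.style.haveILetI false
set_option linter.unusedSectionVars false

noncomputable section

open WeierstrassCurve WeierstrassCurve.Affine.Point
open scoped WeierstrassCurve.Affine TensorProduct
open IsLocalRing (ResidueField maximalIdeal)
open Polynomial (X C)

namespace FLTAgent.ResidualSetup

open FLTAgent.MazurP
open Reps (padicHom cyc cycMod)

local notation "Qb" => AlgebraicClosure ℚ
local notation "Γℚ" => (AlgebraicClosure ℚ ≃ₐ[ℚ] AlgebraicClosure ℚ)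

variable {W : WeierstrassCurve ℤ} {p : ℕ} [Fact p.Prime] {O : Type} [CommRing O] [IsDomain O]
  [IsDiscreteValuationRing O] [IsAdicComplete (maximalIdeal O) O] [CharZero O]
  (S : TateSystem W p) (hΔ : W.Δ ≠ 0) (hpO : (p : O) ∈ maximalIdeal O)

/-- The determinant is the cyclotomic character. -/
theorem tateRep_det (hp2 : p ≠ 2) (hirr : W.ModRepIsIrreducible p) (g : Γℚ) :
    LinearMap.det ((tateRep S hΔ hpO).ρ g) = padicHom (maximalIdeal O) hpO (cyc p g) := by
  obtain ⟨b, hb⟩ := exists_isOddBasis hΔ hp2 hirr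
  obtain ⟨c, hc⟩ := hb.exists_conj
  refine Reps.det_eq_cyc hpO (tateRep S hΔ hpO) (insert p W.Δ.natAbs.primeFactors)
    (Finset.mem_insert_self _ _) (fun ℓ hℓ hℓS A hA σ hσ => ?_) c (fun a ha => ?_) g
  · rw [Finset.mem_insert, not_or, Nat.mem_primeFactors] at hℓS
    exact ⟨_, tateRep_frob_rel S hΔ hpO hp2 hℓ
      (fun h => hℓS.2 ⟨hℓ, Int.natCast_dvd.mp h, Int.natAbs_ne_zero.2 hΔ⟩) hℓS.1 hA hσ⟩
  · obtain ⟨B, hB⟩ := isModRep_residual S hΔ hpO b
    have hsc : ∀ x : (tateRep S hΔ hpO).residual.V, (tateRep S hΔ hpO).residual.ρ c x =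
        IsLocalRing.residue O a • x := by
      intro x
      show ((tateRep S hΔ hpO).ρ c).baseChange (ResidueField O) x = _
      rw [ha, LinearMap.baseChange_smul, LinearMap.baseChange_one, LinearMap.smul_apply,
        Module.End.one_apply]
      exact (algebraMap_smul (ResidueField O) a _).symm
    have hkk : ∀ k, IsLocalRing.residue O a =
        residueHom (p := p) hpO ((!![1, 0; 0, -1] : Matrix (Fin 2) (Fin 2) (ZMod p)) k k) := by
      intro k
      rw [← hc, ← Matrix.map_apply (f := residueHom (p := p) hpO), ← hB, LinearMap.toMatrix_apply,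
        hsc, map_smul, Finsupp.smul_apply, Module.Basis.repr_self, Finsupp.single_eq_same,
        smul_eq_mul, mul_one]
    have h00 := hkk 0
    have h11 := hkk 1
    simp only [Matrix.of_apply, Matrix.cons_val', Matrix.cons_val_zero, Matrix.cons_val_one,
      Matrix.cons_val_fin_one, _root_.map_one, _root_.map_neg] at h00 h11
    rw [h00] at h11
    refine two_ne_zero_zmod hp2 ((residueHom (p := p) hpO).injective ?_)
    rw [map_ofNat, _root_.map_zero, ← one_add_one_eq_two]
    exact eq_neg_iff_add_eq_zero.mp h11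

theorem tateRep_detIsCyclotomic (hp2 : p ≠ 2) (hirr : W.ModRepIsIrreducible p) :
    (tateRep S hΔ hpO).DetIsCyclotomic p := by
  refine ⟨hpO, fun n σ a ha => ?_⟩
  rw [tateRep_det S hΔ hpO hp2 hirr]
  have h : PadicInt.toZModPow n (cyc p σ - (a : ℤ_[p])) = 0 := by
    rw [map_sub, map_natCast, sub_eq_zero]
    exact Reps.cycMod_eq_of_spec n σ ha
  rw [← RingHom.mem_ker, PadicInt.ker_toZModPow, Ideal.mem_span_singleton'] at h
  obtain ⟨y, hy⟩ := h
  refine Ideal.mem_span_singleton'.mpr ⟨padicHom (maximalIdeal O) hpO y, ?_⟩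
  rw [← map_natCast (padicHom (maximalIdeal O) hpO) (p ^ n), ← map_mul, Nat.cast_pow, hy, map_sub,
    map_natCast]

theorem tateRep_charpoly (hp2 : p ≠ 2) (hirr : W.ModRepIsIrreducible p) {σ : Γℚ} {a : O}
    (h : (tateRep S hΔ hpO).ρ σ * (tateRep S hΔ hpO).ρ σ - a • (tateRep S hΔ hpO).ρ σ +
      LinearMap.det ((tateRep S hΔ hpO).ρ σ) • (1 : Module.End O (tateRep S hΔ hpO).V) = 0) :
    (tateRep S hΔ hpO).trace σ = a := by
  set R := (tateRep S hΔ hpO).ρ σ with hR
  have hch : R * R - LinearMap.trace O (tateRep S hΔ hpO).V R • R +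
      LinearMap.det R • (1 : Module.End O (tateRep S hΔ hpO).V) = 0 := by
    have := LinearMap.aeval_self_charpoly R
    rw [Reps.charpoly_of_finrank_eq_two (tateRep S hΔ hpO).finrank_eq] at this
    simpa [pow_two, Algebra.smul_def] using this
  have h2 : (a - LinearMap.trace O (tateRep S hΔ hpO).V R) • R = 0 := by
    rw [sub_smul, ← sub_eq_zero.mpr (hch.trans h.symm)]
    abel
  have hunit : IsUnit R := ⟨(tateRep S hΔ hpO).ρ.toHomUnits σ, rfl⟩
  have h3 : (a - LinearMap.trace O (tateRep S hΔ hpO).V R) •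
      (1 : Module.End O (tateRep S hΔ hpO).V) = 0 :=
    hunit.mul_left_eq_zero.mp (by rw [smul_mul_assoc, one_mul, h2])
  have h4 := congrArg (fun f => (tateBasis S hΔ hpO).repr (f (tateBasis S hΔ hpO 0)) 0) h3
  simp only [LinearMap.smul_apply, Module.End.one_apply, map_smul, Finsupp.smul_apply,
    Module.Basis.repr_self, Finsupp.single_eq_same, smul_eq_mul, mul_one, LinearMap.zero_apply,
    _root_.map_zero, Finsupp.coe_zero, Pi.zero_apply] at h4
  exact (sub_eq_zero.mp h4).symm

theorem tateRep_trace_frob (hp2 : p ≠ 2) (hirr : W.ModRepIsIrreducible p) {ℓ : ℕ} (hℓ : ℓ.Prime)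
    (hgood : W.IsGoodPrimeFor ℓ) (hℓp : ℓ ≠ p) {A : ValuationSubring Qb} (hA : A.LiesOverPrime ℓ)
    {φ : Γℚ} (hφ : A.IsFrobeniusAt φ ℓ) :
    (tateRep S hΔ hpO).trace φ = (W.apOfModel ℓ : O) := by
  refine tateRep_charpoly S hΔ hpO hp2 hirr ?_
  rw [tateRep_det S hΔ hpO hp2 hirr, Reps.cyc_frobenius hℓ hℓp hA hφ, map_natCast]
  exact tateRep_frob_rel S hΔ hpO hp2 hℓ hgood hℓp hA hφ

theorem tateRep_unipotent (hp2 : p ≠ 2) (hirr : W.ModRepIsIrreducible p)
    (hss : W.IsSemistableModel) {l : ℕ} (hl : l.Prime) (hlp : l ≠ p) :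
    (tateRep S hΔ hpO).IsUnipotentOnInertiaAt l := by
  intro A hA σ hσ
  have hd : LinearMap.det ((tateRep S hΔ hpO).ρ σ) = 1 := by
    rw [tateRep_det S hΔ hpO hp2 hirr, Reps.cyc_inertia hl hlp hA hσ, map_one]
  have hrel := tateRep_rel S hΔ hpO (a := 2) (m := 1) (σ := σ) fun n x => by
    have h := Local.Curve.smul_sub_smul_sub_eq_zero hl hA hΔ (hss l hl)
      (((Fact.out : p.Prime).odd_of_ne_two hp2).pow (n := n))
      (fun h => hlp ((Nat.prime_dvd_prime_iff_eq hl Fact.out).mp (hl.dvd_of_dvd_pow h))) hσ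
      (torsion_nsmul_eq_zero x)
    have e : σ • (σ • (x : EllP.QPoint W) - (x : EllP.QPoint W)) =
        σ • σ • (x : EllP.QPoint W) - σ • (x : EllP.QPoint W) :=
      smul_sub (A := EllP.QPoint W) σ _ _
    rw [e] at h
    rw [two_zsmul, Nat.cast_one, one_zsmul, ← h]
    abel
  have ht := tateRep_charpoly S hΔ hpO hp2 hirr (a := 2) (σ := σ) (by
    rw [hd]
    simpa using hrel)
  rw [Reps.charpoly_of_finrank_eq_two (tateRep S hΔ hpO).finrank_eq, hd,
    show LinearMap.trace O _ ((tateRep S hΔ hpO).ρ σ) = (2 : O) from ht, map_ofNat, map_one]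
  ring

theorem tateRep_eq_one_of_forall {σ : Γℚ}
    (h : ∀ n : ℕ, ∀ x : EllP.QTorsion W (p ^ n), σ • x = x) :
    (tateRep S hΔ hpO).ρ σ = 1 := by
  have hm : S.mat hΔ σ = 1 := TateSystem.padicMat_ext fun n => by
    rw [map_one, S.toZModPow_mat, (S.galMat_eq_one_iff hΔ n σ).mpr (h n)]
  show Matrix.toLinAlgEquiv' ((padicHom (maximalIdeal O) hpO).mapMatrix (S.mat hΔ σ)) = _
  rw [hm, map_one, map_one]
  rfl

theorem tateRep_unramified {l : ℕ} (hl : l.Prime) (hlp : l ≠ p) (hlΔ : ¬ (l : ℤ) ∣ W.Δ) :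
    (tateRep S hΔ hpO).IsUnramifiedAt l := fun _ hA σ hσ =>
  tateRep_eq_one_of_forall S hΔ hpO fun n x => Subtype.ext
    (Local.Curve.smul_eq_of_good hl hA hlΔ
      (fun h => hlp ((Nat.prime_dvd_prime_iff_eq hl Fact.out).mp (hl.dvd_of_dvd_pow h))) hσ
      (torsion_nsmul_eq_zero x))

/-- The action on a finite level. -/
def levelEnd (ρ : GaloisRepAdic O) (I : Ideal O) :
    Γℚ →* AddMonoid.End (ρ.V ⧸ (I • (⊤ : Submodule O ρ.V))) where
  toFun σ := (ρ.levelAction I σ).toAddMonoidHom
  map_one' := by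
    refine AddMonoidHom.ext fun x => ?_
    induction x using Submodule.Quotient.induction_on with
    | _ v => exact congrArg Submodule.Quotient.mk (by rw [map_one]; rfl)
  map_mul' σ τ := by
    refine AddMonoidHom.ext fun x => ?_
    induction x using Submodule.Quotient.induction_on with
    | _ v => exact congrArg Submodule.Quotient.mk (by rw [map_mul]; rfl)

/-- At a good prime `p` the representation is flat. -/
theorem tateRep_flat [Finite (ResidueField O)] (hgood : ¬ (p : ℤ) ∣ W.Δ) :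
    (tateRep S hΔ hpO).IsFlatAt p := by
  classical
  refine ⟨inferInstance, fun I hI => ?_⟩
  obtain ⟨n, hn⟩ : ∃ n, maximalIdeal O ^ n ≤ I := by
    by_cases htop : I = ⊤
    · exact ⟨0, htop ▸ le_top⟩
    haveI : Nontrivial (O ⧸ I) := Ideal.Quotient.nontrivial_iff.2 htop
    haveI : IsLocalRing (O ⧸ I) :=
      IsLocalRing.of_surjective' (Ideal.Quotient.mk I) Ideal.Quotient.mk_surjective
    obtain ⟨n, hn⟩ := IsArtinianRing.isNilpotent_jacobson_bot (R := O ⧸ I)
    rw [IsLocalRing.jacobson_eq_maximalIdeal ⊥ bot_ne_top, Ideal.zero_eq_bot,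
      ← IsLocalRing.map_maximalIdeal_of_surjective (Ideal.Quotient.mk I) Ideal.Quotient.mk_surjective,
      ← Ideal.map_pow, Ideal.map_eq_bot_iff_le_ker, Ideal.mk_ker] at hn
    exact ⟨n, hn⟩
  haveI := EllTorsion.isElliptic_map_rat hΔ
  haveI : Finite (EllP.QTorsion W (p ^ n)) := EllTorsion.finite_torsionBy_rat
    (W.map (Int.castRingHom ℚ)) _ (pow_ne_zero n (Fact.out : p.Prime).ne_zero)
  haveI := Fintype.ofFinite (O ⧸ I)
  let e : ZMod (p ^ n) →+* O ⧸ I :=
    (Ideal.Quotient.factor hn).comp (Reps.zmodToQuot (maximalIdeal O) hpO n)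
  have he : ∀ x : ℤ_[p], e (PadicInt.toZModPow n x) =
      Ideal.Quotient.mk I (padicHom (maximalIdeal O) hpO x) := fun x => by
    rw [show e (PadicInt.toZModPow n x) = Ideal.Quotient.factor hn
      (Reps.zmodToQuot (maximalIdeal O) hpO n (PadicInt.toZModPow n x)) from rfl,
      ← Reps.mk_padicHom, Ideal.Quotient.factor_mk]
  -- vectors with the same residues have the same class
  let cls : (Fin 2 → O) → (tateRep S hΔ hpO).V ⧸
      (I • (⊤ : Submodule O (tateRep S hΔ hpO).V)) := Submodule.Quotient.mk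
  have hcls : ∀ v w : Fin 2 → O, (∀ i, Ideal.Quotient.mk I (v i) = Ideal.Quotient.mk I (w i)) →
      cls v = cls w := fun v w h =>
    (Submodule.Quotient.eq _).mpr (mem_smul_top_fin fun i => Ideal.Quotient.eq.mp (h i))
  have hout : ∀ c : O ⧸ I, Ideal.Quotient.mk I c.out = c := fun c => Quotient.out_eq' c
  haveI : Finite ((tateRep S hΔ hpO).V ⧸ (I • (⊤ : Submodule O (tateRep S hΔ hpO).V))) := by
    refine Finite.of_surjective (fun v : Fin 2 → O ⧸ I => cls fun i => (v i).out) fun x => ?_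
    induction x using Submodule.Quotient.induction_on with
    | _ w => exact ⟨fun i => Ideal.Quotient.mk I (w i), hcls _ _ fun i => hout _⟩
  let π : ((O ⧸ I) → EllP.QTorsion W (p ^ n)) →+
      (tateRep S hΔ hpO).V ⧸ (I • (⊤ : Submodule O (tateRep S hΔ hpO).V)) :=
    { toFun := fun f => cls fun i => ∑ c, c.out * (e (S.coord hΔ n (f c) i)).out
      map_zero' := hcls _ 0 fun i => by
        simp [map_sum, hout]
      map_add' := fun f g => by
        refine Eq.trans (hcls _ _ fun i => ?_) (Submodule.Quotient.mk_add _)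
        simp [map_sum, hout, mul_add, Finset.sum_add_distrib] }
  refine (((hasFlatModel_torsion hgood hΔ (pow_ne_zero n (Fact.out : p.Prime).ne_zero)).pi
    (O ⧸ I)).of_surjective (act' := levelEnd (tateRep S hΔ hpO) I) π (fun x => ?_) fun σ f => ?_)
  · induction x using Submodule.Quotient.induction_on with
    | _ w =>
      refine ⟨fun c => (S.coord hΔ n).symm
        fun i => if Ideal.Quotient.mk I (w i) = c then 1 else 0, hcls _ _ fun i => ?_⟩
      simp [map_sum, hout]
  · refine hcls _ _ fun i => ?_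
    show _ = Ideal.Quotient.mk I ((Matrix.mulVec
      ((padicHom (maximalIdeal O) hpO).mapMatrix (S.mat hΔ σ))
        fun j => ∑ c, c.out * (e (S.coord hΔ n (f c) j)).out) i)
    rw [map_sum]
    simp only [Matrix.mulVec, dotProduct, map_sum, map_mul, hout]
    simp only [Finset.mul_sum]
    rw [Finset.sum_comm]
    refine Finset.sum_congr rfl fun c _ => ?_
    rw [show (FlatHopf.piAct (torsEnd W (p ^ n)) (O ⧸ I) σ f) c = σ • f c from rfl,
      ← S.galMat_mulVec, ← S.toZModPow_mat]
    simp only [Matrix.mulVec, dotProduct, map_sum, map_mul, he, Finset.mul_sum,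
      RingHom.mapMatrix_apply, Matrix.map_apply]
    exact Finset.sum_congr rfl fun j _ => mul_left_comm _ _ _

end FLTAgent.ResidualSetup
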