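import Fermat.Agent.ResidualSetup.Node
import Fermat.Agent.ResidualSetup.TateLocal
import Fermat.Prelude.Def_GaloisRep_StrictOrdinary

/-!
# The Tate representation at multiplicative places

Let `p` be `3` or `5`. At a place over a multiplicative prime the torsion on the identity
component gives a line in `ℤ_p ^ 2` (`exists_line`) in whose basis the decomposition matrices are
triangular, with a sign as lower corner, trivial on inertia (`exists_triangular`). Consequently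
`tateRep_strictOrdinary` if `p` is multiplicative and `E[p]` irreducible, and `tateRep_ramified`
at every multiplicative prime.
-/

set_option autoImplicit false
set_option linter.style.haveILetI false
set_option linter.unusedSectionVars false

noncomputable section

open WeierstrassCurve WeierstrassCurve.Affine.Point Matrix
open scoped WeierstrassCurve.Affine
open IsLocalRing (ResidueField maximalIdeal)

namespace FLTAgent.ResidualSetup

open EllP (QPoint QTorsion)
open Reps (padicHom cyc)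

local notation "Qb" => AlgebraicClosure ℚ
local notation "Γℚ" => (AlgebraicClosure ℚ ≃ₐ[ℚ] AlgebraicClosure ℚ)

variable {p : ℕ} [hp : Fact p.Prime] {W : WeierstrassCurve ℤ}

theorem padicInt_eq_of_toZModPow {x y : ℤ_[p]}
    (h : ∀ n, PadicInt.toZModPow n x = PadicInt.toZModPow n y) : x = y :=
  PadicInt.ext_of_toZModPow.mp h

theorem isUnit_of_toZModPow_one_ne_zero {x : ℤ_[p]} (h : PadicInt.toZModPow 1 x ≠ 0) :
    IsUnit x := by
  by_contra hx
  refine h ?_
  rw [← RingHom.mem_ker, PadicInt.ker_toZModPow, pow_one, ← PadicInt.maximalIdeal_eq_span_p,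
    IsLocalRing.mem_maximalIdeal]
  exact hx

/-- A basis of `ℤ_p ^ 2` through a given primitive vector. -/
theorem exists_units_matrix {w : Fin 2 → ℤ_[p]} {i : Fin 2} (hi : IsUnit (w i)) :
    ∃ M : (Matrix (Fin 2) (Fin 2) ℤ_[p])ˣ, ∀ r,
      (M : Matrix (Fin 2) (Fin 2) ℤ_[p]) r 0 = w r := by
  let N : Matrix (Fin 2) (Fin 2) ℤ_[p] :=
    Matrix.of fun r k => if k = 0 then w r else (Pi.single (i + 1) 1 : Fin 2 → ℤ_[p]) r
  have hN : IsUnit N := by
    rw [Matrix.isUnit_iff_isUnit_det, Matrix.det_fin_two]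
    fin_cases i <;> simpa [N] using hi
  exact ⟨hN.unit, fun r => by simp [N]⟩

namespace NodeData

variable {A : ValuationSubring (AlgebraicClosure ℚ)} (D : NodeData W A) (S : TateSystem W p)
  (hp35 : p = 3 ∨ p = 5) (hΔ : W.Δ ≠ 0)

include D hp35 in
/-- The line of torsion on the identity component, in coordinates. -/
theorem exists_line : ∃ w : Fin 2 → ℤ_[p], (∃ i, IsUnit (w i)) ∧
    ∀ (n : ℕ) (x : QTorsion W (p ^ n)), x ∈ D.e0 (p ^ n) ↔
      ∃ a : ZMod (p ^ n), S.coord hΔ n x = fun i => a * PadicInt.toZModPow n (w i) := by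
  haveI : ∀ n : ℕ, Finite (QTorsion W (p ^ n)) := fun n => finite_qTorsion (p := p) hΔ n
  obtain ⟨g₁, hg₁⟩ : ∃ x : D.e0 (p ^ (0 + 1)), x ≠ 0 := by
    haveI : Nontrivial (D.e0 (p ^ (0 + 1))) := Finite.one_lt_card_iff_nontrivial.mp (by
      rw [(D.card_e0_and_range hp35 hΔ (0 + 1)).1]
      exact Nat.one_lt_pow (by omega) hp.out.one_lt)
    exact exists_ne 0
  let g : ∀ n, D.e0 (p ^ (n + 1)) := fun n =>
    Nat.rec g₁ (fun n x => (D.mulP_surjective hp35 hΔ (n + 1) x).choose) n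
  have hg : ∀ n, D.mulP (n + 1) (g (n + 1)) = g n := fun n =>
    (D.mulP_surjective hp35 hΔ (n + 1) (g n)).choose_spec
  let G : ∀ n, D.e0 (p ^ n) := fun n => D.mulP n (g n)
  have hG : ∀ n, D.mulP n (G (n + 1)) = G n := fun n =>
    congrArg (D.mulP n) (hg n)
  choose w hw using fun i => exists_padicInt_of_compat
    (fun n => S.coord hΔ n (G n : QTorsion W (p ^ n)) i) fun n =>
      (S.coord_of_eq_nsmul hΔ (by
        conv_lhs => rw [← hG n, D.coe_mulP]) i).symm
  obtain ⟨i, hi⟩ : ∃ i, IsUnit (w i) := by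
    by_contra hcon
    push Not at hcon
    refine hg₁ ?_
    have h0 : S.coord hΔ 1 (G 1 : QTorsion W (p ^ 1)) = 0 := funext fun i => by
      rw [← hw i 1, Pi.zero_apply]
      by_contra h
      exact hcon i (isUnit_of_toZModPow_one_ne_zero h)
    rw [LinearEquiv.map_eq_zero_iff] at h0
    have h1 : G 1 = g 0 := hg 0
    rw [h1] at h0
    exact Subtype.ext h0
  refine ⟨w, ⟨i, hi⟩, fun n x => ?_⟩
  haveI : NeZero (p ^ n) := ⟨pow_ne_zero n hp.out.ne_zero⟩
  let m : ZMod (p ^ n) → D.e0 (p ^ n) := fun a => ⟨a • (G n : QTorsion W (p ^ n)), by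
    rw [← ZMod.natCast_zmod_val a, Nat.cast_smul_eq_nsmul]
    exact AddSubgroup.nsmul_mem _ (G n).2 _⟩
  have hm : ∀ a, S.coord hΔ n (m a : QTorsion W (p ^ n)) =
      fun k => a * PadicInt.toZModPow n (w k) := fun a => funext fun k => by
    show S.coord hΔ n (a • (G n : QTorsion W (p ^ n))) k = _
    rw [map_smul, Pi.smul_apply, smul_eq_mul, hw]
  have hinj : Function.Injective m := by
    intro a b hab
    have h := congrFun ((hm a).symm.trans ((congrArg (fun z : D.e0 (p ^ n) =>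
      S.coord hΔ n (z : QTorsion W (p ^ n))) hab).trans (hm b))) i
    exact (IsUnit.mul_left_inj (hi.map _)).mp h
  have hbij : Function.Bijective m := (Nat.bijective_iff_injective_and_card m).mpr
    ⟨hinj, by rw [Nat.card_zmod, (D.card_e0_and_range hp35 hΔ n).1]⟩
  refine ⟨fun hx => ?_, fun ⟨a, ha⟩ => ?_⟩
  · obtain ⟨a, ha⟩ := hbij.2 ⟨x, hx⟩
    exact ⟨a, by rw [← hm, ha]⟩
  · rw [show x = (m a : QTorsion W (p ^ n)) from (S.coord hΔ n).injective (ha.trans (hm a).symm)]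
    exact (m a).2

include hp35 hΔ in
/-- On the quotient by the identity component the decomposition group acts by a sign. -/
theorem exists_sign {n : ℕ} {σ : Γℚ} (hσ : σ ∈ A.decompositionSubgroup ℚ) :
    ∃ ε : ℤ, (ε = 1 ∨ ε = -1) ∧ ∀ y : QTorsion W (p ^ n), σ • y - ε • y ∈ D.e0 (p ^ n) := by
  have hodd := odd_pow_of hp35 n
  haveI : NeZero (p ^ n) := ⟨pow_ne_zero n hp.out.ne_zero⟩
  obtain ⟨x, hx⟩ := D.kappa_surjective hp35 hΔ n 1
  obtain ⟨ε, hε, hεx⟩ : ∃ ε : ℤ, (ε = 1 ∨ ε = -1) ∧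
      D.kappa (p ^ n) (σ • x) = ε • D.kappa (p ^ n) x := by
    rcases D.kappa_smul hodd hσ x with h | h
    · exact ⟨1, Or.inl rfl, by rw [h, one_smul]⟩
    · exact ⟨-1, Or.inr rfl, by rw [h, neg_one_zsmul]⟩
  refine ⟨ε, hε, fun y => ?_⟩
  set a := (D.kappa (p ^ n) y).val
  have hy : y - a • x ∈ D.e0 (p ^ n) := (D.kappa_eq_zero_iff hodd).mp (by
    rw [map_sub, map_nsmul, hx, nsmul_one, ZMod.natCast_zmod_val, sub_self])
  have h2 := D.smul_mem_e0 hodd hσ hy
  rw [← D.kappa_eq_zero_iff hodd, smul_sub σ,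
    show σ • (a • x) = a • (σ • x) from map_nsmul (DistribSMul.toAddMonoidHom _ σ) a x, map_sub,
    map_nsmul, hεx, hx, sub_eq_zero] at h2
  rw [← D.kappa_eq_zero_iff hodd, map_sub, map_zsmul, h2, smul_comm, nsmul_one,
    ZMod.natCast_zmod_val, sub_self]

include D hp35 hΔ in
/-- In a basis through the line the matrices are triangular, with a sign in the corner. -/
theorem exists_triangular : ∃ M : (Matrix (Fin 2) (Fin 2) ℤ_[p])ˣ, ∀ σ : Γℚ,
    σ ∈ A.decompositionSubgroup ℚ →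
      let N := (M⁻¹ : (Matrix (Fin 2) (Fin 2) ℤ_[p])ˣ).1 * S.mat hΔ σ * M.1
      N 1 0 = 0 ∧ N 1 1 * N 1 1 = 1 ∧ (σ ∈ A.inertiaSubgroupIn ℚ → N 1 1 = 1) := by
  obtain ⟨w, ⟨i, hi⟩, hline⟩ := D.exists_line S hp35 hΔ
  obtain ⟨M, hM⟩ := exists_units_matrix hi
  refine ⟨M, fun σ hσ => ?_⟩
  set N := (M⁻¹ : (Matrix (Fin 2) (Fin 2) ℤ_[p])ˣ).1 * S.mat hΔ σ * M.1 with hN
  have key : ∀ n, PadicInt.toZModPow n (N 1 0) = 0 ∧ ∀ ε : ℤ,
      (∀ y : QTorsion W (p ^ n), σ • y - ε • y ∈ D.e0 (p ^ n)) →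
        PadicInt.toZModPow n (N 1 1) = (ε : ZMod (p ^ n)) := by
    intro n
    set r := (PadicInt.toZModPow n (p := p)).mapMatrix (m := Fin 2) with hr
    have hMi : r (M⁻¹ : (Matrix (Fin 2) (Fin 2) ℤ_[p])ˣ).1 * r M.1 = 1 := by
      rw [← map_mul, Units.inv_mul, map_one]
    set w' : Fin 2 → ZMod (p ^ n) := fun k => PadicInt.toZModPow n (w k) with hw'
    have hcol : r M.1 *ᵥ Pi.single 0 1 = w' := by
      rw [Matrix.mulVec_single_one]
      funext k
      simp [hr, hw', hM]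
    have hentry : ∀ k l, PadicInt.toZModPow n (N k l) =
        (r (M⁻¹ : (Matrix (Fin 2) (Fin 2) ℤ_[p])ˣ).1 *ᵥ
          (S.galMat hΔ n σ *ᵥ (r M.1 *ᵥ Pi.single l 1))) k := by
      intro k l
      rw [Matrix.mulVec_mulVec, Matrix.mulVec_mulVec, ← S.toZModPow_mat, ← map_mul, ← map_mul,
        ← hN, Matrix.mulVec_single_one]
      rfl
    refine ⟨?_, fun ε hε => ?_⟩
    · obtain ⟨x, hx⟩ := (S.coord hΔ n).surjective w'
      have hxe : x ∈ D.e0 (p ^ n) := (hline n x).mpr ⟨1, by rw [hx]; simp [hw']⟩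
      obtain ⟨a, ha⟩ := (hline n (σ • x)).mp (D.smul_mem_e0 (odd_pow_of hp35 n) hσ hxe)
      rw [hentry, hcol, ← hx, S.galMat_mulVec, ha,
        show (fun k => a * w' k) = a • w' from rfl, Matrix.mulVec_smul, ← hcol,
        Matrix.mulVec_mulVec, hMi, Matrix.one_mulVec]
      simp
    · obtain ⟨y, hy⟩ := (S.coord hΔ n).surjective (r M.1 *ᵥ Pi.single 1 1)
      obtain ⟨a, ha⟩ := (hline n _).mp (hε y)
      rw [map_sub, map_zsmul, sub_eq_iff_eq_add, hy] at ha
      rw [hentry, ← hy, S.galMat_mulVec, ha,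
        show (fun k => a * PadicInt.toZModPow n (w k)) = a • w' from rfl, ← hcol, Matrix.mulVec_add,
        Matrix.mulVec_smul, ← Int.cast_smul_eq_zsmul (ZMod (p ^ n)), Matrix.mulVec_smul,
        Matrix.mulVec_mulVec, Matrix.mulVec_mulVec, hMi, Matrix.one_mulVec, Matrix.one_mulVec]
      simp
  refine ⟨padicInt_eq_of_toZModPow fun n => by rw [(key n).1, _root_.map_zero],
    padicInt_eq_of_toZModPow fun n => ?_, fun hI => padicInt_eq_of_toZModPow fun n => ?_⟩
  · obtain ⟨ε, hε, h⟩ := D.exists_sign hp35 hΔ (n := n) hσ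
    rw [map_mul, map_one, (key n).2 ε h]
    rcases hε with rfl | rfl <;> simp
  · rw [map_one, (key n).2 1 fun y => by
      rw [one_zsmul]
      exact D.inertia_sub_mem_e0 (odd_pow_of hp35 n) hI y, Int.cast_one]

end NodeData

section Rep

variable {O : Type} [CommRing O] [IsDomain O]
  [IsDiscreteValuationRing O] [IsAdicComplete (maximalIdeal O) O] [CharZero O]
  (S : TateSystem W p) (hΔ : W.Δ ≠ 0) (hpO : (p : O) ∈ maximalIdeal O)

/-- At a multiplicative `p = 3, 5` the representation is strictly ordinary. -/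
theorem tateRep_strictOrdinary (hp35 : p = 3 ∨ p = 5) (hirr : W.ModRepIsIrreducible p)
    (hpΔ : (p : ℤ) ∣ W.Δ) (hpc : ¬ (p : ℤ) ∣ W.c₄) :
    (tateRep S hΔ hpO).IsStrictOrdinaryAt p := by
  refine ⟨hpO, fun P hP => ?_⟩
  obtain ⟨D⟩ := exists_nodeData hp.out hP hΔ hpΔ hpc
  obtain ⟨M, hM⟩ := D.exists_triangular S hp35 hΔ
  set f := padicHom (maximalIdeal O) hpO with hf
  set F : Matrix (Fin 2) (Fin 2) O := f.mapMatrix M.1 with hF
  let N : Γℚ → Matrix (Fin 2) (Fin 2) ℤ_[p] := fun σ =>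
    (M⁻¹ : (Matrix (Fin 2) (Fin 2) ℤ_[p])ˣ).1 * S.mat hΔ σ * M.1
  set G : Matrix (Fin 2) (Fin 2) O :=
    f.mapMatrix (M⁻¹ : (Matrix (Fin 2) (Fin 2) ℤ_[p])ˣ).1 with hG
  let e' : (Fin 2 → O) ≃ₗ[O] (Fin 2 → O) :=
    LinearEquiv.ofLinearMap (Matrix.toLin' F) (Matrix.toLin' G)
      (by rw [← Matrix.toLin'_mul, hF, hG, ← map_mul, Units.mul_inv, _root_.map_one,
        Matrix.toLin'_one])
      (by rw [← Matrix.toLin'_mul, hF, hG, ← map_mul, Units.inv_mul, _root_.map_one,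
        Matrix.toLin'_one])
  let e : (Fin 2 → O) ≃ₗ[O] (tateRep S hΔ hpO).V := e'
  have h10 : ∀ σ ∈ P.decompositionSubgroup ℚ, N σ (1 : Fin 2) (0 : Fin 2) = (0 : ℤ_[p]) :=
    fun σ hσ => (hM σ hσ).1
  have h11 : ∀ σ ∈ P.decompositionSubgroup ℚ,
      N σ (1 : Fin 2) (1 : Fin 2) * N σ (1 : Fin 2) (1 : Fin 2) = (1 : ℤ_[p]) :=
    fun σ hσ => (hM σ hσ).2.1
  have h11' : ∀ σ ∈ P.decompositionSubgroup ℚ, σ ∈ P.inertiaSubgroupIn ℚ →
      N σ (1 : Fin 2) (1 : Fin 2) = (1 : ℤ_[p]) :=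
    fun σ hσ hI => (hM σ hσ).2.2 hI
  let b : Module.Basis (Fin 2) O (tateRep S hΔ hpO).V := (Pi.basisFun O (Fin 2)).map e
  have hb : ∀ k, b k = F *ᵥ Pi.single k 1 := fun k => by
    show e (Pi.basisFun O (Fin 2) k) = _
    rw [Pi.basisFun_apply]
    exact Matrix.toLin'_apply F _
  have hact : ∀ σ k, (tateRep S hΔ hpO).ρ σ (b k) =
      f (N σ 0 k) • b 0 + f (N σ 1 k) • b 1 := by
    intro σ k
    rw [hb, hb, hb]
    show f.mapMatrix (S.mat hΔ σ) *ᵥ (F *ᵥ Pi.single k 1) =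
      f (N σ 0 k) • (F *ᵥ Pi.single 0 1) + f (N σ 1 k) • (F *ᵥ Pi.single 1 1)
    rw [hF, Matrix.mulVec_mulVec, ← map_mul,
      show S.mat hΔ σ * M.1 = M.1 * N σ by simp [N, ← mul_assoc],
      map_mul, ← Matrix.mulVec_mulVec, ← Matrix.mulVec_smul, ← Matrix.mulVec_smul,
      ← Matrix.mulVec_add]
    congr 1
    rw [Matrix.mulVec_single_one]
    funext l
    fin_cases l <;> simp
  refine ⟨O ∙ b 0, ⟨b, rfl⟩, fun σ hσ v hv => ?_, fun σ hσ v => ?_, fun σ hσ => ?_⟩
  · obtain ⟨t, rfl⟩ := Submodule.mem_span_singleton.mp hv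
    rw [map_smul, hact, h10 σ hσ, f.map_zero, zero_smul, add_zero,
      smul_smul]
    exact Submodule.smul_mem _ _ (Submodule.mem_span_singleton_self _)
  · have hD := GalCommon.inertiaSubgroupIn_le_decomposition hσ
    refine Submodule.mem_span_singleton.mpr ⟨b.repr v 0 * (f (N σ 0 0) - 1) +
      b.repr v 1 * f (N σ 0 1), ?_⟩
    conv_rhs => rw [← b.sum_repr v, Fin.sum_univ_two, map_add, map_smul, map_smul, hact, hact,
      h10 σ hD, h11' σ hD hσ, f.map_zero,
      f.map_one]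
    module
  · refine ⟨f (N σ 0 0), f (N σ 1 1), fun v hv => ?_, fun v => ?_, fun n a ha => ?_⟩
    · obtain ⟨t, rfl⟩ := Submodule.mem_span_singleton.mp hv
      rw [map_smul, hact, h10 σ hσ, f.map_zero, zero_smul, add_zero,
        smul_comm]
    · refine Submodule.mem_span_singleton.mpr ⟨b.repr v 0 * (f (N σ 0 0) - f (N σ 1 1)) +
        b.repr v 1 * f (N σ 0 1), ?_⟩
      conv_rhs => rw [← b.sum_repr v, Fin.sum_univ_two, map_add, map_smul, map_smul, hact, hact,
        h10 σ hσ, f.map_zero]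
      module
    · have hdet : f (S.mat hΔ σ).det = f (cyc p σ) := by
        rw [← tateRep_det S hΔ hpO (by rcases hp35 with rfl | rfl <;> decide) hirr σ,
          ← LinearMap.det_toMatrix (tateBasis S hΔ hpO), toMatrix_tateRep, RingHom.map_det]
      have hNdet : (N σ).det = (S.mat hΔ σ).det := Matrix.det_units_conj' M _
      rw [← hNdet, Matrix.det_fin_two, h10 σ hσ, mul_zero, sub_zero,
        map_mul] at hdet
      have hsq : f (N σ 1 1) * f (N σ 1 1) = 1 := by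
        rw [← map_mul, h11 σ hσ, _root_.map_one]
      have hx : f (N σ 0 0) = f (cyc p σ) * f (N σ 1 1) := by
        rw [← hdet, mul_assoc, hsq, mul_one]
      rw [hx, ← sub_mul]
      refine Ideal.mul_mem_right _ _ ?_
      obtain ⟨hp0, hd⟩ := tateRep_detIsCyclotomic S hΔ hpO
        (by rcases hp35 with rfl | rfl <;> decide) hirr
      rw [← tateRep_det S hΔ hpO (by rcases hp35 with rfl | rfl <;> decide) hirr σ]
      exact hd n σ a ha

/-- The representation is ramified at a multiplicative `l`. -/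
theorem tateRep_ramified (hp35 : p = 3 ∨ p = 5) {l : ℕ} (hl : l.Prime) (hlΔ : (l : ℤ) ∣ W.Δ)
    (hlc : ¬ (l : ℤ) ∣ W.c₄) : ¬ (tateRep S hΔ hpO).IsUnramifiedAt l := by
  intro hunr
  obtain ⟨A, hA⟩ := GalCommon.exists_liesOverPrime hl
  obtain ⟨D⟩ := exists_nodeData hl hA hΔ hlΔ hlc
  obtain ⟨σ, hσ, N, x, hne⟩ := D.exists_inertia_smul_ne hp35 hΔ hl hA hlΔ
  refine hne (((S.galMat_eq_one_iff hΔ N σ).mp ?_) x)
  set f := padicHom (maximalIdeal O) hpO with hf
  have hm : f.mapMatrix (S.mat hΔ σ) = 1 := by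
    rw [hf, ← toMatrix_tateRep, hunr A hA σ hσ, LinearMap.toMatrix_one]
  have hinj : Function.Injective f := by
    refine (RingHom.injective_iff_ker_eq_bot f).mpr (by_contra fun hne' => ?_)
    obtain ⟨n, hn⟩ := PadicInt.ideal_eq_span_pow_p hne'
    have h0 : f ((p : ℤ_[p]) ^ n) = 0 :=
      RingHom.mem_ker.mp (hn ▸ Ideal.mem_span_singleton_self _)
    rw [map_pow, map_natCast] at h0
    exact pow_ne_zero n (Nat.cast_ne_zero.mpr hp.out.ne_zero) h0
  have h1 : S.mat hΔ σ = 1 := by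
    refine Matrix.map_injective hinj ?_
    show f.mapMatrix (S.mat hΔ σ) = f.mapMatrix 1
    rw [hm, map_one]
  rw [← S.toZModPow_mat, h1, map_one]

end Rep

end FLTAgent.ResidualSetup
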