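import Fermat.Agent.ResidualSetup.LocalRing
import Fermat.Agent.EllP.Reduce
import Fermat.Agent.EllP.NodeBridge
import Fermat.Agent.Local.CurveFacts

/-!
# Coordinates of a sum of points

For families of points indexed by a finite set, `HasCoords` says that the affine coordinates lie
in a given ring of functions. `exists_hasCoords_add`: near a pair `(x, B)` of good reduction at
which the sum does not reduce to the origin, the sum again has coordinates in the local ring
`locIn`, by the chord formula in one of its two forms.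
-/

set_option autoImplicit false
set_option linter.style.haveILetI false
set_option linter.unusedSectionVars false

noncomputable section

open WeierstrassCurve
open scoped WeierstrassCurve.Affine

namespace FLTAgent.ResidualSetup

local notation "Qb" => AlgebraicClosure ℚ
local notation "Γℚ" => (AlgebraicClosure ℚ ≃ₐ[ℚ] AlgebraicClosure ℚ)

variable {W : WeierstrassCurve ℤ}

/-- The `y`-coordinate, with the value `0` at infinity. -/
def yCoord : EllP.QPoint W → Qb
  | .zero => 0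
  | .some _ y _ => y

@[simp] theorem xCoord_some {x y : Qb}
    (h : ((W.map (Int.castRingHom ℚ))⁄Qb).toAffine.Nonsingular x y) :
    EllP.xCoord (Affine.Point.some x y h : EllP.QPoint W) = x := rfl

@[simp] theorem yCoord_some {x y : Qb}
    (h : ((W.map (Int.castRingHom ℚ))⁄Qb).toAffine.Nonsingular x y) :
    yCoord (Affine.Point.some x y h : EllP.QPoint W) = y := rfl

theorem yCoord_smul (σ : Γℚ) (P : EllP.QPoint W) : yCoord (σ • P) = σ (yCoord P) := by
  cases P with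
  | zero => exact (map_zero σ).symm
  | some x y h => rfl

theorem eq_of_coord {P Q : EllP.QPoint W} (hP : P ≠ 0) (hQ : Q ≠ 0)
    (hx : EllP.xCoord P = EllP.xCoord Q) (hy : yCoord P = yCoord Q) : P = Q := by
  cases P with
  | zero => exact absurd rfl hP
  | some x y h =>
    cases Q with
    | zero => exact absurd rfl hQ
    | some x' y' h' =>
      simp only [xCoord_some, yCoord_some] at hx hy
      subst hx hy
      rfl

theorem exists_eq_some {P : EllP.QPoint W} (hP : P ≠ 0) :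
    ∃ h : ((W.map (Int.castRingHom ℚ))⁄Qb).toAffine.Nonsingular (EllP.xCoord P) (yCoord P),
      P = Affine.Point.some _ _ h := by
  cases P with
  | zero => exact absurd rfl hP
  | some x y h => exact ⟨h, rfl⟩

theorem baseChange_a₁ : ((W.map (Int.castRingHom ℚ))⁄Qb).toAffine.a₁ = (W.a₁ : Qb) := by
  simp [EllP.baseChange_eq_map]

theorem baseChange_a₂ : ((W.map (Int.castRingHom ℚ))⁄Qb).toAffine.a₂ = (W.a₂ : Qb) := by
  simp [EllP.baseChange_eq_map]

theorem baseChange_a₃ : ((W.map (Int.castRingHom ℚ))⁄Qb).toAffine.a₃ = (W.a₃ : Qb) := by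
  simp [EllP.baseChange_eq_map]

theorem baseChange_a₄ : ((W.map (Int.castRingHom ℚ))⁄Qb).toAffine.a₄ = (W.a₄ : Qb) := by
  simp [EllP.baseChange_eq_map]

variable {p : ℕ} [Fact p.Prime] {X : Type} [Finite X]

/-- The abscissae of a family of points. -/
def xFun (P : X → EllP.QPoint W) : X → Qb := fun z => EllP.xCoord (P z)

/-- The ordinates of a family of points. -/
def yFun (P : X → EllP.QPoint W) : X → Qb := fun z => yCoord (P z)

/-- The family has coordinates in `L` wherever `w` does not vanish, and `w` is a unit at `(x, B)`. -/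
structure HasCoords (L : Subalgebra (GaloisRep.ratLocalizedAt p) (X → Qb)) (x : X)
    (B : ValuationSubring Qb) (w : X → Qb) (P : X → EllP.QPoint W) : Prop where
  w_mem : w ∈ L
  w_unit : B.valuation (w x) = 1
  ne_zero : ∀ z, w z ≠ 0 → P z ≠ 0
  x_mem : xFun P ∈ L
  y_mem : yFun P ∈ L

variable {S : Subalgebra (GaloisRep.ratLocalizedAt p) (X → Qb)} {x : X} {B : ValuationSubring Qb}

/-- One chord: a denominator `D` and numerator `N` of the slope. -/
theorem hasCoords_of_slope {w D N : X → Qb} {P₁ P₂ : X → EllP.QPoint W}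
    (h₁ : HasCoords (locIn S x B) x B w P₁) (h₂ : HasCoords (locIn S x B) x B w P₂)
    (hD : D ∈ locIn S x B) (hN : N ∈ locIn S x B) (hDx : B.valuation (D x) = 1)
    (hslope : ∀ z, w z ≠ 0 → D z ≠ 0 →
      ¬(xFun P₁ z = xFun P₂ z ∧ yFun P₁ z =
        ((W.map (Int.castRingHom ℚ))⁄Qb).toAffine.negY (xFun P₂ z) (yFun P₂ z)) ∧
      ((W.map (Int.castRingHom ℚ))⁄Qb).toAffine.slope (xFun P₁ z) (xFun P₂ z) (yFun P₁ z)
        (yFun P₂ z) * D z = N z) :
    HasCoords (locIn S x B) x B (w * D) (fun z => P₁ z + P₂ z) := by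
  set L := locIn S x B
  have hwD : w * D ∈ L := mul_mem h₁.w_mem hD
  have hwDx : B.valuation ((w * D) x) = 1 := by
    rw [Pi.mul_apply, map_mul, h₁.w_unit, hDx, one_mul]
  have hX : w * D * (D * D) * xFun (fun z => P₁ z + P₂ z) =
      w * D * (N * N + (W.a₁ : X → Qb) * N * D - ((W.a₂ : X → Qb) + xFun P₁ + xFun P₂) * (D * D)) := by
    funext z
    by_cases hw : w z = 0
    · simp [hw]
    by_cases hd : D z = 0
    · simp [hd]
    obtain ⟨hne, hl⟩ := hslope z hw hd
    obtain ⟨n₁, e₁⟩ := exists_eq_some (h₁.ne_zero z hw)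
    obtain ⟨n₂, e₂⟩ := exists_eq_some (h₂.ne_zero z hw)
    simp only [Pi.mul_apply, Pi.sub_apply, Pi.add_apply, Pi.intCast_apply]
    rw [show xFun (fun z => P₁ z + P₂ z) z = EllP.xCoord (P₁ z + P₂ z) from rfl]
    simp only [xFun, yFun] at hne hl ⊢
    conv_lhs => rw [e₁, e₂]
    rw [Affine.Point.add_some hne, xCoord_some, Affine.addX, baseChange_a₁, baseChange_a₂, ← hl]
    ring
  have hY : w * D * D * yFun (fun z => P₁ z + P₂ z) =
      w * D * (-(N * (xFun (fun z => P₁ z + P₂ z) - xFun P₁) + D * yFun P₁) -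
        (W.a₁ : X → Qb) * xFun (fun z => P₁ z + P₂ z) * D - (W.a₃ : X → Qb) * D) := by
    funext z
    by_cases hw : w z = 0
    · simp [hw]
    by_cases hd : D z = 0
    · simp [hd]
    obtain ⟨hne, hl⟩ := hslope z hw hd
    obtain ⟨n₁, e₁⟩ := exists_eq_some (h₁.ne_zero z hw)
    obtain ⟨n₂, e₂⟩ := exists_eq_some (h₂.ne_zero z hw)
    simp only [Pi.mul_apply, Pi.sub_apply, Pi.add_apply, Pi.neg_apply, Pi.intCast_apply]
    simp only [xFun, yFun] at hne hl ⊢
    rw [show P₁ z + P₂ z = _ from (congrArg₂ (· + ·) e₁ e₂).trans (Affine.Point.add_some hne),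
      xCoord_some, yCoord_some, Affine.addY, Affine.negY, Affine.negAddY, baseChange_a₁,
      baseChange_a₃, ← hl]
    ring
  have hxm : xFun (fun z => P₁ z + P₂ z) ∈ L := by
    refine mem_locIn_of_mul (mul_mem hwD (mul_mem hD hD)) ?_ ?_
    · rw [Pi.mul_apply, map_mul, hwDx, Pi.mul_apply, map_mul, hDx, one_mul, one_mul]
    · rw [hX]
      exact mul_mem hwD (sub_mem (add_mem (mul_mem hN hN) (mul_mem (mul_mem (intCast_mem L _) hN) hD))
        (mul_mem (add_mem (add_mem (intCast_mem L _) h₁.x_mem) h₂.x_mem) (mul_mem hD hD)))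
  refine ⟨hwD, hwDx, fun z hz => ?_, hxm, ?_⟩
  · rw [Pi.mul_apply, mul_ne_zero_iff] at hz
    obtain ⟨hne, -⟩ := hslope z hz.1 hz.2
    obtain ⟨n₁, e₁⟩ := exists_eq_some (h₁.ne_zero z hz.1)
    obtain ⟨n₂, e₂⟩ := exists_eq_some (h₂.ne_zero z hz.1)
    simp only [xFun, yFun] at hne
    rw [e₁, e₂, Affine.Point.add_some hne]
    exact Affine.Point.some_ne_zero _
  · refine mem_locIn_of_mul (mul_mem hwD hD) ?_ ?_
    · rw [Pi.mul_apply, map_mul, hwDx, hDx, one_mul]
    · rw [hY]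
      exact mul_mem hwD (sub_mem (sub_mem (neg_mem (add_mem
        (mul_mem hN (sub_mem hxm h₁.x_mem)) (mul_mem hD h₁.y_mem)))
        (mul_mem (mul_mem (intCast_mem L _) hxm) hD)) (mul_mem (intCast_mem L _) hD))

/-- The coordinates of a sum not reducing to the origin at `(x, B)`. -/
theorem exists_hasCoords_add {q : ℕ} (hq : q.Prime) (hB : B.LiesOverPrime q)
    (hgood : ¬ (q : ℤ) ∣ W.Δ) (hint : ∀ a ∈ S, a x ∈ B) {w : X → Qb}
    {P₁ P₂ : X → EllP.QPoint W} (h₁ : HasCoords (locIn S x B) x B w P₁)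
    (h₂ : HasCoords (locIn S x B) x B w P₂)
    (hsum : ¬ EllP.InFormalAt B (P₁ x + P₂ x)) :
    ∃ w', HasCoords (locIn S x B) x B w' (fun z => P₁ z + P₂ z) := by
  classical
  set L := locIn S x B
  set E := ((W.map (Int.castRingHom ℚ))⁄Qb).toAffine
  let D₁ : X → Qb := xFun P₁ - xFun P₂
  let D₂ : X → Qb := yFun P₁ + yFun P₂ + (W.a₁ : X → Qb) * xFun P₁ + (W.a₃ : X → Qb)
  have hD₁ : D₁ ∈ L := sub_mem h₁.x_mem h₂.x_mem
  have hD₂ : D₂ ∈ L := add_mem (add_mem (add_mem h₁.y_mem h₂.y_mem)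
    (mul_mem (intCast_mem L _) h₁.x_mem)) (intCast_mem L _)
  by_cases hu₁ : B.valuation (D₁ x) = 1
  · refine ⟨_, hasCoords_of_slope h₁ h₂ hD₁ (sub_mem h₁.y_mem h₂.y_mem) hu₁ fun z hw hd => ?_⟩
    have hxne : xFun P₁ z ≠ xFun P₂ z := fun h => hd (by simp [D₁, h])
    refine ⟨fun h => hxne h.1, ?_⟩
    rw [Affine.slope_of_X_ne hxne]
    exact div_mul_cancel₀ _ hd
  by_cases hu₂ : B.valuation (D₂ x) = 1
  · refine ⟨_, hasCoords_of_slope (N := xFun P₁ * xFun P₁ + xFun P₁ * xFun P₂ + xFun P₂ * xFun P₂ +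
        (W.a₂ : X → Qb) * (xFun P₁ + xFun P₂) + (W.a₄ : X → Qb) - (W.a₁ : X → Qb) * yFun P₂)
      h₁ h₂ hD₂ ?_ hu₂ fun z hw hd => ?_⟩
    · exact sub_mem (add_mem (add_mem (add_mem (add_mem (mul_mem h₁.x_mem h₁.x_mem)
        (mul_mem h₁.x_mem h₂.x_mem)) (mul_mem h₂.x_mem h₂.x_mem))
        (mul_mem (intCast_mem L _) (add_mem h₁.x_mem h₂.x_mem))) (intCast_mem L _))
        (mul_mem (intCast_mem L _) h₂.y_mem)
    obtain ⟨n₁, -⟩ := exists_eq_some (h₁.ne_zero z hw)
    obtain ⟨n₂, -⟩ := exists_eq_some (h₂.ne_zero z hw)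
    have hne : ¬(xFun P₁ z = xFun P₂ z ∧ yFun P₁ z = E.negY (xFun P₂ z) (yFun P₂ z)) := by
      rintro ⟨hx, hy⟩
      apply hd
      simp only [D₂, Pi.add_apply, Pi.mul_apply, Pi.intCast_apply]
      rw [hy, Affine.negY, baseChange_a₁, baseChange_a₃, hx]
      ring
    refine ⟨hne, ?_⟩
    have h := EllLocal.slope_mul_add n₁.1 n₂.1 hne
    simp only [D₂, Pi.add_apply, Pi.mul_apply, Pi.sub_apply, Pi.intCast_apply]
    rw [baseChange_a₁, baseChange_a₂, baseChange_a₃, baseChange_a₄] at h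
    simp only [xFun, yFun] at h ⊢
    linear_combination h
  exfalso
  have hw : w x ≠ 0 := fun h => by have := h₁.w_unit; simp [h] at this
  obtain ⟨n₁, e₁⟩ := exists_eq_some (h₁.ne_zero x hw)
  obtain ⟨n₂, e₂⟩ := exists_eq_some (h₂.ne_zero x hw)
  let a₁ : B := ⟨_, apply_mem_of_mem_locIn hint h₁.x_mem⟩
  let b₁ : B := ⟨_, apply_mem_of_mem_locIn hint h₁.y_mem⟩
  let a₂ : B := ⟨_, apply_mem_of_mem_locIn hint h₂.x_mem⟩
  let b₂ : B := ⟨_, apply_mem_of_mem_locIn hint h₂.y_mem⟩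
  have hl₁ : EllLocal.IsLift (EllP.toModel B (P₁ x)) a₁ b₁ := by
    refine ⟨(EllP.genCurve_modelAt B W).symm ▸ n₁, ?_⟩
    conv_lhs => rw [e₁]
    exact EllP.toModel_some B n₁
  have hl₂ : EllLocal.IsLift (EllP.toModel B (P₂ x)) a₂ b₂ := by
    refine ⟨(EllP.genCurve_modelAt B W).symm ▸ n₂, ?_⟩
    conv_lhs => rw [e₂]
    exact EllP.toModel_some B n₂
  have hz : ∀ f ∈ L, ¬ B.valuation (f x) = 1 → ∀ hf : f x ∈ B,
      IsLocalRing.residue B ⟨f x, hf⟩ = 0 := fun f _ h hf =>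
    EllLocal.residue_eq_zero_of_valuation_lt B
      (lt_of_le_of_ne ((B.valuation_le_one_iff _).mpr hf) h)
  have r₁ := hz D₁ hD₁ hu₁ (apply_mem_of_mem_locIn hint hD₁)
  have r₂ := hz D₂ hD₂ hu₂ (apply_mem_of_mem_locIn hint hD₂)
  rw [show (⟨D₁ x, apply_mem_of_mem_locIn hint hD₁⟩ : B) = a₁ - a₂ from rfl, map_sub, sub_eq_zero]
    at r₁
  rw [show (⟨D₂ x, apply_mem_of_mem_locIn hint hD₂⟩ : B) =
      b₁ + b₂ + (W.a₁ : B) * a₁ + (W.a₃ : B) from Subtype.ext (by simp [D₂, a₁, b₁, b₂]),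
    map_add, map_add, map_add, map_mul] at r₂
  have hsing : (EllLocal.redCurve B (EllP.modelAt B W)).Nonsingular (IsLocalRing.residue B a₁)
      (IsLocalRing.residue B b₁) := by
    have h0 := EllLocal.mem_E0_of_good (W₀ := EllP.modelAt B W)
      (by rw [map_Δ]; exact EllP.residue_map_ne_zero hq hB hgood) (EllP.toModel B (P₁ x))
    rcases h0 with h0 | ⟨a, b, hl, hn⟩
    · exact absurd h0 hl₁.not_inE1
    · obtain ⟨rfl, rfl⟩ := hl₁.unique hl
      exact hn
  refine hsum ((EllP.mem_E1_iff B).mp ?_)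
  rw [map_add]
  refine EllLocal.add_inE1 hl₁ hl₂ hsing r₁ ?_
  simp only [Affine.negY, EllLocal.redCurve, map_a₁, map_a₃, eq_intCast, map_intCast] at r₂ ⊢
  linear_combination r₂ - (W.a₁ : IsLocalRing.ResidueField B) * r₁

end FLTAgent.ResidualSetup
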