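import Fermat.Agent.Mazur.Descent.Tame

/-!
# Images of inertia at finite level

`inertia_commute`: if the image of inertia at `q` has no nontrivial element of `q`-power order,
then it is abelian, because the commutators of inertia are wild.
`zpowers_eq_top_of_normalClosure`: a finite `p`-group that is the normal closure of one element
is cyclic, generated by it.
-/

set_option autoImplicit false
set_option linter.style.haveILetI false

noncomputable section

open scoped Pointwise

namespace FLTAgent.ResidualSetup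

local notation "Qb" => AlgebraicClosure ℚ
local notation "Γℚ" => (AlgebraicClosure ℚ ≃ₐ[ℚ] AlgebraicClosure ℚ)

open Mazur.Tame GalCommon

variable {A : ValuationSubring (AlgebraicClosure ℚ)}

theorem theta_congr {σ τ : Γℚ} (h : σ = τ) (hσ : σ ∈ A.decompositionSubgroup ℚ)
    (hτ : τ ∈ A.decompositionSubgroup ℚ) (x : Qb) : theta hσ x = theta hτ x := by
  subst h; rfl

theorem theta_mul_of_inertia {σ τ : Γℚ} (hσ : σ ∈ A.inertiaSubgroupIn ℚ)
    (hτ : τ ∈ A.inertiaSubgroupIn ℚ) {x : Qb} (hx : x ≠ 0) :
    theta (inertiaSubgroupIn_le_decomposition (mul_mem hσ hτ)) x =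
      theta (inertiaSubgroupIn_le_decomposition hσ) x *
        theta (inertiaSubgroupIn_le_decomposition hτ) x := by
  rw [← theta_eq_of_valuation_eq hσ (x := τ x) hx
    (valuation_map (inertiaSubgroupIn_le_decomposition hτ) x)]
  rw [theta, theta, theta, ← map_mul]
  congr 1
  ext
  push_cast
  rw [AlgEquiv.mul_apply, div_mul_div_cancel₀ ((map_ne_zero τ).mpr hx)]

theorem theta_inv_of_inertia {σ : Γℚ} (hσ : σ ∈ A.inertiaSubgroupIn ℚ) {x : Qb} (hx : x ≠ 0) :
    theta (inertiaSubgroupIn_le_decomposition (inv_mem hσ)) x *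
      theta (inertiaSubgroupIn_le_decomposition hσ) x = 1 := by
  rw [← theta_mul_of_inertia (inv_mem hσ) hσ hx,
    theta_congr (inv_mul_cancel σ) _ (one_mem _), theta_eq_one_iff _ hx, AlgEquiv.one_apply,
    sub_self, map_zero]
  exact zero_lt_iff.mpr ((Valuation.ne_zero_iff _).mpr hx)

/-- If the image of inertia at `q` has no nontrivial element of `q`-power order, it is abelian. -/
theorem inertia_commute {H : Type*} [Group H] (φ : Γℚ →* H) (L : IntermediateField ℚ Qb)
    [FiniteDimensional ℚ L] (hφ : ∀ σ : Γℚ, (∀ x ∈ L, σ x = x) → φ σ = 1) {q : ℕ} (hq : q.Prime)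
    (hA : A.LiesOverPrime q)
    (hI : ∀ i ∈ A.inertiaSubgroupIn ℚ, ∀ k : ℕ, φ i ^ q ^ k = 1 → φ i = 1) {a b : Γℚ}
    (ha : a ∈ A.inertiaSubgroupIn ℚ) (hb : b ∈ A.inertiaSubgroupIn ℚ) :
    φ a * φ b = φ b * φ a := by
  haveI := normal_Qbar
  haveI := isGalois_Qbar
  set S : IntermediateField ℚ Qb := IntermediateField.normalClosure ℚ L Qb
  haveI : Normal ℚ S := normalClosure.normal ℚ L Qb
  haveI : FiniteDimensional ℚ S := inferInstance
  have hLS : L ≤ S := IntermediateField.le_normalClosure L
  have hstab : ∀ (g : Γℚ) (y : Qb), y ∈ S → g y ∈ S := fun g y hy => by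
    show g (algebraMap S Qb ⟨y, hy⟩) ∈ S
    rw [← g.restrictNormal_commutes S ⟨y, hy⟩]
    exact (g.restrictNormal S ⟨y, hy⟩).2
  set c := a * b * a⁻¹ * b⁻¹ with hc
  have hcI : c ∈ A.inertiaSubgroupIn ℚ := mul_mem (mul_mem (mul_mem ha hb) (inv_mem ha)) (inv_mem hb)
  have hθ : ∀ y ∈ S, y ≠ 0 → A.valuation (c y - y) < A.valuation y := by
    intro y _ hy
    rw [← theta_eq_one_iff (inertiaSubgroupIn_le_decomposition hcI) hy,
      theta_congr hc _ (inertiaSubgroupIn_le_decomposition (mul_mem (mul_mem (mul_mem ha hb)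
        (inv_mem ha)) (inv_mem hb))),
      theta_mul_of_inertia (mul_mem (mul_mem ha hb) (inv_mem ha)) (inv_mem hb) hy,
      theta_mul_of_inertia (mul_mem ha hb) (inv_mem ha) hy, theta_mul_of_inertia ha hb hy]
    have h1 := theta_inv_of_inertia ha hy
    have h2 := theta_inv_of_inertia hb hy
    linear_combination (theta (inertiaSubgroupIn_le_decomposition (inv_mem hb)) y *
      theta (inertiaSubgroupIn_le_decomposition hb) y) * h1 + h2
  obtain ⟨α, hα⟩ := Field.exists_primitive_element ℚ S
  obtain ⟨k, hk⟩ := exists_pow_prime_apply_eq hq hA (inertiaSubgroupIn_le_decomposition hcI) S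
    (fun y => hstab c y) hθ α.2
  have hfix : ∀ x ∈ L, (c ^ q ^ k) x = x := by
    intro x hx
    have hmem : (⟨x, hLS hx⟩ : S) ∈ IntermediateField.adjoin ℚ ({α} : Set S) :=
      hα.symm ▸ IntermediateField.mem_top
    suffices h : ∀ y ∈ IntermediateField.adjoin ℚ ({α} : Set S),
        (c ^ q ^ k) (y : Qb) = (y : Qb) from h _ hmem
    intro y hy
    induction hy using IntermediateField.adjoin_induction with
    | mem y hy =>
      rw [Set.mem_singleton_iff] at hy
      rw [hy]
      exact hk
    | algebraMap r => exact (c ^ q ^ k).commutes r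
    | add u v _ _ hu hv => push_cast; rw [map_add, hu, hv]
    | inv u _ hu => push_cast; rw [map_inv₀, hu]
    | mul u v _ _ hu hv => push_cast; rw [map_mul, hu, hv]
  have h1 : φ c = 1 := hI c hcI k (by rw [← map_pow]; exact hφ _ hfix)
  rw [hc, map_mul, map_mul, map_mul, map_inv, map_inv, mul_inv_eq_one, mul_inv_eq_iff_eq_mul] at h1
  exact h1

/-- A finite `p`-group which is the normal closure of one element is generated by it. -/
theorem zpowers_eq_top_of_normalClosure {G : Type*} [Group G] [Finite G] {p : ℕ} [Fact p.Prime]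
    (hG : IsPGroup p G) (x : G) (h : Subgroup.normalClosure {x} = ⊤) : Subgroup.zpowers x = ⊤ := by
  haveI := hG.isNilpotent
  rcases eq_top_or_exists_le_coatom (Subgroup.zpowers x) with h' | ⟨M, hM, hle⟩
  · exact h'
  · haveI : M.Normal :=
      Subgroup.NormalizerCondition.normal_of_coatom M Group.normalizerCondition_of_isNilpotent hM
    exact absurd (top_unique (h ▸ Subgroup.normalClosure_le_normal (N := M)
      (Set.singleton_subset_iff.mpr (hle (Subgroup.mem_zpowers x))))) hM.1

end FLTAgent.ResidualSetup
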