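import Fermat.Agent.ResidualSetup.Stable
import Fermat.Agent.ResidualSetup.Tame
import Fermat.Agent.MazurP.ResidualCurve
import Fermat.Agent.MazurP.RamLine
import Fermat.Agent.EllP.Supersingular
import Fermat.Agent.Local.CurveFacts

/-!
# Irreducibility on subgroups of index two

`eq_bot_or_eq_top_of_index_two`: for a semistable model, `p ≠ 2` and irreducible `E[p]` (in the
form of `IsOddBasis`), no subgroup of index two stabilises a proper subspace, after any extension
of coefficients. For `p = 3` the image would be a `2`-group generated by tame inertia at `3`, hence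
abelian; for `p ≥ 5` inertia at `p` leaves the subgroup, and both the case of a line (cyclotomic
character) and the formal case (valuation of an abscissa: image too large) are contradictory.
-/

set_option autoImplicit false
set_option linter.style.haveILetI false
set_option linter.unusedSectionVars false

noncomputable section

open WeierstrassCurve WeierstrassCurve.Affine.Point
open scoped WeierstrassCurve.Affine Pointwise

namespace FLTAgent.ResidualSetup

open FLTAgent.MazurP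

local notation "Qb" => AlgebraicClosure ℚ
local notation "Γℚ" => (AlgebraicClosure ℚ ≃ₐ[ℚ] AlgebraicClosure ℚ)

variable {W : WeierstrassCurve ℤ} {p : ℕ} [Fact p.Prime]

/-- A basis in which some complex conjugation is `diag (1, -1)` and some element is off diagonal
twice. -/
structure IsOddBasis (b : Module.Basis (Fin 2) (ZMod p) (TorsSpace W p)) : Prop where
  exists_conj : ∃ c, LinearMap.toMatrix b b (modRep W p c) = !![1, 0; 0, -1]
  exists_off : ∃ σ, LinearMap.toMatrix b b (modRep W p σ) 0 1 ≠ 0 ∧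
    LinearMap.toMatrix b b (modRep W p σ) 1 0 ≠ 0

theorem exists_isOddBasis (hΔ : W.Δ ≠ 0) (hp2 : p ≠ 2) (hirr : W.ModRepIsIrreducible p) :
    ∃ b : Module.Basis (Fin 2) (ZMod p) (TorsSpace W p), IsOddBasis b := by
  obtain ⟨c, hc2, hc⟩ := MazurP.exists_conj
  obtain ⟨b, hbc, σ, h01, h10⟩ := exists_offDiag hΔ hp2 hirr hc2 hc
  exact ⟨b, ⟨c, hbc⟩, σ, h01, h10⟩

theorem two_ne_zero_zmod (hp2 : p ≠ 2) : (2 : ZMod p) ≠ 0 := fun h => by
  rw [show (2 : ZMod p) = ((2 : ℕ) : ZMod p) from Nat.cast_ofNat.symm,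
    CharP.cast_eq_zero_iff (ZMod p) p, Nat.prime_dvd_prime_iff_eq Fact.out Nat.prime_two] at h
  exact hp2 h

theorem three_ne_zero_zmod (hp3 : p ≠ 3) : (3 : ZMod p) ≠ 0 := fun h => by
  rw [show (3 : ZMod p) = ((3 : ℕ) : ZMod p) from Nat.cast_ofNat.symm,
    CharP.cast_eq_zero_iff (ZMod p) p, Nat.prime_dvd_prime_iff_eq Fact.out Nat.prime_three] at h
  exact hp3 h

section Model

variable {K : Type*} [Field K] {U : Type*} [AddCommGroup U] [Module K U]
  {R : Γℚ →* Module.End K U} {j : ZMod p →+* K} {B : Module.Basis (Fin 2) K U}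
  {b : Module.Basis (Fin 2) (ZMod p) (TorsSpace W p)}
  (hR : ∀ σ, LinearMap.toMatrix B B (R σ) = (LinearMap.toMatrix b b (modRep W p σ)).map j)

include hR

theorem modRep_eq_iff {σ τ : Γℚ} : R σ = R τ ↔ modRep W p σ = modRep W p τ := by
  rw [← (LinearMap.toMatrix B B).injective.eq_iff, hR, hR,
    (Matrix.map_injective j.injective).eq_iff, (LinearMap.toMatrix b b).injective.eq_iff]

theorem eq_one_iff {σ : Γℚ} : R σ = 1 ↔ modRep W p σ = 1 := by
  rw [← map_one R, modRep_eq_iff hR, map_one]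

theorem trace_eq (σ : Γℚ) : LinearMap.trace K U (R σ) = j (modTr W p σ) := by
  rw [modTr, LinearMap.trace_eq_matrix_trace K B, LinearMap.trace_eq_matrix_trace (ZMod p) b, hR,
    AddMonoidHom.map_trace]

theorem exists_eq_smul_one {σ : Γℚ} {a : K} (h : R σ = a • 1) :
    ∃ a₀ : ZMod p, modRep W p σ = a₀ • 1 := by
  set m := LinearMap.toMatrix b b (modRep W p σ) with hm
  have h' : ∀ i k, j (m i k) = (a • (1 : Matrix (Fin 2) (Fin 2) K)) i k := by
    intro i k
    rw [hm, ← Matrix.map_apply (f := j), ← hR, h, map_smul, LinearMap.toMatrix_one]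
  refine ⟨m 0 0, (LinearMap.toMatrix b b).injective ?_⟩
  rw [map_smul, LinearMap.toMatrix_one, ← hm]
  ext i k
  apply j.injective
  fin_cases i <;> fin_cases k <;> simp [h']

theorem irreducible (hp2 : p ≠ 2) (hb : IsOddBasis b) (L : Submodule K U)
    (hL : ∀ σ, ∀ x ∈ L, R σ x ∈ L) : L = ⊥ ∨ L = ⊤ := by
  obtain ⟨c, hc⟩ := hb.exists_conj
  obtain ⟨σ, h01, h10⟩ := hb.exists_off
  have h2 : (2 : K) ≠ 0 := by
    rw [← map_ofNat j 2]; exact (map_ne_zero j).mpr (two_ne_zero_zmod hp2)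
  have happ : ∀ τ k, B.repr (R τ (B 0)) k = j (LinearMap.toMatrix b b (modRep W p τ) k 0) ∧
      B.repr (R τ (B 1)) k = j (LinearMap.toMatrix b b (modRep W p τ) k 1) := fun τ k =>
    ⟨by rw [← LinearMap.toMatrix_apply B B, hR, Matrix.map_apply],
     by rw [← LinearMap.toMatrix_apply B B, hR, Matrix.map_apply]⟩
  have hc0 : R c (B 0) = B 0 := B.repr.injective (Finsupp.ext fun k => by
    rw [(happ c k).1, hc]; fin_cases k <;> simp)
  have hc1 : R c (B 1) = -B 1 := B.repr.injective (Finsupp.ext fun k => by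
    rw [(happ c k).2, hc]; fin_cases k <;> simp)
  have hcomp : ∀ x ∈ L, B.repr x 0 • B 0 ∈ L ∧ B.repr x 1 • B 1 ∈ L := by
    intro x hx
    have hx' : x = B.repr x 0 • B 0 + B.repr x 1 • B 1 := by
      rw [← Fin.sum_univ_two (fun i => B.repr x i • B i), B.sum_repr]
    have hcx : R c x = B.repr x 0 • B 0 - B.repr x 1 • B 1 := by
      conv_lhs => rw [hx']
      rw [map_add, map_smul, map_smul, hc0, hc1, smul_neg, ← sub_eq_add_neg]
    constructor
    · have h := L.smul_mem (2 : K)⁻¹ (L.add_mem hx (hL c x hx))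
      have e : x + R c x = (2 : K) • (B.repr x 0 • B 0) := by
        rw [hcx]; conv_lhs => arg 1; rw [hx']
        module
      rwa [e, inv_smul_smul₀ h2] at h
    · have h := L.smul_mem (2 : K)⁻¹ (L.sub_mem hx (hL c x hx))
      have e : x - R c x = (2 : K) • (B.repr x 1 • B 1) := by
        rw [hcx]; conv_lhs => arg 1; rw [hx']
        module
      rwa [e, inv_smul_smul₀ h2] at h
  have hB : B 0 ∈ L ∨ B 1 ∈ L → L = ⊤ := by
    intro h
    have h01' : B 0 ∈ L ∧ B 1 ∈ L := by
      rcases h with h | h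
      · refine ⟨h, ?_⟩
        have := (hcomp _ (hL σ _ h)).2
        rw [(happ σ 1).1] at this
        exact (L.smul_mem_iff ((map_ne_zero j).mpr h10)).mp this
      · refine ⟨?_, h⟩
        have := (hcomp _ (hL σ _ h)).1
        rw [(happ σ 0).2] at this
        exact (L.smul_mem_iff ((map_ne_zero j).mpr h01)).mp this
    rw [eq_top_iff, ← B.span_eq, Submodule.span_le]
    rintro _ ⟨i, rfl⟩
    fin_cases i
    · exact h01'.1
    · exact h01'.2
  rcases eq_or_ne L ⊥ with h | h
  · exact Or.inl h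
  obtain ⟨x, hx, hx0⟩ := Submodule.exists_mem_ne_zero_of_ne_bot h
  refine Or.inr (hB ?_)
  by_cases h0 : B.repr x 0 = 0
  · refine Or.inr ((L.smul_mem_iff (s := B.repr x 1) fun h1 => hx0 ?_).mp (hcomp x hx).2)
    rw [← B.sum_repr x, Fin.sum_univ_two, h0, h1, zero_smul, zero_smul, add_zero]
  · exact Or.inl ((L.smul_mem_iff h0).mp (hcomp x hx).1)

end Model

theorem modRep_eq_one_of_trivial {σ : Γℚ} (h : ∀ P : TorsSpace W p, σ • P = P) :
    modRep W p σ = 1 :=
  LinearMap.ext fun P => h P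

theorem pow_prime_eq_one_of_sq {σ : Γℚ}
    (h : ∀ P : TorsSpace W p, σ • (σ • P - P) - (σ • P - P) = 0) : modRep W p σ ^ p = 1 := by
  set M := modRep W p σ with hM
  have h1 : (M - 1) * M = M - 1 := by
    refine LinearMap.ext fun P => ?_
    show σ • σ • P - σ • P = σ • P - P
    rw [← smul_sub]
    exact sub_eq_zero.mp (h P)
  have key : ∀ n : ℕ, M ^ n = 1 + n • (M - 1) := by
    intro n
    induction n with
    | zero => simp
    | succ n ih =>
      rw [pow_succ, ih, add_mul, one_mul, smul_mul_assoc, h1, succ_nsmul]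
      abel
  rw [key, ← Nat.cast_smul_eq_nsmul (ZMod p), ZMod.natCast_self, zero_smul, add_zero]

/-- Inertia away from `p` is unipotent on `E[p]`. -/
theorem smul_sub_smul_sub (hss : W.IsSemistableModel) (hΔ : W.Δ ≠ 0) (hp2 : p ≠ 2) {l : ℕ}
    (hl : l.Prime) (hlp : l ≠ p) {A : ValuationSubring Qb} (hA : A.LiesOverPrime l) {σ : Γℚ}
    (hσ : σ ∈ A.inertiaSubgroupIn ℚ) (P : TorsSpace W p) :
    σ • (σ • P - P) - (σ • P - P) = 0 := by
  refine Subtype.ext (Local.Curve.smul_sub_smul_sub_eq_zero hl hA hΔ (hss l hl)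
    ((Fact.out : p.Prime).odd_of_ne_two hp2)
    (fun h => hlp ((Nat.prime_dvd_prime_iff_eq hl Fact.out).mp h)) hσ ?_)
  rw [← natCast_zsmul]
  exact (Submodule.mem_torsionBy_iff _ _).mp P.2

section NoPTorsion

variable (hΔ : W.Δ ≠ 0) (hss : W.IsSemistableModel) (hp2 : p ≠ 2)
  {b : Module.Basis (Fin 2) (ZMod p) (TorsSpace W p)} (hb : IsOddBasis b)
  (hpow : ∀ (σ : Γℚ) (k : ℕ), modRep W p σ ^ p ^ k = 1 → modRep W p σ = 1)

include hΔ hss hp2 hpow in
theorem modRep_inertia_eq_one {l : ℕ} (hl : l.Prime) (hlp : l ≠ p) {A : ValuationSubring Qb}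
    (hA : A.LiesOverPrime l) {σ : Γℚ} (hσ : σ ∈ A.inertiaSubgroupIn ℚ) : modRep W p σ = 1 :=
  hpow σ 1 (by
    rw [pow_one]
    exact pow_prime_eq_one_of_sq (smul_sub_smul_sub hss hΔ hp2 hl hlp hA hσ))

include hΔ hss hb hpow in
theorem false_of_three (hp3 : p = 3) : False := by
  have hp : p.Prime := Fact.out
  have hp2 : p ≠ 2 := by omega
  haveI := EllTorsion.isElliptic_map_rat hΔ
  obtain ⟨L, hL, hφ⟩ := EllTorsion.galoisRepModuleEnd_factorsThroughFiniteLevel
    (W.map (Int.castRingHom ℚ)) p hp.ne_zero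
  let φ : Γℚ →* (Module.End (ZMod p) (TorsSpace W p))ˣ := (modRep W p).toHomUnits
  have hφ' : ∀ σ : Γℚ, (∀ x ∈ L, σ x = x) → φ σ = 1 := fun σ h => Units.ext (hφ σ h)
  have hφpow : ∀ (σ : Γℚ) (k : ℕ), φ σ ^ p ^ k = 1 → φ σ = 1 := fun σ k h =>
    Units.ext (hpow σ k (congrArg Units.val h))
  let e : (Module.End (ZMod p) (TorsSpace W p))ˣ ≃* GL (Fin 2) (ZMod p) :=
    Units.mapEquiv (LinearMap.toMatrixAlgEquiv b).toMulEquiv
  haveI : Finite (Module.End (ZMod p) (TorsSpace W p))ˣ := Finite.of_equiv _ e.symm.toEquiv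
  have h48 : Nat.card φ.range ∣ 3 * 2 ^ 4 := by
    refine (Subgroup.card_subgroup_dvd_card φ.range).trans ?_
    rw [Nat.card_congr e.toEquiv, Matrix.card_GL_field]
    subst hp3
    simp [Fin.prod_univ_two]
  have h3 : ¬ 3 ∣ Nat.card φ.range := by
    intro h
    haveI : Fact (Nat.Prime 3) := ⟨Nat.prime_three⟩
    obtain ⟨⟨g, hg⟩, hord⟩ := exists_prime_orderOf_dvd_card' 3 h
    obtain ⟨σ, rfl⟩ := hg
    rw [← Subgroup.orderOf_coe] at hord
    change orderOf (φ σ) = 3 at hord
    have h1 := hφpow σ 1 (by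
      rw [pow_one]
      exact orderOf_dvd_iff_pow_eq_one.mp (dvd_of_eq (hord.trans hp3.symm)))
    rw [h1, orderOf_one] at hord
    omega
  haveI : Fact (Nat.Prime 2) := ⟨Nat.prime_two⟩
  obtain ⟨k, -, hk⟩ := (Nat.dvd_prime_pow Nat.prime_two).mp
    (((Nat.prime_three.coprime_iff_not_dvd.mpr h3).symm).dvd_of_dvd_mul_left h48)
  have hgrp : IsPGroup 2 φ.range := IsPGroup.of_card hk
  obtain ⟨A, hA⟩ := GalCommon.exists_liesOverPrime hp
  obtain ⟨i₀, hi₀, hgen, -⟩ := Mazur.Tame.exists_inertia_generator φ L hφ' hp A hA Nat.prime_two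
    hp2.symm fun i _ => by
      obtain ⟨k, hk⟩ := hgrp ⟨φ i, i, rfl⟩
      exact ⟨k, congrArg Subtype.val hk⟩
  set x := φ.rangeRestrict i₀
  set N := Subgroup.normalClosure ({x} : Set φ.range)
  have hU : N.comap φ.rangeRestrict = ⊤ := by
    refine EllP.eq_top_of_inertia_le _ L (fun σ hσ => ?_) fun q hq A' hA' σ hσ => ?_
    · rw [Subgroup.mem_comap, show φ.rangeRestrict σ = 1 from Subtype.ext
        (hφ' σ fun y hy => (IntermediateField.mem_fixingSubgroup_iff L σ).mp hσ y hy)]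
      exact one_mem _
    · rcases eq_or_ne q p with rfl | hqp
      · obtain ⟨g, hg⟩ := GalCommon.exists_smul_eq_of_liesOverPrime hq hA' hA
        have h1 : g * σ * g⁻¹ ∈ A.inertiaSubgroupIn ℚ := hg ▸ GalCommon.mem_inertia_conj hσ g
        have h2 : φ.rangeRestrict (g * σ * g⁻¹) ∈ N := by
          obtain ⟨n, hn⟩ := Subgroup.mem_zpowers_iff.mp (hgen _ h1)
          rw [show φ.rangeRestrict (g * σ * g⁻¹) = x ^ n from Subtype.ext hn.symm]
          exact zpow_mem (Subgroup.subset_normalClosure (Set.mem_singleton x)) n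
        have h3 := (inferInstance : (N.comap φ.rangeRestrict).Normal).conj_mem' _
          (Subgroup.mem_comap.mpr h2) g
        rwa [show g⁻¹ * (g * σ * g⁻¹) * g = σ by group] at h3
      · rw [Subgroup.mem_comap, show φ.rangeRestrict σ = 1 from Subtype.ext
          (Units.ext (modRep_inertia_eq_one hΔ hss hp2 hpow hq hqp hA' hσ))]
        exact one_mem _
  have hN : N = ⊤ := Subgroup.comap_injective φ.rangeRestrict_surjective
    (hU.trans (Subgroup.comap_top _).symm)
  have hcyc := zpowers_eq_top_of_normalClosure hgrp x hN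
  obtain ⟨c, hc⟩ := hb.exists_conj
  obtain ⟨σ, h01, -⟩ := hb.exists_off
  obtain ⟨m, hm⟩ := Subgroup.mem_zpowers_iff.mp (hcyc ▸ Subgroup.mem_top (φ.rangeRestrict c))
  obtain ⟨n, hn⟩ := Subgroup.mem_zpowers_iff.mp (hcyc ▸ Subgroup.mem_top (φ.rangeRestrict σ))
  have hcomm : modRep W p c * modRep W p σ = modRep W p σ * modRep W p c := by
    have h : φ.rangeRestrict c * φ.rangeRestrict σ = φ.rangeRestrict σ * φ.rangeRestrict c := by
      rw [← hm, ← hn, ← zpow_add, ← zpow_add, add_comm]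
    exact congrArg (fun g : φ.range => (g.1 : Module.End (ZMod p) (TorsSpace W p))) h
  have h := congrArg (fun M => LinearMap.toMatrix b b M 0 1) hcomm
  simp only [LinearMap.toMatrix_mul, hc, Matrix.mul_apply, Fin.sum_univ_two] at h
  simp only [Matrix.of_apply, Matrix.cons_val', Matrix.cons_val_zero, Matrix.cons_val_one,
    Matrix.empty_val', Matrix.cons_val_fin_one, one_mul, zero_mul, add_zero, mul_zero, zero_add,
    mul_neg, mul_one] at h
  exact mul_ne_zero (two_ne_zero_zmod hp2) h01 (by linear_combination h)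

end NoPTorsion

section Main

variable (hΔ : W.Δ ≠ 0) (hss : W.IsSemistableModel) (hp2 : p ≠ 2)
  {K : Type*} [Field K] {U : Type*} [AddCommGroup U] [Module K U]
  {R : Γℚ →* Module.End K U} {j : ZMod p →+* K} {B : Module.Basis (Fin 2) K U}
  {b : Module.Basis (Fin 2) (ZMod p) (TorsSpace W p)} (hb : IsOddBasis b)
  (hR : ∀ σ, LinearMap.toMatrix B B (R σ) = (LinearMap.toMatrix b b (modRep W p σ)).map j)
  {G : Subgroup Γℚ} (hG : G.index = 2) {V : Submodule K U} (hV : ∀ σ ∈ G, ∀ x ∈ V, R σ x ∈ V)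
  (hV0 : V ≠ ⊥) (hV1 : V ≠ ⊤)

include hp2 hb hR hG hV hV0 hV1

theorem mem_of_modRep_eq_one {σ : Γℚ} (hσ : modRep W p σ = 1) : σ ∈ G :=
  mem_of_eq_one (irreducible hR hp2 hb) hG hV hV0 hV1 ((eq_one_iff hR).mpr hσ)

theorem modRep_eq_one_of_pow (σ : Γℚ) (k : ℕ) (h : modRep W p σ ^ p ^ k = 1) :
    modRep W p σ = 1 := by
  haveI : CharP K p := charP_of_injective_ringHom j.injective p
  rw [← map_pow, ← eq_one_iff hR, map_pow] at h
  exact (eq_one_iff hR).mp (eq_one_of_pow_eq_one (Module.finrank_eq_card_basis B)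
    (irreducible hR hp2 hb) hG hV hV0 hV1 hp2 h)

theorem modTr_eq_zero {τ : Γℚ} (hτ : τ ∉ G) : modTr W p τ = 0 :=
  (map_eq_zero j).mp ((trace_eq hR τ).symm.trans (ResidualSetup.trace_eq_zero
    (Module.finrank_eq_card_basis B) (irreducible hR hp2 hb) hG hV hV0 hV1 hτ))

include hΔ hss

theorem exists_inertia_notMem :
    ∃ A : ValuationSubring Qb, A.LiesOverPrime p ∧ ∃ τ ∈ A.inertiaSubgroupIn ℚ, τ ∉ G := by
  by_contra hcon
  push Not at hcon
  haveI := EllTorsion.isElliptic_map_rat hΔ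
  obtain ⟨L, hL, hφ⟩ := EllTorsion.galoisRepModuleEnd_factorsThroughFiniteLevel
    (W.map (Int.castRingHom ℚ)) p (Fact.out : p.Prime).ne_zero
  have hmem : ∀ σ, modRep W p σ = 1 → σ ∈ G := fun σ h =>
    mem_of_modRep_eq_one hp2 hb hR hG hV hV0 hV1 h
  have htop : G = ⊤ := by
    refine EllP.eq_top_of_inertia_le G L (fun σ hσ => hmem σ (hφ σ fun y hy =>
      (IntermediateField.mem_fixingSubgroup_iff L σ).mp hσ y hy)) fun q hq A hA σ hσ => ?_
    rcases eq_or_ne q p with rfl | hqp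
    · exact hcon A hA σ hσ
    · exact hmem σ (modRep_inertia_eq_one hΔ hss hp2
        (modRep_eq_one_of_pow hp2 hb hR hG hV hV0 hV1) hq hqp hA hσ)
  rw [htop, Subgroup.index_top] at hG
  omega

theorem false_of_line (hp3 : p ≠ 3) {A : ValuationSubring Qb} (hA : A.LiesOverPrime p) {τ : Γℚ}
    (hτ : τ ∈ A.inertiaSubgroupIn ℚ) (hτG : τ ∉ G)
    (htop : (EllP.torsionE1 A : Submodule (ZMod p) (EllP.QTorsion W p)) ≠ ⊤) : False := by
  have hp : p.Prime := Fact.out
  obtain ⟨P, hP, hP0⟩ := Submodule.exists_mem_ne_zero_of_ne_bot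
    (torsionE1_ne_bot (W := W) hΔ hA hp2 (hss p hp))
  have hkey : ∀ σ ∈ A.inertiaSubgroupIn ℚ, σ ∉ G → modDet W p σ = -1 := by
    intro σ hσ hσG
    have hd : modDet W p σ = MazurChain.cyc p σ := MazurChain.det_smul hΔ σ
    have hv : modRep W p σ P = modDet W p σ • P :=
      (smul_eq_cyc hΔ hA hp2 (hss p hp) htop hσ hP).trans (by rw [hd])
    have hne : modDet W p σ ≠ 0 := ((Group.isUnit σ).map (modDet W p)).ne_zero
    have h := LinearMap.congr_fun (cayley_hamilton (p := p) hΔ σ) P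
    simp only [LinearMap.add_apply, LinearMap.sub_apply, Module.End.mul_apply, hv, map_smul,
      Module.algebraMap_end_apply, LinearMap.zero_apply] at h
    rw [smul_smul, smul_smul, ← sub_smul, ← add_smul] at h
    have h1 := (smul_eq_zero.mp h).resolve_right hP0
    rw [modTr_eq_zero hp2 hb hR hG hV hV0 hV1 hσG] at h1
    refine mul_left_cancel₀ hne ?_
    linear_combination h1
  obtain ⟨σ, hσ, hσa⟩ := exists_inertia_cyc_eq hA (Units.mk0 _ (two_ne_zero_zmod (p := p) hp2))
  have hd : modDet W p σ = 2 := (MazurChain.det_smul hΔ σ).trans hσa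
  by_cases hσG : σ ∈ G
  · have hστ : σ * τ ∉ G := fun h => hτG ((Subgroup.mul_mem_cancel_left G hσG).mp h)
    have h := hkey _ (mul_mem hσ hτ) hστ
    rw [map_mul, hd, hkey τ hτ hτG] at h
    exact one_ne_zero (α := ZMod p) (by linear_combination -h)
  · have h := hkey σ hσ hσG
    rw [hd] at h
    exact three_ne_zero_zmod hp3 (by linear_combination h)

theorem false_of_formal (hp3 : p ≠ 3) {A : ValuationSubring Qb} (hA : A.LiesOverPrime p) {τ : Γℚ}
    (hτ : τ ∈ A.inertiaSubgroupIn ℚ) (hτG : τ ∉ G)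
    (htop : (EllP.torsionE1 A : Submodule (ZMod p) (EllP.QTorsion W p)) = ⊤) : False := by
  classical
  have hp : p.Prime := Fact.out
  haveI := EllTorsion.isElliptic_map_rat hΔ
  obtain ⟨L, hL, hφ⟩ := EllTorsion.galoisRepModuleEnd_factorsThroughFiniteLevel
    (W.map (Int.castRingHom ℚ)) p hp.ne_zero
  have hpow := modRep_eq_one_of_pow hp2 hb hR hG hV hV0 hV1
  have hcomm : ∀ σ ∈ A.inertiaSubgroupIn ℚ,
      modRep W p σ * modRep W p τ = modRep W p τ * modRep W p σ := fun σ hσ =>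
    congrArg Units.val (inertia_commute (modRep W p).toHomUnits L
      (fun g hg => Units.ext (hφ g hg)) hp hA
      (fun i _ k h => Units.ext (hpow i k (congrArg Units.val h))) hσ hτ)
  have hscalar : ∀ σ ∈ A.inertiaSubgroupIn ℚ, σ ∈ G → ∃ a : (ZMod p)ˣ,
      ∀ P : TorsSpace W p, σ • P = a • P := by
    intro σ hσ hσG
    obtain ⟨a, ha⟩ := ResidualSetup.eq_smul_one_of_commute (h := σ)
      (Module.finrank_eq_card_basis B) (irreducible hR hp2 hb) hG hV hV0 hV1 hτG hσG
      (by rw [← map_mul, ← map_mul, modRep_eq_iff hR, map_mul, map_mul]; exact hcomm σ hσ)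
    obtain ⟨a₀, ha₀⟩ := exists_eq_smul_one hR ha
    have hne : a₀ ≠ 0 := by
      rintro rfl
      haveI : Nontrivial (TorsSpace W p) :=
        Module.nontrivial_of_finrank_eq_succ (finrank_torsSpace hΔ)
      have h1 : modRep W p σ * modRep W p σ⁻¹ = 1 := by rw [← map_mul, mul_inv_cancel, map_one]
      rw [ha₀, zero_smul, zero_mul] at h1
      exact zero_ne_one h1
    exact ⟨Units.mk0 a₀ hne, fun P => (LinearMap.congr_fun ha₀ P).trans (by rfl)⟩
  haveI := finite_range_torsPerm (p := p) (A := A) hΔ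
  set N := Nat.card (torsPerm W A p).range with hN
  have hbound : N ≤ 2 * (p - 1) := by
    let f : Bool × (ZMod p)ˣ → Equiv.Perm (EllP.QTorsion W p) := fun x =>
      MulAction.toPerm x.2 * (if x.1 then torsPerm W A p ⟨τ, hτ⟩ else 1)
    have hsub : ((torsPerm W A p).range : Set (Equiv.Perm (EllP.QTorsion W p))) ⊆ Set.range f := by
      rintro _ ⟨⟨σ, hσ⟩, rfl⟩
      by_cases hσG : σ ∈ G
      · obtain ⟨a, ha⟩ := hscalar σ hσ hσG
        exact ⟨(false, a), Equiv.ext fun P => (ha P).symm⟩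
      · have hmem : σ * τ⁻¹ ∈ G := by
          rw [Subgroup.mul_mem_iff_of_index_two hG, inv_mem_iff]
          exact iff_of_false hσG hτG
        obtain ⟨a, ha⟩ := hscalar _ (mul_mem hσ (inv_mem hτ)) hmem
        refine ⟨(true, a), Equiv.ext fun P => ?_⟩
        show a • (τ • P) = σ • P
        exact (ha (τ • P)).symm.trans (by rw [smul_smul, inv_mul_cancel_right])
    calc N = Nat.card ((torsPerm W A p).range : Set (Equiv.Perm (EllP.QTorsion W p))) := rfl
      _ ≤ Nat.card (Set.range f) := Nat.card_mono (Set.finite_range f) hsub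
      _ ≤ Nat.card (Bool × (ZMod p)ˣ) := Finite.card_range_le f
      _ = 2 * (p - 1) := by
        rw [Nat.card_prod, Nat.card_eq_fintype_card, Nat.card_eq_fintype_card, Fintype.card_bool,
          ZMod.card_units]
  haveI : Nontrivial (TorsSpace W p) :=
    Module.nontrivial_of_finrank_eq_succ (finrank_torsSpace hΔ)
  obtain ⟨P, hP0⟩ := exists_ne (0 : EllP.QTorsion W p)
  have hformal : ∀ P : EllP.QTorsion W p, EllP.InFormalAt A (P : EllP.QPoint W) := by
    rintro ⟨Q, hQ⟩
    have h : (⟨Q, hQ⟩ : EllP.QTorsion W p) ∈ EllP.torsionE1 A := htop ▸ Submodule.mem_top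
    rcases Q with _ | ⟨x, y, h'⟩
    · exact Or.inl rfl
    · right
      change EllP.toModel A (Affine.Point.some x y h' : EllP.QPoint W) ∈
        EllLocal.E1 A (EllP.modelAt A W) at h
      rw [EllP.toModel_some] at h
      exact h
  set v := A.valuation
  set d := (p ^ 2 - 1) / 2 with hd
  have hval := EllP.valuation_xCoord_pow W hΔ hp hp2 A hA hformal P hP0
  have hd0 : d ≠ 0 := by
    have : 4 ≤ p ^ 2 := by nlinarith [hp.two_le]
    omega
  have hx0 : EllP.xCoord (P : EllP.QPoint W) ≠ 0 := fun h => by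
    simp [h, ← hd, zero_pow hd0] at hval
  obtain ⟨k, hk⟩ := valuation_pow_card_range hp hA (torsPerm W A p) hx0 fun σ hσ => by
    rw [← EllP.xCoord_smul]
    exact congrArg (fun Q : EllP.QTorsion W p => EllP.xCoord (Q : EllP.QPoint W))
      (torsPerm_eq_one_iff.mp hσ P)
  have hp0 : v (p : Qb) ≠ 0 := (Valuation.ne_zero_iff _).mpr (Nat.cast_ne_zero.mpr hp.ne_zero)
  have hdvd : d ∣ N := by
    have h1 : v (EllP.xCoord (P : EllP.QPoint W)) ^ d = v (p : Qb) ^ (-1 : ℤ) := by
      rw [zpow_neg_one]; exact eq_inv_of_mul_eq_one_left hval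
    have h2 : (v (EllP.xCoord (P : EllP.QPoint W)) ^ d) ^ N = (v (p : Qb) ^ k) ^ d := by
      rw [← pow_mul, mul_comm, pow_mul, ← hk]
    rw [h1, ← zpow_natCast, ← zpow_natCast (v (p : Qb) ^ k), ← zpow_mul, ← zpow_mul] at h2
    have h3 := (zpow_right_strictAnti₀ (pos_of_ne_zero hp0)
      (hA : A.valuation (p : Qb) < 1)).injective h2
    exact Int.natCast_dvd_natCast.mp ⟨-k, by linear_combination -h3⟩
  have hle : d ≤ 2 * (p - 1) := (Nat.le_of_dvd Nat.card_pos hdvd).trans hbound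
  have h5 : 5 ≤ p := hp.five_le_of_ne_two_of_ne_three hp2 hp3
  have h25 : 5 * p ≤ p ^ 2 := by rw [sq]; exact Nat.mul_le_mul_right p h5
  omega

end Main

/-- `E[p]` of a semistable model, over any field containing the coefficients, has no proper
subspace stable under a subgroup of index two. -/
theorem eq_bot_or_eq_top_of_index_two (hΔ : W.Δ ≠ 0) (hss : W.IsSemistableModel) (hp2 : p ≠ 2)
    {K : Type*} [Field K] {U : Type*} [AddCommGroup U] [Module K U]
    {R : Γℚ →* Module.End K U} {j : ZMod p →+* K} {B : Module.Basis (Fin 2) K U}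
    {b : Module.Basis (Fin 2) (ZMod p) (TorsSpace W p)} (hb : IsOddBasis b)
    (hR : ∀ σ, LinearMap.toMatrix B B (R σ) = (LinearMap.toMatrix b b (modRep W p σ)).map j)
    {G : Subgroup Γℚ} (hG : G.index = 2) {V : Submodule K U}
    (hV : ∀ σ ∈ G, ∀ x ∈ V, R σ x ∈ V) : V = ⊥ ∨ V = ⊤ := by
  by_contra hcon
  push Not at hcon
  obtain ⟨hV0, hV1⟩ := hcon
  rcases eq_or_ne p 3 with hp3 | hp3
  · exact false_of_three hΔ hss hb (modRep_eq_one_of_pow hp2 hb hR hG hV hV0 hV1) hp3
  obtain ⟨A, hA, τ, hτ, hτG⟩ := exists_inertia_notMem hΔ hss hp2 hb hR hG hV hV0 hV1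
  by_cases htop : (EllP.torsionE1 A : Submodule (ZMod p) (EllP.QTorsion W p)) = ⊤
  · exact false_of_formal hΔ hss hp2 hb hR hG hV hV0 hV1 hp3 hA hτ hτG htop
  · exact false_of_line hΔ hss hp2 hb hR hG hV hV0 hV1 hp3 hA hτ hτG htop

end FLTAgent.ResidualSetup
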