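import Fermat.Agent.FlatJ.Integral

/-!
# Local membership in a ring of integral functions

For a ring `S` of functions on a finite set with values integral at the places over `p`,
`locIn S x B` is its localisation at the pair `(x, B)`. `mem_of_forall_locIn`: a function in
every localisation lies in `S`, since its ideal of denominators is in no maximal ideal.
-/

set_option autoImplicit false
set_option linter.style.haveILetI false
set_option linter.unusedSectionVars false

noncomputable section

namespace FLTAgent.ResidualSetup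

local notation "Qb" => AlgebraicClosure ℚ
local notation "Γℚ" => (AlgebraicClosure ℚ ≃ₐ[ℚ] AlgebraicClosure ℚ)

variable {p : ℕ} [Fact p.Prime] {X : Type} [Finite X]

theorem natCast_mem_of_isMaximal (m : Ideal (GaloisRep.ratLocalizedAt p)) (hm : m.IsMaximal) :
    (p : GaloisRep.ratLocalizedAt p) ∈ m := by
  by_contra h
  obtain ⟨y, i, hi, he⟩ := hm.exists_inv h
  have hu : IsUnit i := by
    by_contra hu
    obtain ⟨c, hc⟩ := FlatJ.dvd_of_not_isUnit_Rl hu
    exact FlatJ.natCast_not_isUnit_Rl (ℓ := p)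
      (IsUnit.of_mul_eq_one (y + c) (by rw [mul_add, ← hc, mul_comm _ y, he]))
  exact hm.ne_top (Ideal.eq_top_of_isUnit_mem _ hi hu)

omit [Fact p.Prime] in
/-- A function with integral values is integral. -/
theorem isIntegral_of_forall_apply {f : X → Qb}
    (h : ∀ x, IsIntegral (GaloisRep.ratLocalizedAt p) (f x)) :
    IsIntegral (GaloisRep.ratLocalizedAt p) f := by
  classical
  haveI := Fintype.ofFinite X
  choose q hq hqx using h
  refine ⟨∏ x, q x, Polynomial.monic_prod_of_monic _ _ fun x _ => hq x, funext fun x => ?_⟩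
  rw [← Polynomial.aeval_def, Polynomial.aeval_pi_apply₂, ← Finset.mul_prod_erase Finset.univ q
    (Finset.mem_univ x), map_mul, show Polynomial.aeval (f x) (q x) = 0 from hqx x, zero_mul]
  rfl

variable (S : Subalgebra (GaloisRep.ratLocalizedAt p) (X → Qb))

/-- Functions which are fractions in `S` with denominator a unit at `(x, B)`. -/
def locIn (x : X) (B : ValuationSubring Qb) :
    Subalgebra (GaloisRep.ratLocalizedAt p) (X → Qb) where
  carrier := {f | ∃ u ∈ S, B.valuation (u x) = 1 ∧ u * f ∈ S}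
  mul_mem' := by
    rintro f g ⟨u, hu, hux, huf⟩ ⟨w, hw, hwx, hwg⟩
    refine ⟨u * w, mul_mem hu hw, by rw [Pi.mul_apply, map_mul, hux, hwx, one_mul], ?_⟩
    rw [show u * w * (f * g) = (u * f) * (w * g) by ring]
    exact mul_mem huf hwg
  add_mem' := by
    rintro f g ⟨u, hu, hux, huf⟩ ⟨w, hw, hwx, hwg⟩
    refine ⟨u * w, mul_mem hu hw, by rw [Pi.mul_apply, map_mul, hux, hwx, one_mul], ?_⟩
    rw [show u * w * (f + g) = (u * f) * w + u * (w * g) by ring]
    exact add_mem (mul_mem huf hw) (mul_mem hu hwg)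
  algebraMap_mem' r :=
    ⟨1, one_mem S, by simp, by rw [one_mul]; exact S.algebraMap_mem r⟩

variable {S} {x : X} {B : ValuationSubring Qb}

theorem le_locIn : S ≤ locIn S x B := fun f hf =>
  ⟨1, one_mem S, by simp, by rwa [one_mul]⟩

theorem mem_locIn_of_mul {u f : X → Qb} (hu : u ∈ locIn S x B) (hux : B.valuation (u x) = 1)
    (huf : u * f ∈ locIn S x B) : f ∈ locIn S x B := by
  obtain ⟨u₁, h₁, h₁x, h₁u⟩ := hu
  obtain ⟨u₂, h₂, h₂x, h₂f⟩ := huf
  refine ⟨u₁ * u * u₂, mul_mem h₁u h₂, ?_, ?_⟩
  · simp only [Pi.mul_apply, map_mul, h₁x, hux, h₂x, one_mul]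
  · rw [show u₁ * u * u₂ * f = u₁ * (u₂ * (u * f)) by ring]
    exact mul_mem h₁ h₂f

theorem apply_mem_of_mem_locIn (hS : ∀ a ∈ S, a x ∈ B) {f : X → Qb} (hf : f ∈ locIn S x B) :
    f x ∈ B := by
  obtain ⟨u, -, hux, huf⟩ := hf
  have h := (B.valuation_le_one_iff _).mpr (hS _ huf)
  rw [Pi.mul_apply, map_mul, hux, one_mul] at h
  exact (B.valuation_le_one_iff _).mp h

/-- Membership in a ring of integral functions is local. -/
theorem mem_of_forall_locIn
    (hint : ∀ a ∈ S, ∀ (x : X) (B : ValuationSubring Qb), B.LiesOverPrime p → a x ∈ B)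
    {f : X → Qb} (hloc : ∀ (x : X) (B : ValuationSubring Qb), B.LiesOverPrime p → f ∈ locIn S x B) :
    f ∈ S := by
  classical
  haveI := Fintype.ofFinite X
  let J : Ideal S :=
    { carrier := {u | (u : X → Qb) * f ∈ S}
      add_mem' := fun {a b} ha hb => by
        show ((a + b : S) : X → Qb) * f ∈ S
        rw [AddMemClass.coe_add, add_mul]; exact add_mem ha hb
      zero_mem' := by
        show ((0 : S) : X → Qb) * f ∈ S
        rw [ZeroMemClass.coe_zero, zero_mul]; exact zero_mem S
      smul_mem' := fun a b hb => by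
        show ((a * b : S) : X → Qb) * f ∈ S
        rw [MulMemClass.coe_mul, mul_assoc]; exact mul_mem a.2 hb }
  by_cases hJ : J = ⊤
  · have h1 : (1 : S) ∈ J := hJ ▸ Submodule.mem_top
    have h2 : ((1 : S) : X → Qb) * f ∈ S := h1
    rwa [OneMemClass.coe_one, one_mul] at h2
  exfalso
  obtain ⟨M, hM, hJM⟩ := Ideal.exists_le_maximal J hJ
  let ev : X → (S →+* Qb) := fun x => (Pi.evalRingHom (fun _ : X => Qb) x).comp S.toSubring.subtype
  have hinf : (Finset.univ.inf fun x => RingHom.ker (ev x)) ≤ M := by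
    intro a ha
    rw [Submodule.mem_finsetInf] at ha
    have : a = 0 := Subtype.ext (funext fun x => ha x (Finset.mem_univ x))
    rw [this]
    exact zero_mem M
  obtain ⟨x, -, hx⟩ := (Ideal.IsPrime.inf_le' hM.isPrime).mp hinf
  have hIne : M.map (ev x).rangeRestrict ≠ ⊤ := by
    intro h
    have h1 : (1 : (ev x).range) ∈ M.map (ev x).rangeRestrict := h ▸ Submodule.mem_top
    rw [Ideal.mem_map_iff_of_surjective _ (ev x).rangeRestrict_surjective] at h1
    obtain ⟨m, hm, hm1⟩ := h1
    have h2 : (1 - m : S) ∈ RingHom.ker (ev x) := by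
      rw [RingHom.mem_ker, map_sub, map_one, show ev x m = 1 from congrArg Subtype.val hm1, sub_self]
    refine hM.ne_top ((Ideal.eq_top_iff_one M).mpr ?_)
    simpa using add_mem hm (hx h2)
  obtain ⟨B, hB, hI⟩ := Ideal.image_subset_nonunits_valuationSubring _ hIne
  have hnon : ∀ m ∈ M, ev x m ∈ B.nonunits := fun m hm =>
    hI ⟨_, Ideal.mem_map_of_mem _ hm, rfl⟩
  have hpM : (p : S) ∈ M := by
    haveI : Algebra.IsIntegral (GaloisRep.ratLocalizedAt p) S := ⟨fun a => by
      refine (isIntegral_algHom_iff S.val Subtype.val_injective).mp ?_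
      exact isIntegral_of_forall_apply fun y => FlatJ.isIntegral_Rl_of_forall_mem fun V hV => hint _ a.2 y V hV⟩
    have h := natCast_mem_of_isMaximal _
      (Ideal.isMaximal_comap_of_isIntegral_of_isMaximal (R := GaloisRep.ratLocalizedAt p) M)
    simpa using h
  have hp : B.LiesOverPrime p := by
    have := hnon _ hpM
    rwa [map_natCast] at this
  obtain ⟨u, hu, hux, huf⟩ := hloc x B hp
  have h := hnon ⟨u, hu⟩ (hJM huf)
  rw [ValuationSubring.mem_nonunits_iff] at h
  exact h.ne hux

end FLTAgent.ResidualSetup
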