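import Fermat.Agent.EllP.Supersingular
import Fermat.Agent.EllTorsion.Galois
import Fermat.Agent.MazurP.ResidualCurve

/-!
# The Tate module of an integral model in coordinates

`TateSystem W p` is a compatible system of bases of the `p`-power torsion (`exists_tateSystem`).
It gives coordinates `TateSystem.coord` on `p ^ n`-torsion, the matrices `TateSystem.galMat`
modulo `p ^ n` and their limit `TateSystem.mat : Gal(ℚ̄/ℚ) →* M₂(ℤ_p)`, continuous by
`TateSystem.exists_level`.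
-/

set_option autoImplicit false
set_option linter.style.haveILetI false
set_option linter.unusedSectionVars false

noncomputable section

open WeierstrassCurve WeierstrassCurve.Affine.Point
open scoped WeierstrassCurve.Affine

namespace FLTAgent.ResidualSetup

local notation "Qb" => AlgebraicClosure ℚ
local notation "Γℚ" => (AlgebraicClosure ℚ ≃ₐ[ℚ] AlgebraicClosure ℚ)

open EllP (QPoint QTorsion)

variable {p : ℕ}

/-- A compatible sequence of residues comes from a `p`-adic integer. -/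
theorem exists_padicInt_of_compat [Fact p.Prime] (a : ∀ n, ZMod (p ^ n))
    (h : ∀ n, ZMod.castHom (pow_dvd_pow p n.le_succ) (ZMod (p ^ n)) (a (n + 1)) = a n) :
    ∃ x : ℤ_[p], ∀ n, PadicInt.toZModPow n x = a n := by
  haveI : ∀ n, NeZero (p ^ n) := fun n => ⟨pow_ne_zero n (Fact.out : p.Prime).ne_zero⟩
  have hd : ∀ n, (p : ℤ) ^ n ∣ ((a (n + 1)).val : ℤ) - ((a n).val : ℤ) := by
    intro n
    rw [← Nat.cast_pow, ← ZMod.intCast_zmod_eq_zero_iff_dvd, Int.cast_sub, Int.cast_natCast,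
      Int.cast_natCast, ZMod.natCast_zmod_val, sub_eq_zero,
      ← map_natCast (ZMod.castHom (pow_dvd_pow p n.le_succ) (ZMod (p ^ n))), ZMod.natCast_zmod_val]
    exact h n
  refine ⟨PadicInt.ofIntSeq (fun n => ((a n).val : ℤ))
    (PadicInt.isCauSeq_padicNorm_of_pow_dvd_sub _ p hd), fun n => ?_⟩
  exact (PadicInt.toZModPow_ofIntSeq_of_pow_dvd_sub _ p hd n).trans
    (by rw [Int.cast_natCast, ZMod.natCast_zmod_val])

theorem nsmul_smul_comm {W : WeierstrassCurve ℤ} (σ : Γℚ) (n : ℕ) (P : QPoint W) :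
    n • σ • P = σ • (n • P) :=
  (map_nsmul (DistribSMul.toAddMonoidHom (QPoint W) σ) n P).symm

theorem torsion_nsmul_eq_zero {W : WeierstrassCurve ℤ} {n : ℕ} (P : QTorsion W n) :
    n • (P : QPoint W) = 0 := by
  rw [← natCast_zsmul]; exact (Submodule.mem_torsionBy_iff _ _).mp P.2

theorem mem_qTorsion_iff {W : WeierstrassCurve ℤ} {n : ℕ} {P : QPoint W} :
    P ∈ Submodule.torsionBy ℤ (QPoint W) n ↔ n • P = 0 := by
  rw [Submodule.mem_torsionBy_iff, natCast_zsmul]

theorem coe_zmod_smul {W : WeierstrassCurve ℤ} {n : ℕ} [NeZero n] (a : ZMod n)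
    (x : QTorsion W n) : ((a • x : QTorsion W n) : QPoint W) = a.val • (x : QPoint W) := by
  conv_lhs => rw [← ZMod.natCast_zmod_val a, Nat.cast_smul_eq_nsmul]
  exact Submodule.coe_smul_of_tower a.val x

theorem nsmul_eq_nsmul_of_modEq {W : WeierstrassCurve ℤ} {a b N : ℕ} {P : QPoint W}
    (hP : N • P = 0) (hab : a ≡ b [MOD N]) : a • P = b • P :=
  nsmul_eq_nsmul_iff_modEq.mpr (hab.of_dvd (addOrderOf_dvd_of_nsmul_eq_zero hP))

/-- Compatible generators of the `p`-power torsion. -/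
structure TateSystem (W : WeierstrassCurve ℤ) (p : ℕ) : Type where
  pt : ℕ → Fin 2 → QPoint W
  pt_zero : ∀ i, pt 0 i = 0
  pt_succ : ∀ n i, p • pt (n + 1) i = pt n i
  indep : ∀ a : Fin 2 → ℤ, ∑ i, a i • pt 1 i = 0 → ∀ i, (p : ℤ) ∣ a i

theorem qPoint_nsmul_surjective {W : WeierstrassCurve ℤ} (hΔ : W.Δ ≠ 0) {n : ℕ} (hn : n ≠ 0)
    (P : QPoint W) : ∃ Q : QPoint W, n • Q = P := by
  haveI := EllTorsion.isElliptic_map_rat hΔ
  haveI : ((W.map (Int.castRingHom ℚ))⁄Qb).toAffine.IsElliptic :=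
    inferInstanceAs ((W.map (Int.castRingHom ℚ)).map (algebraMap ℚ Qb)).IsElliptic
  exact EllTorsion.nsmul_surjective (W := ((W.map (Int.castRingHom ℚ))⁄Qb).toAffine) n hn P

theorem exists_tateSystem (W : WeierstrassCurve ℤ) (p : ℕ) [hp : Fact p.Prime] (hΔ : W.Δ ≠ 0) :
    Nonempty (TateSystem W p) := by
  haveI := MazurP.moduleFinite_torsSpace (p := p) hΔ
  let b := Module.finBasisOfFinrankEq (ZMod p) (MazurP.TorsSpace W p)
    (MazurP.finrank_torsSpace hΔ)
  choose d hd using qPoint_nsmul_surjective hΔ hp.out.ne_zero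
  let f : ℕ → Fin 2 → QPoint W := fun n i =>
    Nat.rec (b i : QPoint W) (fun _ P => d P) n
  refine ⟨{
    pt := fun n => Nat.casesOn n (fun _ => 0) f
    pt_zero := fun i => rfl
    pt_succ := fun n i => ?_
    indep := fun a ha i => ?_ }⟩
  · cases n with
    | zero => exact torsion_nsmul_eq_zero (W := W) (n := p) (b i)
    | succ n => exact hd (f n i)
  · have h : ∑ i, (a i : ZMod p) • b i = 0 := by
      refine Subtype.ext ?_
      simp only [Int.cast_smul_eq_zsmul, Submodule.coe_sum, ZeroMemClass.coe_zero]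
      exact ha
    exact (ZMod.intCast_zmod_eq_zero_iff_dvd _ _).mp
      (Fintype.linearIndependent_iff.mp b.linearIndependent _ h i)

namespace TateSystem

variable {W : WeierstrassCurve ℤ} [hp : Fact p.Prime] (S : TateSystem W p)

theorem pow_smul_pt (n i : ℕ) (j : Fin 2) : p ^ i • S.pt (n + i) j = S.pt n j := by
  induction i with
  | zero => simp
  | succ i ih => rw [pow_succ, mul_smul, ← add_assoc, S.pt_succ, ih]

theorem pow_smul_pt_self (n : ℕ) (j : Fin 2) : p ^ n • S.pt n j = 0 := by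
  simpa [S.pt_zero] using S.pow_smul_pt 0 n j

theorem pow_dvd_of_sum_eq_zero : ∀ (n : ℕ) (a : Fin 2 → ℤ),
    ∑ i, a i • S.pt n i = 0 → ∀ i, (p : ℤ) ^ n ∣ a i := by
  intro n
  induction n with
  | zero => intro a _ i; simp
  | succ n ih =>
    intro a ha i
    have h1 : ∑ i, a i • S.pt n i = 0 := by
      rw [← smul_zero (A := QPoint W) p, ← ha, Finset.smul_sum]
      exact Finset.sum_congr rfl fun j _ => by
        rw [← S.pt_succ n j, ← natCast_zsmul, ← natCast_zsmul, smul_comm]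
    choose c hc using ih a h1
    have h2 : ∑ i, c i • S.pt 1 i = 0 := by
      refine Eq.trans (Finset.sum_congr rfl fun j _ => ?_) ha
      rw [← S.pow_smul_pt 1 n j, add_comm 1 n, hc j, mul_comm, mul_smul, ← Nat.cast_pow,
        natCast_zsmul]
    obtain ⟨e, he⟩ := S.indep c h2 i
    exact ⟨e, by rw [hc i, he]; ring⟩

instance neZero_pow (n : ℕ) : NeZero (p ^ n) := ⟨pow_ne_zero n hp.out.ne_zero⟩

/-- The generators as torsion points. -/
def tp (n : ℕ) (j : Fin 2) : QTorsion W (p ^ n) :=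
  ⟨S.pt n j, mem_qTorsion_iff.mpr (S.pow_smul_pt_self n j)⟩

/-- Linear combinations of the generators. -/
def comb (n : ℕ) : (Fin 2 → ZMod (p ^ n)) →ₗ[ZMod (p ^ n)] QTorsion W (p ^ n) :=
  Fintype.linearCombination (ZMod (p ^ n)) (S.tp n)

theorem coe_comb (n : ℕ) (v : Fin 2 → ZMod (p ^ n)) :
    ((S.comb n v : QTorsion W (p ^ n)) : QPoint W) = ∑ i, (v i).val • S.pt n i := by
  rw [comb, Fintype.linearCombination_apply, Submodule.coe_sum]
  exact Finset.sum_congr rfl fun i _ => coe_zmod_smul _ _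

theorem comb_injective (n : ℕ) : Function.Injective (S.comb n) := by
  rw [injective_iff_map_eq_zero]
  intro v hv
  funext i
  have h := S.pow_dvd_of_sum_eq_zero n (fun i => ((v i).val : ℤ))
    (by simp only [natCast_zsmul, ← S.coe_comb, hv, ZeroMemClass.coe_zero]) i
  rw [← Nat.cast_pow, ← ZMod.intCast_zmod_eq_zero_iff_dvd, Int.cast_natCast,
    ZMod.natCast_zmod_val] at h
  exact h

variable (hΔ : W.Δ ≠ 0)

include hΔ in
theorem comb_bijective (n : ℕ) : Function.Bijective (S.comb n) := by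
  haveI := EllTorsion.isElliptic_map_rat hΔ
  haveI : Finite (QTorsion W (p ^ n)) :=
    EllTorsion.finite_torsionBy_rat (W.map (Int.castRingHom ℚ)) _ (pow_ne_zero n hp.out.ne_zero)
  refine (Nat.bijective_iff_injective_and_card _).mpr ⟨S.comb_injective n, ?_⟩
  rw [EllTorsion.natCard_torsionBy_rat (W.map (Int.castRingHom ℚ)) _
    (pow_ne_zero n hp.out.ne_zero), Nat.card_fun, Nat.card_zmod, Nat.card_fin]

/-- Coordinates on the `p ^ n`-torsion. -/
def coord (n : ℕ) : QTorsion W (p ^ n) ≃ₗ[ZMod (p ^ n)] (Fin 2 → ZMod (p ^ n)) :=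
  (LinearEquiv.ofBijective (S.comb n) (S.comb_bijective hΔ n)).symm

theorem coord_comb (n : ℕ) (v : Fin 2 → ZMod (p ^ n)) : S.coord hΔ n (S.comb n v) = v :=
  (LinearEquiv.ofBijective (S.comb n) (S.comb_bijective hΔ n)).symm_apply_apply v

theorem comb_coord (n : ℕ) (x : QTorsion W (p ^ n)) : S.comb n (S.coord hΔ n x) = x :=
  (LinearEquiv.ofBijective (S.comb n) (S.comb_bijective hΔ n)).apply_symm_apply x

theorem comb_single (n : ℕ) (j : Fin 2) : S.comb n (Pi.single j 1) = S.tp n j := by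
  rw [comb, Fintype.linearCombination_apply_single, one_smul]

theorem coord_tp (n : ℕ) (j : Fin 2) : S.coord hΔ n (S.tp n j) = Pi.single j 1 := by
  rw [← S.comb_single, coord_comb]

/-- Coordinates commute with multiplication by `p`. -/
theorem coord_of_eq_nsmul {n : ℕ} {x : QTorsion W (p ^ (n + 1))} {y : QTorsion W (p ^ n)}
    (h : (y : QPoint W) = p • (x : QPoint W)) (i : Fin 2) :
    S.coord hΔ n y i =
      ZMod.castHom (pow_dvd_pow p n.le_succ) (ZMod (p ^ n)) (S.coord hΔ (n + 1) x i) := by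
  set v := S.coord hΔ (n + 1) x with hv
  suffices hy : y = S.comb n fun i => ((v i).val : ZMod (p ^ n)) by
    rw [hy, coord_comb]
    conv_rhs => rw [← ZMod.natCast_zmod_val (v i), map_natCast]
  refine Subtype.ext ?_
  rw [h, S.coe_comb, ← S.comb_coord hΔ (n + 1) x, ← hv, S.coe_comb, Finset.smul_sum]
  refine Finset.sum_congr rfl fun j _ => ?_
  rw [ZMod.val_natCast, smul_comm, S.pt_succ]
  exact nsmul_eq_nsmul_of_modEq (S.pow_smul_pt_self n j) (Nat.mod_modEq _ _).symm

/-- The Galois matrices modulo `p ^ n`. -/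
def galMat (n : ℕ) : Γℚ →* Matrix (Fin 2) (Fin 2) (ZMod (p ^ n)) :=
  ((LinearMap.toMatrixAlgEquiv' (R := ZMod (p ^ n)) (n := Fin 2)).toMonoidHom.comp
    (LinearEquiv.conjAlgEquiv (ZMod (p ^ n)) (S.coord hΔ n)).toMonoidHom).comp
    (galoisRepModuleEnd (K := Qb) ℚ (W.map (Int.castRingHom ℚ)) (p ^ n))

theorem galMat_mulVec (n : ℕ) (σ : Γℚ) (x : QTorsion W (p ^ n)) :
    (S.galMat hΔ n σ).mulVec (S.coord hΔ n x) = S.coord hΔ n (σ • x) := by
  have h : Matrix.toLinAlgEquiv' (S.galMat hΔ n σ) =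
      LinearEquiv.conjAlgEquiv (ZMod (p ^ n)) (S.coord hΔ n)
        (galoisRepModuleEnd (K := Qb) ℚ (W.map (Int.castRingHom ℚ)) (p ^ n) σ) :=
    Matrix.toLinAlgEquiv'_toMatrixAlgEquiv' _
  have h2 := LinearMap.congr_fun h (S.coord hΔ n x)
  rw [Matrix.toLinAlgEquiv'_apply] at h2
  rw [h2]
  show S.coord hΔ n (galoisRepModuleEnd (K := Qb) ℚ (W.map (Int.castRingHom ℚ)) (p ^ n) σ
    ((S.coord hΔ n).symm (S.coord hΔ n x))) = _
  rw [LinearEquiv.symm_apply_apply]
  rfl

theorem galMat_apply (n : ℕ) (σ : Γℚ) (i j : Fin 2) :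
    S.galMat hΔ n σ i j = S.coord hΔ n (σ • S.tp n j) i := by
  rw [← S.galMat_mulVec, coord_tp, Matrix.mulVec_single_one]
  rfl

theorem galMat_compat (n : ℕ) (σ : Γℚ) (i j : Fin 2) :
    ZMod.castHom (pow_dvd_pow p n.le_succ) (ZMod (p ^ n)) (S.galMat hΔ (n + 1) σ i j) =
      S.galMat hΔ n σ i j := by
  rw [galMat_apply, galMat_apply]
  refine (S.coord_of_eq_nsmul hΔ (y := σ • S.tp n j) ?_ i).symm
  show σ • S.pt n j = p • σ • S.pt (n + 1) j
  rw [nsmul_smul_comm, S.pt_succ]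

/-- The `p`-adic Galois matrices. -/
def matFun (σ : Γℚ) : Matrix (Fin 2) (Fin 2) ℤ_[p] :=
  Matrix.of fun i j => (exists_padicInt_of_compat (fun n => S.galMat hΔ n σ i j)
    fun n => S.galMat_compat hΔ n σ i j).choose

theorem toZModPow_matFun (n : ℕ) (σ : Γℚ) :
    (PadicInt.toZModPow n).mapMatrix (S.matFun hΔ σ) = S.galMat hΔ n σ := by
  ext i j
  exact (exists_padicInt_of_compat (fun n => S.galMat hΔ n σ i j)
    fun n => S.galMat_compat hΔ n σ i j).choose_spec n

theorem padicMat_ext {A B : Matrix (Fin 2) (Fin 2) ℤ_[p]}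
    (h : ∀ n, (PadicInt.toZModPow n).mapMatrix A = (PadicInt.toZModPow n).mapMatrix B) : A = B := by
  ext i j
  exact PadicInt.ext_of_toZModPow.mp fun n => congrFun (congrFun (h n) i) j

/-- The `p`-adic representation in coordinates. -/
def mat : Γℚ →* Matrix (Fin 2) (Fin 2) ℤ_[p] where
  toFun := S.matFun hΔ
  map_one' := padicMat_ext fun n => by rw [toZModPow_matFun, map_one, map_one]
  map_mul' σ τ := padicMat_ext fun n => by
    rw [map_mul, toZModPow_matFun, toZModPow_matFun, toZModPow_matFun, map_mul]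

theorem toZModPow_mat (n : ℕ) (σ : Γℚ) :
    (PadicInt.toZModPow n).mapMatrix (S.mat hΔ σ) = S.galMat hΔ n σ :=
  S.toZModPow_matFun hΔ n σ

theorem galMat_ext {n : ℕ} {A B : Matrix (Fin 2) (Fin 2) (ZMod (p ^ n))}
    (h : ∀ x : QTorsion W (p ^ n), A.mulVec (S.coord hΔ n x) = B.mulVec (S.coord hΔ n x)) :
    A = B :=
  Matrix.toLin'.injective (LinearMap.ext fun v => by simpa [coord_comb] using h (S.comb n v))

theorem galMat_eq_one_iff (n : ℕ) (σ : Γℚ) :
    S.galMat hΔ n σ = 1 ↔ ∀ x : QTorsion W (p ^ n), σ • x = x := by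
  refine ⟨fun h x => (S.coord hΔ n).injective ?_, fun h => S.galMat_ext hΔ fun x => ?_⟩
  · rw [← S.galMat_mulVec, h, Matrix.one_mulVec]
  · rw [S.galMat_mulVec, h, Matrix.one_mulVec]

include hΔ in
theorem exists_level (n : ℕ) : ∃ L : IntermediateField ℚ Qb, FiniteDimensional ℚ L ∧
    ∀ σ : Γℚ, (∀ x ∈ L, σ x = x) → (PadicInt.toZModPow n).mapMatrix (S.mat hΔ σ) = 1 := by
  haveI := EllTorsion.isElliptic_map_rat hΔ
  obtain ⟨L, hL, h⟩ := EllTorsion.exists_finiteLevel_smul_eq (W.map (Int.castRingHom ℚ))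
    (p ^ n) (pow_ne_zero n hp.out.ne_zero)
  exact ⟨L, hL, fun σ hσ => (S.toZModPow_mat hΔ n σ).trans
    ((S.galMat_eq_one_iff hΔ n σ).mpr (h σ hσ))⟩

end TateSystem

end FLTAgent.ResidualSetup
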