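import Fermat.Agent.ResidualSetup.NodeGauss
import Fermat.Agent.MazurP.RamTorsion
import Fermat.Agent.MazurP.RamVal
import Fermat.Agent.ResidualSetup.Tate

/-!
# Torsion at a multiplicative place in node coordinates

`NodeData W A` packages coordinates in which `W` at the place `A` is a node curve.
`NodeData.e0` is the torsion on the identity component and `NodeData.kappa` the component map to
`ℤ/n`, on which the decomposition group acts by a sign (`kappa_smul`). For `p = 3, 5` both the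
identity component and the image of `kappa` have order `p ^ N` (`card_e0_and_range`), so
multiplication by `p` is surjective between identity components (`mulP_surjective`).
`exists_inertia_smul_ne`: inertia moves some `p`-power torsion.
-/

set_option autoImplicit false
set_option linter.style.haveILetI false
set_option linter.unusedSectionVars false

noncomputable section

open Polynomial WeierstrassCurve WeierstrassCurve.Affine.Point
open scoped WeierstrassCurve.Affine

namespace FLTAgent.ResidualSetup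

open EllP (QPoint QTorsion modelAt toModel)
open MazurP (nodeHom)

local notation "Qb" => AlgebraicClosure ℚ
local notation "Γℚ" => (AlgebraicClosure ℚ ≃ₐ[ℚ] AlgebraicClosure ℚ)

/-- Node coordinates of an integral model at a place. -/
structure NodeData (W : WeierstrassCurve ℤ) (A : ValuationSubring (AlgebraicClosure ℚ)) : Type where
  C : VariableChange (AlgebraicClosure ℚ)
  c : A
  eqn : C • EllLocal.genCurve A (modelAt A W) = EllLocal.genCurve A (EllLocal.nodeCurve c)
  res_c : IsLocalRing.residue A c = 0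
  c_ne : (c : AlgebraicClosure ℚ) ≠ 0
  val_c : A.valuation (c : AlgebraicClosure ℚ) = A.valuation (W.Δ : AlgebraicClosure ℚ)
  fix : ∀ σ ∈ A.inertiaSubgroupIn ℚ,
    C.map ((σ : AlgebraicClosure ℚ ≃ₐ[ℚ] AlgebraicClosure ℚ) :
        AlgebraicClosure ℚ →+* AlgebraicClosure ℚ) = C ∧
      σ (c : AlgebraicClosure ℚ) = c

theorem exists_nodeData {W : WeierstrassCurve ℤ} {A : ValuationSubring Qb} {l : ℕ} (hl : l.Prime)
    (hA : A.LiesOverPrime l) (hΔ : W.Δ ≠ 0) (hlΔ : (l : ℤ) ∣ W.Δ) (hlc : ¬ (l : ℤ) ∣ W.c₄) :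
    Nonempty (NodeData W A) := by
  obtain ⟨C, c, hC, h1, h2, h3, -, -, -, -, h8⟩ := EllP.node_data hl hA hΔ hlΔ hlc
  exact ⟨⟨C, c, hC, h1, h2, h3, h8⟩⟩

namespace NodeData

variable {W : WeierstrassCurve ℤ} {A : ValuationSubring (AlgebraicClosure ℚ)} (D : NodeData W A)

/-- The geometric points in node coordinates. -/
abbrev hom : QPoint W →+ (EllLocal.nodeGen D.c).Point := nodeHom D.eqn

theorem val_c_lt_one : A.valuation (D.c : Qb) < 1 := EllLocal.valuation_c_lt_one D.res_c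

theorem val_c_pos : 0 < A.valuation (D.c : Qb) :=
  zero_lt_iff.mpr ((Valuation.ne_zero_iff _).mpr D.c_ne)

theorem zpow_inj {k k' : ℤ} (h : A.valuation (D.c : Qb) ^ k = A.valuation (D.c : Qb) ^ k') :
    k = k' :=
  (zpow_right_strictAnti₀ D.val_c_pos D.val_c_lt_one).injective h

/-- The torsion on the identity component. -/
def e0 (n : ℕ) : AddSubgroup (QTorsion W n) where
  carrier := {x | D.hom (x : QPoint W) ∈ EllLocal.E0 A (EllLocal.nodeCurve D.c)}
  zero_mem' := by
    show D.hom ((0 : QTorsion W n) : QPoint W) ∈ EllLocal.E0 A (EllLocal.nodeCurve D.c)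
    rw [Submodule.coe_zero, _root_.map_zero]
    exact zero_mem _
  add_mem' {x y} hx hy := by
    show D.hom ((x + y : QTorsion W n) : QPoint W) ∈ EllLocal.E0 A (EllLocal.nodeCurve D.c)
    rw [Submodule.coe_add, map_add]
    exact add_mem hx hy
  neg_mem' {x} hx := by
    show D.hom ((-x : QTorsion W n) : QPoint W) ∈ EllLocal.E0 A (EllLocal.nodeCurve D.c)
    rw [NegMemClass.coe_neg, map_neg]
    exact neg_mem hx

theorem mem_e0_iff {n : ℕ} {x : QTorsion W n} :
    x ∈ D.e0 n ↔ D.hom (x : QPoint W) ∈ EllLocal.E0 A (EllLocal.nodeCurve D.c) := Iff.rfl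

section Kappa

variable {n : ℕ} (hn : Odd n)

theorem exists_comp_pow (x : QTorsion W n) :
    ∃ k : ℤ, EllLocal.comp (D.hom (x : QPoint W)) ^ n = A.valuation (D.c : Qb) ^ k := by
  obtain ⟨k, hk⟩ := EllLocal.comp_nsmul D.res_c D.c_ne (D.hom (x : QPoint W)) n
  rw [MazurP.nsmul_nodeHom, EllLocal.comp_of_mem_E0 D.res_c (zero_mem _), one_mul] at hk
  exact ⟨-k, by rw [zpow_neg, ← hk, inv_inv]⟩

/-- The component modulo `n`. -/
def kappaFun (x : QTorsion W n) : ZMod n := ((D.exists_comp_pow x).choose : ZMod n)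

theorem kappaFun_eq {x : QTorsion W n} {k : ℤ}
    (h : EllLocal.comp (D.hom (x : QPoint W)) ^ n = A.valuation (D.c : Qb) ^ k) :
    D.kappaFun x = (k : ZMod n) :=
  congrArg _ (D.zpow_inj ((D.exists_comp_pow x).choose_spec.symm.trans h))

/-- The component map on `n`-torsion. -/
def kappa (n : ℕ) : QTorsion W n →+ ZMod n :=
  AddMonoidHom.mk' D.kappaFun fun x y => by
    obtain ⟨j, hj⟩ := EllLocal.comp_add D.res_c D.c_ne (D.hom (x : QPoint W))
      (D.hom (y : QPoint W))
    obtain ⟨k, hk⟩ := D.exists_comp_pow x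
    obtain ⟨k', hk'⟩ := D.exists_comp_pow y
    have hne := EllLocal.comp_ne_zero D.c_ne
    have hadd : EllLocal.comp (D.hom ((x + y : QTorsion W n) : QPoint W)) =
        A.valuation (D.c : Qb) ^ j *
          (EllLocal.comp (D.hom (x : QPoint W)) * EllLocal.comp (D.hom (y : QPoint W))) := by
      rw [Submodule.coe_add, map_add, ← hj, mul_assoc, inv_mul_cancel₀
        (mul_ne_zero (hne _) (hne _)), mul_one]
    have h : EllLocal.comp (D.hom ((x + y : QTorsion W n) : QPoint W)) ^ n =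
        A.valuation (D.c : Qb) ^ ((n : ℤ) * j + (k + k')) := by
      rw [hadd, mul_pow, mul_pow, hk, hk', ← zpow_natCast, ← zpow_mul,
        ← zpow_add₀ D.val_c_pos.ne', ← zpow_add₀ D.val_c_pos.ne', mul_comm j]
    rw [D.kappaFun_eq h, D.kappaFun_eq hk, D.kappaFun_eq hk']
    push_cast
    rw [ZMod.natCast_self, zero_mul, zero_add]

theorem kappa_eq {x : QTorsion W n} {k : ℤ}
    (h : EllLocal.comp (D.hom (x : QPoint W)) ^ n = A.valuation (D.c : Qb) ^ k) :
    D.kappa n x = (k : ZMod n) :=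
  D.kappaFun_eq h

include hn in
/-- The kernel of the component map is the identity component. -/
theorem kappa_eq_zero_iff {x : QTorsion W n} : D.kappa n x = 0 ↔ x ∈ D.e0 n := by
  refine ⟨fun h => ?_, fun h => ?_⟩
  · by_contra hx
    obtain ⟨k, hk⟩ := D.exists_comp_pow x
    rw [D.kappa_eq hk, ZMod.intCast_zmod_eq_zero_iff_dvd] at h
    obtain ⟨m, rfl⟩ := h
    rcases hP : D.hom (x : QPoint W) with _ | ⟨a, b, hab⟩
    · exact hx (show D.hom (x : QPoint W) ∈ EllLocal.E0 A (EllLocal.nodeCurve D.c) by rw [hP]; exact zero_mem _)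
    have ha : A.valuation a < 1 :=
      (EllLocal.notMem_E0_some D.res_c hab).mp fun h => hx (D.mem_e0_iff.mpr (hP ▸ h))
    rw [hP, EllLocal.comp_some_of_lt hab ha, mul_comm, zpow_mul, zpow_natCast,
      pow_left_inj₀ zero_le zero_le (Nat.ne_of_gt hn.pos)] at hk
    exact EllLocal.gval_not_rel D.c_ne D.val_c_lt_one ha (EllLocal.nodeGen_equation hab.1) ⟨m, hk⟩
  · rw [D.kappa_eq (k := 0) (by rw [EllLocal.comp_of_mem_E0 D.res_c h, one_pow, zpow_zero]),
      Int.cast_zero]

include hn in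
/-- A point off the identity component in node coordinates. -/
theorem exists_some_of_notMem {x : QTorsion W n} (hx : x ∉ D.e0 n) :
    ∃ a b h, D.hom (x : QPoint W) = Affine.Point.some a b h ∧ A.valuation a < 1 ∧
      (EllLocal.comp (D.hom (x : QPoint W)) = A.valuation a ∨
        EllLocal.comp (D.hom (x : QPoint W)) = (A.valuation a)⁻¹) := by
  obtain ⟨a, b, h, he, ha, hkind, -⟩ := EllLocal.exists_zpow_of_torsion D.res_c D.c_ne hx hn
    (MazurP.nsmul_nodeHom D.eqn x)
  refine ⟨a, b, h, he, ha, ?_⟩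
  rw [he, EllLocal.comp_some_of_lt h ha]
  exact hkind.imp (·.gval_eq) (·.gval_eq)

include hn in
theorem inertia_sub_mem_e0 {σ : Γℚ} (hσ : σ ∈ A.inertiaSubgroupIn ℚ) (x : QTorsion W n) :
    σ • x - x ∈ D.e0 n := by
  show D.hom ((σ • x - x : QTorsion W n) : QPoint W) ∈ EllLocal.E0 A (EllLocal.nodeCurve D.c)
  rw [Submodule.coe_sub, map_sub]
  have hc := EllLocal.IsConjPoint.modelHom D.eqn (D.fix σ hσ).1
    (EllP.isConjPoint_toModel (A := A) σ (x : QPoint W))
  exact EllLocal.sub_mem_E0_node D.res_c D.c_ne (EllLocal.inertiaLike_of_mem hσ) (D.fix σ hσ).2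
    hc hn (MazurP.nsmul_nodeHom D.eqn x)

end Kappa

section Decomposition

theorem intCast_fixed (σ : Γℚ) (n : ℤ) : σ (n : Qb) = (n : Qb) := map_intCast σ n

/-- The node coordinates are defined over the decomposition field up to sign. -/
theorem map_r_u {σ : Γℚ} (hσ : σ ∈ A.decompositionSubgroup ℚ) :
    σ D.C.r = D.C.r ∧ σ (((D.C.u⁻¹ : Qbˣ) : Qb) ^ 2) = ((D.C.u⁻¹ : Qbˣ) : Qb) ^ 2 := by
  set E := EllLocal.genCurve A (modelAt A W) with hE
  set w := ((D.C.u⁻¹ : Qbˣ) : Qb) with hw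
  have ec4 : E.c₄ = (W.c₄ : Qb) := by
    rw [hE]; simp [EllP.modelAt, map_c₄]
  have ec6 : E.c₆ = (W.c₆ : Qb) := by
    rw [hE]; simp [EllP.modelAt, map_c₆]
  have eb2 : E.b₂ = (W.b₂ : Qb) := by
    rw [hE]; simp [EllP.modelAt, map_b₂]
  have h4 : w ^ 4 * (W.c₄ : Qb) = 1 := by
    rw [← ec4, hw, ← variableChange_c₄, D.eqn]
    simp [EllLocal.nodeCurve, c₄, b₂, b₄]
  have h6 : w ^ 6 * (W.c₆ : Qb) = -(1 + 864 * (D.c : Qb)) := by
    rw [← ec6, hw, ← variableChange_c₆, D.eqn]
    simp [EllLocal.nodeCurve_c₆, show ((864 : A) : Qb) = 864 from map_ofNat A.subtype 864]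
  have h2 : w ^ 2 * ((W.b₂ : Qb) + 12 * D.C.r) = 1 := by
    rw [← eb2, hw, ← variableChange_b₂, D.eqn]
    simp [EllLocal.nodeCurve, b₂]
  have hw0 : w ≠ 0 := Units.ne_zero _
  have s4 := congrArg σ h4
  have s6 := congrArg σ h6
  have s2 := congrArg σ h2
  simp only [map_mul, map_pow, map_add, map_neg, map_one, map_intCast, map_ofNat] at s4 s6 s2
  have hc4 : (W.c₄ : Qb) ≠ 0 := fun h => by simp [h] at h4
  have hsq : (σ w ^ 2) = w ^ 2 := by
    have h : (σ w ^ 2 - w ^ 2) * (σ w ^ 2 + w ^ 2) = 0 := by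
      refine (mul_eq_zero.mp ?_).resolve_left hc4
      linear_combination s4 - h4
    rcases mul_eq_zero.mp h with h | h
    · exact sub_eq_zero.mp h
    exfalso
    have hneg : σ w ^ 6 = -(w ^ 6) := by
      rw [pow_mul (σ w) 2 3, eq_neg_of_add_eq_zero_left h]; ring
    rw [hneg] at s6
    have hsum : (432 : Qb) * ((D.c : Qb) + σ (D.c : Qb)) = -1 := by
      linear_combination (h6 + s6) / 2
    have h432 : A.valuation (432 : Qb) ≤ 1 := by
      exact_mod_cast A.valuation_le_one ((432 : ℕ) : A)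
    have hlt : A.valuation ((432 : Qb) * ((D.c : Qb) + σ (D.c : Qb))) < 1 := by
      rw [map_mul]
      refine lt_of_le_of_lt (mul_le_of_le_one_left' h432) (A.valuation.map_add_lt D.val_c_lt_one ?_)
      rw [Mazur.Tame.valuation_map hσ]
      exact D.val_c_lt_one
    rw [hsum, Valuation.map_neg, _root_.map_one] at hlt
    exact lt_irrefl _ hlt
  refine ⟨?_, by rw [map_pow]; exact hsq⟩
  rw [hsq] at s2
  have h12 : (12 : Qb) * w ^ 2 ≠ 0 := mul_ne_zero (by norm_num) (pow_ne_zero 2 hw0)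
  exact mul_left_cancel₀ h12 (by linear_combination s2 - h2)

/-- An element of the decomposition group maps node abscissae to node abscissae. -/
theorem hom_smul {σ : Γℚ} (hσ : σ ∈ A.decompositionSubgroup ℚ) {P : QPoint W} {a b : Qb}
    {h : (EllLocal.nodeGen D.c).Nonsingular a b} (hP : D.hom P = Affine.Point.some a b h) :
    ∃ b' h', D.hom (σ • P) = Affine.Point.some (σ a) b' h' := by
  rcases P with _ | ⟨x, y, hxy⟩
  · exact absurd hP.symm (by rw [← Affine.Point.zero_def, _root_.map_zero]; exact some_ne_zero h)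
  obtain ⟨hxy', hσP⟩ := EllP.smul_some_qbar σ hxy
  have hcoord : ∀ {x y : Qb}
      (hxy : ((W.map (Int.castRingHom ℚ))⁄Qb).toAffine.Nonsingular x y),
      ∃ b₁ h₁, D.hom (Affine.Point.some x y hxy : QPoint W) =
        Affine.Point.some (EllLocal.vcX D.C x) b₁ h₁ := by
    intro x y hxy
    show ∃ b₁ h₁, EllLocal.modelHom D.C D.eqn (toModel A (Affine.Point.some x y hxy : QPoint W)) =
      Affine.Point.some (EllLocal.vcX D.C x) b₁ h₁
    rw [EllP.toModel_some, EllLocal.modelHom_some]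
    exact ⟨_, _, rfl⟩
  obtain ⟨b₁, h₁, e₁⟩ := hcoord hxy
  obtain ⟨b₂, h₂, e₂⟩ := hcoord hxy'
  rw [hP] at e₁
  simp only [Affine.Point.some.injEq] at e₁
  have ha : σ a = EllLocal.vcX D.C (σ x) := by
    rw [e₁.1, EllLocal.vcX, EllLocal.vcX, map_mul, map_sub, (D.map_r_u hσ).1, (D.map_r_u hσ).2]
  rw [← hσP] at e₂
  rw [ha]
  exact ⟨b₂, h₂, e₂⟩

variable {n : ℕ} (hn : Odd n)

include hn in
theorem smul_notMem_e0 {σ : Γℚ} (hσ : σ ∈ A.decompositionSubgroup ℚ) {x : QTorsion W n}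
    (hx : x ∉ D.e0 n) : σ • x ∉ D.e0 n := by
  obtain ⟨a, b, h, he, ha, -⟩ := D.exists_some_of_notMem hn hx
  obtain ⟨b', h', he'⟩ := D.hom_smul hσ he
  show ¬ D.hom (σ • (x : QPoint W)) ∈ EllLocal.E0 A (EllLocal.nodeCurve D.c)
  rw [he', EllLocal.notMem_E0_some D.res_c, Mazur.Tame.valuation_map hσ]
  exact ha

include hn in
theorem smul_mem_e0 {σ : Γℚ} (hσ : σ ∈ A.decompositionSubgroup ℚ) {x : QTorsion W n}
    (hx : x ∈ D.e0 n) : σ • x ∈ D.e0 n := by
  by_contra h
  have h2 := D.smul_notMem_e0 hn (inv_mem hσ) h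
  rw [inv_smul_smul] at h2
  exact h2 hx

include hn in
/-- The decomposition group acts on components by a sign. -/
theorem kappa_smul {σ : Γℚ} (hσ : σ ∈ A.decompositionSubgroup ℚ) (x : QTorsion W n) :
    D.kappa n (σ • x) = D.kappa n x ∨ D.kappa n (σ • x) = -D.kappa n x := by
  by_cases hx : x ∈ D.e0 n
  · left
    rw [(D.kappa_eq_zero_iff hn).mpr hx, (D.kappa_eq_zero_iff hn).mpr (D.smul_mem_e0 hn hσ hx)]
  obtain ⟨a, b, h, he, ha, hcomp⟩ := D.exists_some_of_notMem hn hx
  obtain ⟨b', h', he'⟩ := D.hom_smul hσ he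
  obtain ⟨a₂, b₂, h₂, he₂, -, hcomp₂⟩ :=
    D.exists_some_of_notMem hn (D.smul_notMem_e0 hn hσ hx)
  rw [show ((σ • x : QTorsion W n) : QPoint W) = σ • (x : QPoint W) from rfl] at he₂ hcomp₂
  have ha2 : A.valuation a₂ = A.valuation a := by
    rw [he'] at he₂
    simp only [Affine.Point.some.injEq] at he₂
    rw [← he₂.1, Mazur.Tame.valuation_map hσ]
  rw [ha2] at hcomp₂
  obtain ⟨k, hk⟩ := D.exists_comp_pow x
  have key : EllLocal.comp (D.hom (σ • (x : QPoint W))) = EllLocal.comp (D.hom (x : QPoint W)) ∨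
      EllLocal.comp (D.hom (σ • (x : QPoint W))) = (EllLocal.comp (D.hom (x : QPoint W)))⁻¹ := by
    rcases hcomp with e | e <;> rcases hcomp₂ with e' | e' <;> simp [e, e']
  rcases key with e | e
  · left
    rw [D.kappa_eq hk, D.kappa_eq (x := σ • x) (k := k)]
    exact (congrArg (· ^ n) e).trans hk
  · right
    rw [D.kappa_eq hk, D.kappa_eq (x := σ • x) (k := -k), Int.cast_neg]
    exact (congrArg (· ^ n) e).trans (by rw [inv_pow, hk, zpow_neg])

end Decomposition

section Card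

variable {p : ℕ} [hp : Fact p.Prime] (hp35 : p = 3 ∨ p = 5) (hΔ : W.Δ ≠ 0)

theorem odd_pow_of (hp35 : p = 3 ∨ p = 5) (N : ℕ) : Odd (p ^ N) :=
  Odd.pow (by rcases hp35 with rfl | rfl <;> decide)

include hp35 hΔ in
theorem exists_notMem_e0_one : ∃ x : QTorsion W (p ^ 1), x ∉ D.e0 (p ^ 1) := by
  haveI := MazurP.isElliptic_nodeGen D.eqn hΔ
  have hodd : Odd p := by rcases hp35 with rfl | rfl <;> decide
  obtain ⟨r, hr0, hr1⟩ := exists_root_valuation_lt_one D.res_c hp35
  obtain ⟨y, hy⟩ := EllTorsion.exists_nonsingular (W := EllLocal.nodeGen D.c) r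
  obtain ⟨P, hP⟩ := MazurP.exists_nodeHom_eq D.eqn hΔ hp.out.ne_zero
    ((EllTorsion.nsmul_some_eq_zero_iff_preΨ' hodd hy).mpr hr0)
  refine ⟨⟨P.1, by rw [pow_one]; exact P.2⟩, ?_⟩
  show ¬ D.hom (P : QPoint W) ∈ EllLocal.E0 A (EllLocal.nodeCurve D.c)
  rw [show D.hom (P : QPoint W) = _ from hP]
  exact (EllLocal.notMem_E0_some D.res_c hy).mpr hr1

/-- Multiplication by `p` between the identity components. -/
def mulP (N : ℕ) : D.e0 (p ^ (N + 1)) →+ D.e0 (p ^ N) :=
  AddMonoidHom.mk' (fun x => ⟨⟨p • ((x : QTorsion W (p ^ (N + 1))) : QPoint W),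
      mem_qTorsion_iff.mpr (by
        rw [← mul_smul, ← pow_succ]; exact torsion_nsmul_eq_zero (x : QTorsion W (p ^ (N + 1))))⟩,
    by
      show D.hom (p • ((x : QTorsion W (p ^ (N + 1))) : QPoint W)) ∈ EllLocal.E0 A (EllLocal.nodeCurve D.c)
      rw [map_nsmul]
      exact AddSubgroup.nsmul_mem _ (D.mem_e0_iff.mp x.2) p⟩)
    fun x y => Subtype.ext (Subtype.ext (by
      show p • ((x : QTorsion W (p ^ (N + 1))) + (y : QTorsion W (p ^ (N + 1))) : QTorsion W _).1 = _
      rw [Submodule.coe_add, nsmul_add]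
      rfl))

theorem coe_mulP {N : ℕ} (x : D.e0 (p ^ (N + 1))) :
    (((D.mulP N x : D.e0 (p ^ N)) : QTorsion W (p ^ N)) : QPoint W) =
      p • ((x : QTorsion W (p ^ (N + 1))) : QPoint W) := rfl

include hΔ in
theorem finite_qTorsion (N : ℕ) : Finite (QTorsion W (p ^ N)) := by
  haveI := EllTorsion.isElliptic_map_rat hΔ
  exact EllTorsion.finite_torsionBy_rat (W.map (Int.castRingHom ℚ)) _ (pow_ne_zero N hp.out.ne_zero)

include hΔ in
theorem card_qTorsion (N : ℕ) : Nat.card (QTorsion W (p ^ N)) = p ^ N * p ^ N := by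
  haveI := EllTorsion.isElliptic_map_rat hΔ
  rw [← sq]
  exact EllTorsion.natCard_torsionBy_rat (W.map (Int.castRingHom ℚ)) _
    (pow_ne_zero N hp.out.ne_zero)

include hp35 hΔ in
theorem card_e0_one_le : Nat.card (D.e0 (p ^ 1)) ≤ p := by
  haveI := finite_qTorsion (p := p) hΔ 1
  obtain ⟨x, hx⟩ := D.exists_notMem_e0_one (p := p) hp35 hΔ
  have hd : Nat.card (D.e0 (p ^ 1)) ∣ p ^ 2 := by
    rw [show p ^ 2 = Nat.card (QTorsion W (p ^ 1)) by rw [card_qTorsion hΔ, pow_one, sq]]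
    exact AddSubgroup.card_addSubgroup_dvd_card _
  obtain ⟨i, hi, he⟩ := (Nat.dvd_prime_pow hp.out).mp hd
  rw [he]
  rcases Nat.lt_or_ge i 2 with h | h
  · exact (Nat.pow_le_pow_right hp.out.pos (Nat.lt_succ_iff.mp h)).trans (pow_one p).le
  · refine absurd ?_ hx
    rw [AddSubgroup.eq_top_of_card_eq (D.e0 (p ^ 1))
      (by rw [he, card_qTorsion hΔ, pow_one, ← sq, show i = 2 by omega])]
    exact AddSubgroup.mem_top _

include hp35 hΔ in
theorem card_ker_mulP_le (N : ℕ) : Nat.card (D.mulP (p := p) N).ker ≤ p := by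
  haveI := finite_qTorsion (p := p) hΔ 1
  refine le_trans (Nat.card_le_card_of_injective (fun x => (⟨⟨((x.1 : D.e0 (p ^ (N + 1))) :
    QTorsion W (p ^ (N + 1))).1, mem_qTorsion_iff.mpr ?_⟩, ?_⟩ : D.e0 (p ^ 1))) ?_)
    (D.card_e0_one_le hp35 hΔ)
  · rw [pow_one]
    exact congrArg (fun z : D.e0 (p ^ N) => ((z : QTorsion W (p ^ N)) : QPoint W)) x.2
  · exact x.1.2
  · intro x y h
    exact Subtype.ext (Subtype.ext (Subtype.ext
      (congrArg (fun z : D.e0 (p ^ 1) => ((z : QTorsion W (p ^ 1)) : QPoint W)) h :)))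

include hp35 hΔ in
theorem card_e0_le : ∀ N, Nat.card (D.e0 (p ^ N)) ≤ p ^ N := by
  intro N
  induction N with
  | zero =>
    haveI : Subsingleton (QTorsion W (p ^ 0)) := ⟨fun x y => Subtype.ext (by
      have h : ∀ z : QTorsion W (p ^ 0), (z : QPoint W) = 0 := fun z =>
        (one_nsmul _).symm.trans ((congrArg (fun k => k • (z : QPoint W)) (pow_zero p).symm).trans
          (torsion_nsmul_eq_zero z))
      rw [h x, h y])⟩
    rw [Nat.card_of_subsingleton (0 : D.e0 (p ^ 0)), pow_zero]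
  | succ N ih =>
    haveI := finite_qTorsion (p := p) hΔ (N + 1)
    haveI := finite_qTorsion (p := p) hΔ N
    rw [AddSubgroup.card_eq_card_quotient_mul_card_addSubgroup (D.mulP (p := p) N).ker,
      Nat.card_congr (QuotientAddGroup.quotientKerEquivRange (D.mulP (p := p) N)).toEquiv]
    exact (Nat.mul_le_mul (((D.mulP (p := p) N).range.card_le_card_addGroup).trans ih)
      (D.card_ker_mulP_le hp35 hΔ N)).trans (pow_succ p N).ge

include hp35 hΔ in
theorem card_e0_and_range (N : ℕ) :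
    Nat.card (D.e0 (p ^ N)) = p ^ N ∧ Nat.card (D.kappa (p ^ N)).range = p ^ N := by
  haveI := finite_qTorsion (p := p) hΔ N
  haveI : NeZero (p ^ N) := ⟨pow_ne_zero N hp.out.ne_zero⟩
  have hker : (D.kappa (p ^ N)).ker = D.e0 (p ^ N) :=
    AddSubgroup.ext fun x => D.kappa_eq_zero_iff (odd_pow_of hp35 N)
  have h : Nat.card (D.kappa (p ^ N)).range * Nat.card (D.e0 (p ^ N)) = p ^ N * p ^ N := by
    rw [← card_qTorsion hΔ N, AddSubgroup.card_eq_card_quotient_mul_card_addSubgroup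
      (D.kappa (p ^ N)).ker,
      Nat.card_congr (QuotientAddGroup.quotientKerEquivRange (D.kappa (p ^ N))).toEquiv, hker]
  have h1 : Nat.card (D.kappa (p ^ N)).range ≤ p ^ N :=
    (AddSubgroup.card_le_card_addGroup _).trans (Nat.card_zmod _).le
  have h2 := D.card_e0_le hp35 hΔ N
  have hpos : 0 < p ^ N := pow_pos hp.out.pos N
  constructor <;> nlinarith

include hp35 hΔ in
theorem kappa_surjective (N : ℕ) : Function.Surjective (D.kappa (p ^ N)) := by
  haveI : NeZero (p ^ N) := ⟨pow_ne_zero N hp.out.ne_zero⟩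
  rw [← AddMonoidHom.range_eq_top]
  exact AddSubgroup.eq_top_of_card_eq _
    ((D.card_e0_and_range hp35 hΔ N).2.trans (Nat.card_zmod _).symm)

include hp35 hΔ in
theorem mulP_surjective (N : ℕ) : Function.Surjective (D.mulP (p := p) N) := by
  haveI := finite_qTorsion (p := p) hΔ (N + 1)
  haveI := finite_qTorsion (p := p) hΔ N
  rw [← AddMonoidHom.range_eq_top]
  refine AddSubgroup.eq_top_of_card_eq _ (le_antisymm (AddSubgroup.card_le_card_addGroup _) ?_)
  have h := AddSubgroup.card_eq_card_quotient_mul_card_addSubgroup (D.mulP (p := p) N).ker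
  rw [Nat.card_congr (QuotientAddGroup.quotientKerEquivRange (D.mulP (p := p) N)).toEquiv,
    (D.card_e0_and_range hp35 hΔ (N + 1)).1] at h
  replace h := (pow_succ p N).symm.trans h
  rw [(D.card_e0_and_range hp35 hΔ N).1]
  exact Nat.le_of_mul_le_mul_right
    (h.le.trans (Nat.mul_le_mul_left _ (D.card_ker_mulP_le hp35 hΔ N))) hp.out.pos

end Card

include D in
/-- Some inertia element moves the `p`-power torsion at a multiplicative place. -/
theorem exists_inertia_smul_ne {p : ℕ} [hp : Fact p.Prime] (hp35 : p = 3 ∨ p = 5) (hΔ : W.Δ ≠ 0)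
    {l : ℕ} (hl : l.Prime) (hA : A.LiesOverPrime l) (hlΔ : (l : ℤ) ∣ W.Δ) :
    ∃ σ ∈ A.inertiaSubgroupIn ℚ, ∃ (N : ℕ) (x : QTorsion W (p ^ N)), σ • x ≠ x := by
  by_contra hcon
  push Not at hcon
  obtain ⟨e, he⟩ := EllP.exists_valuation_intCast hl hA hΔ
  have hl0 : A.valuation (l : Qb) ≠ 0 :=
    (Valuation.ne_zero_iff _).mpr (Nat.cast_ne_zero.mpr hl.ne_zero)
  have he0 : e ≠ 0 := by
    rintro rfl
    rw [pow_zero, ← D.val_c] at he
    exact D.val_c_lt_one.ne he
  obtain ⟨N, hN1, hN⟩ : ∃ N, 1 ≤ N ∧ e < p ^ N :=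
    ⟨e + 1, by omega, (Nat.lt_succ_self e).trans (Nat.lt_pow_self hp.out.one_lt)⟩
  haveI : Fact (1 < p ^ N) := ⟨Nat.one_lt_pow (by omega) hp.out.one_lt⟩
  have hodd := odd_pow_of hp35 N
  obtain ⟨x, hx⟩ := D.kappa_surjective hp35 hΔ N 1
  have hxe : x ∉ D.e0 (p ^ N) := fun h => one_ne_zero (α := ZMod (p ^ N))
    (hx.symm.trans ((D.kappa_eq_zero_iff hodd).mpr h))
  obtain ⟨a, b, h, hh, ha, hcomp⟩ := D.exists_some_of_notMem hodd hxe
  obtain ⟨k, hk⟩ := D.exists_comp_pow x
  have ha0 : a ≠ 0 := by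
    rintro rfl
    refine EllLocal.comp_ne_zero D.c_ne (D.hom (x : QPoint W)) ?_
    rcases hcomp with e' | e' <;> simpa using e'
  obtain ⟨m, hm⟩ := EllP.exists_valuation_eq_zpow hl hA ha0 fun σ hσ => by
    obtain ⟨h', hh'⟩ := MazurP.nodeHom_smul D.eqn (D.fix σ hσ).1 hh
    rw [show σ • (x : QPoint W) = (x : QPoint W) from congrArg Subtype.val (hcon σ hσ N x)] at hh'
    rw [show MazurP.nodeHom D.eqn (x : QPoint W) = _ from hh] at hh'
    simp only [Affine.Point.some.injEq] at hh'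
    exact hh'.1.symm
  obtain ⟨m', hm'⟩ : ∃ m' : ℤ,
      EllLocal.comp (D.hom (x : QPoint W)) = A.valuation (l : Qb) ^ m' := by
    rcases hcomp with e' | e'
    · exact ⟨m, e'.trans hm⟩
    · exact ⟨-m, by rw [e', hm, zpow_neg]⟩
  have hk1 : (k : ZMod (p ^ N)) = 1 := (D.kappa_eq hk).symm.trans hx
  rw [hm', D.val_c, he, ← zpow_natCast, ← zpow_natCast (A.valuation (l : Qb)) e, ← zpow_mul,
    ← zpow_mul] at hk
  have hinj := (zpow_right_strictAnti₀ (pos_of_ne_zero hl0)
    (hA : A.valuation (l : Qb) < 1)).injective hk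
  have h0 : ((e : ℤ) : ZMod (p ^ N)) = 0 := by
    have := congrArg (fun z : ℤ => (z : ZMod (p ^ N))) hinj
    simp only [Int.cast_mul, Int.cast_natCast, ZMod.natCast_self, mul_zero, hk1, mul_one] at this
    rw [Int.cast_natCast, ← this]
  rw [Int.cast_natCast, ZMod.natCast_eq_zero_iff] at h0
  exact absurd (Nat.le_of_dvd (Nat.pos_of_ne_zero he0) h0) (by omega)

end NodeData

end FLTAgent.ResidualSetup
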