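import Fermat.Agent.MazurP.RamNode

/-!
# A torsion abscissa reducing to the node

`exists_root_valuation_lt_one`: for `n = 3` or `5` the division polynomial of a node curve has a
root of valuation `< 1`, in every residue characteristic. Otherwise the Gauss estimate on the
coefficients of a product of linear factors contradicts the reduced polynomial.
-/

set_option autoImplicit false
set_option linter.style.haveILetI false

noncomputable section

open Polynomial WeierstrassCurve

namespace FLTAgent.ResidualSetup

variable {K : Type*} [Field K] {A : ValuationSubring K}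

/-- The coefficients of `∏ (X - r)` are at most `∏ max 1 |r|`. -/
theorem valuation_coeff_prod_le (s : Multiset K) :
    ∀ i, A.valuation ((s.map fun r => X - C r).prod.coeff i) ≤
      (s.map fun r => max 1 (A.valuation r)).prod := by
  induction s using Multiset.induction with
  | empty =>
    intro i
    rcases i with _ | i <;> simp [coeff_one]
  | cons r s ih =>
    intro i
    simp only [Multiset.map_cons, Multiset.prod_cons]
    rw [sub_mul, coeff_sub, coeff_C_mul]
    refine A.valuation.map_sub_le ?_ ?_
    · rcases i with _ | i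
      · rw [coeff_X_mul_zero, map_zero]; exact zero_le
      · rw [coeff_X_mul]
        exact (ih i).trans (le_mul_of_one_le_left' (le_max_left _ _))
    · rw [map_mul]
      exact mul_le_mul' (le_max_right _ _) (ih i)

theorem preΨ'_nodeZero_three (R : Type*) [CommRing R] :
    ((EllLocal.nodeCurve (0 : R)).preΨ' 3).coeff 3 = 1 := by
  simp [preΨ'_three, Ψ₃, EllLocal.nodeCurve, b₂, b₄, b₆, b₈]

theorem preΨ'_nodeZero_five (R : Type*) [CommRing R] :
    ((EllLocal.nodeCurve (0 : R)).preΨ' 5).coeff 10 = 1 := by
  have h : (EllLocal.nodeCurve (0 : R)).preΨ' 5 =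
      C (5 : R) * X ^ 12 + C (5 : R) * X ^ 11 + X ^ 10 := by
    rw [show 5 = 2 * (0 + 2) + 1 by rfl, preΨ'_odd, if_pos Even.zero, if_pos Even.zero]
    simp only [zero_add]
    simp only [preΨ'_one, preΨ'_two, preΨ'_three, preΨ'_four, Ψ₃, preΨ₄, Ψ₂Sq,
      EllLocal.nodeCurve, b₂, b₄, b₆, b₈]
    simp only [map_ofNat, map_zero, map_one, mul_zero, zero_mul, zero_pow, ne_eq,
      OfNat.ofNat_ne_zero, not_false_eq_true, sub_zero, add_zero, one_mul, mul_one, one_pow]
    ring
  rw [h]
  simp [coeff_X_pow]

/-- A three- or five-torsion abscissa of a node curve reduces to the node. -/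
theorem exists_root_valuation_lt_one [IsAlgClosed K] [CharZero K] {c : A}
    (hc : IsLocalRing.residue A c = 0) {n : ℕ} (hn : n = 3 ∨ n = 5) :
    ∃ r : K, ((EllLocal.nodeGen c).preΨ' n).eval r = 0 ∧ A.valuation r < 1 := by
  classical
  set f := (EllLocal.nodeCurve c).preΨ' n with hf
  set g := (EllLocal.nodeGen c).preΨ' n with hgdef
  have hodd : Odd n := by rcases hn with rfl | rfl <;> decide
  have hg : g = f.map A.subtype := map_preΨ' _ _ n
  have hnK : (n : K) ≠ 0 := Nat.cast_ne_zero.mpr (by omega)
  have hlead : g.leadingCoeff = (n : K) := by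
    rw [hgdef, leadingCoeff_preΨ' _ hnK, if_neg (Nat.not_even_iff_odd.mpr hodd)]
  have hg0 : g ≠ 0 := fun h => hnK (by rw [← hlead, h, leadingCoeff_zero])
  obtain ⟨i, hi⟩ : ∃ i, A.valuation (g.coeff i) = 1 := by
    obtain ⟨i, hi⟩ : ∃ i,
        ((EllLocal.nodeCurve (0 : IsLocalRing.ResidueField A)).preΨ' n).coeff i = 1 := by
      rcases hn with rfl | rfl
      · exact ⟨3, preΨ'_nodeZero_three _⟩
      · exact ⟨10, preΨ'_nodeZero_five _⟩
    refine ⟨i, ?_⟩
    rw [hg, coeff_map]
    refine (A.valuation_eq_one_iff _).mp (EllLocal.isUnit_of_residue_ne_zero A ?_)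
    rw [← coeff_map, hf, ← map_preΨ', EllLocal.map_nodeCurve, hc, hi]
    exact one_ne_zero
  have hf0 : A.valuation (g.eval 0) < 1 := by
    rw [hg, show (0 : K) = A.subtype 0 from (map_zero _).symm, eval_map_apply]
    refine EllLocal.valuation_lt_of_residue_eq_zero A ?_
    have h := eval_map_apply (f := IsLocalRing.residue A) (p := f) (x := 0)
    rw [map_zero, hf, ← map_preΨ', EllLocal.map_nodeCurve, hc,
      Local.Curve.preΨ'_nodeZero_eval n (by omega)] at h
    exact h.symm
  by_contra hcon
  push Not at hcon
  have hsplit := (IsAlgClosed.splits g).eq_prod_roots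
  rw [hlead] at hsplit
  have hmax : (g.roots.map fun r => max 1 (A.valuation r)).prod =
      A.valuation ((g.roots.map fun r => 0 - r).prod) := by
    rw [map_multiset_prod, Multiset.map_map]
    refine congrArg Multiset.prod (Multiset.map_congr rfl fun r hr => ?_)
    simp only [Function.comp_apply, zero_sub, Valuation.map_neg]
    exact max_eq_right (hcon r ((mem_roots hg0).mp hr))
  have hev : g.eval 0 = (n : K) * (g.roots.map fun r => 0 - r).prod := by
    conv_lhs => rw [hsplit]
    rw [eval_mul, eval_C, eval_multiset_prod, Multiset.map_map]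
    simp
  have hco : A.valuation (g.coeff i) ≤ A.valuation (g.eval 0) := by
    conv_lhs => rw [hsplit]
    rw [coeff_C_mul, map_mul, hev, map_mul, ← hmax]
    exact mul_le_mul_right (valuation_coeff_prod_le _ i) _
  rw [hi] at hco
  exact hf0.not_ge hco

end FLTAgent.ResidualSetup
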