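import Mathlib

/-!
# An index two subgroup with a stable line

Elementary facts about an irreducible plane representation in which a subgroup of index two
stabilises a line: the elements outside exchange two fixed lines (`exists_pair`) and have trace
zero (`trace_eq_zero`), elements of `p`-power order act trivially (`eq_one_of_pow_eq_one`), and
what commutes with an outside element is scalar (`eq_smul_one_of_commute`).
-/

set_option autoImplicit false

namespace FLTAgent.ResidualSetup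

variable {Γ : Type*} [Group Γ] {K : Type*} [Field K] {U : Type*} [AddCommGroup U] [Module K U]

/-- Two independent vectors determine a linear map of a plane. -/
theorem end_eq_of_pair (hdim : Module.finrank K U = 2) {v w : U} (h : LinearIndependent K ![v, w])
    {f g : Module.End K U} (hv : f v = g v) (hw : f w = g w) : f = g := by
  refine (basisOfLinearIndependentOfCardEqFinrank h (by simp [hdim])).ext fun i => ?_
  fin_cases i <;> simpa [coe_basisOfLinearIndependentOfCardEqFinrank]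

variable {R : Γ →* Module.End K U} (hdim : Module.finrank K U = 2)
  (hirr : ∀ L : Submodule K U, (∀ σ, ∀ x ∈ L, R σ x ∈ L) → L = ⊥ ∨ L = ⊤)
  {G : Subgroup Γ} (hG : G.index = 2) {V : Submodule K U} (hV : ∀ σ ∈ G, ∀ x ∈ V, R σ x ∈ V)
  (hV0 : V ≠ ⊥) (hV1 : V ≠ ⊤)

include hirr hV hV0 hV1 in
theorem exists_notMem_not_stable : ∃ τ, τ ∉ G ∧ ∃ x ∈ V, R τ x ∉ V := by
  by_contra h
  push Not at h
  refine (hirr V fun σ x hx => ?_).elim hV0 hV1
  by_cases hσ : σ ∈ G
  · exact hV σ hσ x hx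
  · exact h σ hσ x hx

include hirr hG hV hV0 hV1 in
theorem mem_of_eq_one {σ : Γ} (hσ : R σ = 1) : σ ∈ G := by
  by_contra hσG
  obtain ⟨τ, hτ, x, hx, hne⟩ := exists_notMem_not_stable hirr hV hV0 hV1
  have hmem : τ * σ ∈ G := by
    rw [Subgroup.mul_mem_iff_of_index_two hG]
    exact iff_of_false hτ hσG
  have := hV _ hmem x hx
  rw [map_mul, hσ, mul_one] at this
  exact hne this

include hdim hV0 hV1 in
theorem exists_span : ∃ v ∈ V, v ≠ 0 ∧ ∀ x ∈ V, ∃ a : K, x = a • v := by
  have : Module.Finite K U := Module.finite_of_finrank_eq_succ hdim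
  obtain ⟨v, hv, hv0⟩ := Submodule.exists_mem_ne_zero_of_ne_bot hV0
  have h1 : Module.finrank K V = 1 := by
    have hlt : Module.finrank K V < Module.finrank K U := Submodule.finrank_lt hV1
    have hne : Module.finrank K V ≠ 0 := fun h => hV0 (Submodule.finrank_eq_zero.mp h)
    omega
  refine ⟨v, hv, hv0, fun x hx => ?_⟩
  obtain ⟨a, ha⟩ := exists_smul_eq_of_finrank_eq_one h1 (x := (⟨v, hv⟩ : V))
    (fun h => hv0 (congrArg Subtype.val h)) ⟨x, hx⟩
  exact ⟨a, (congrArg Subtype.val ha).symm⟩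

include hdim hirr hG hV hV0 hV1 in
/-- Elements outside `G` exchange two lines fixed by `G`. -/
theorem exists_pair {τ : Γ} (hτ : τ ∉ G) :
    ∃ v : U, v ≠ 0 ∧ LinearIndependent K ![v, R τ v] ∧ (∃ e : K, R τ (R τ v) = e • v) ∧
      ∀ g ∈ G, ∃ a a' : K, R g v = a • v ∧ R g (R τ v) = a' • R τ v := by
  obtain ⟨v, hv, hv0, hsp⟩ := exists_span hdim hV0 hV1
  refine ⟨v, hv0, ?_, ?_, fun g hg => ?_⟩
  · rw [LinearIndependent.pair_iff' hv0]
    intro a ha
    obtain ⟨τ₀, hτ₀, x, hx, hne⟩ := exists_notMem_not_stable hirr hV hV0 hV1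
    obtain ⟨b, rfl⟩ := hsp x hx
    apply hne
    have hmem : τ₀ * τ⁻¹ ∈ G := by
      rw [Subgroup.mul_mem_iff_of_index_two hG, inv_mem_iff]
      exact iff_of_false hτ₀ hτ
    have h := hV _ hmem (R τ v) (ha ▸ V.smul_mem a hv)
    rw [← Module.End.mul_apply, ← map_mul, inv_mul_cancel_right] at h
    rw [map_smul]
    exact V.smul_mem b h
  · refine hsp _ ?_
    rw [← Module.End.mul_apply, ← map_mul]
    exact hV _ (Subgroup.mul_self_mem_of_index_two hG τ) v hv
  · have := Subgroup.normal_of_index_eq_two hG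
    obtain ⟨a, ha⟩ := hsp _ (hV g hg v hv)
    obtain ⟨a', ha'⟩ := hsp _ (hV _ (Subgroup.Normal.conj_mem' ‹_› g hg τ) v hv)
    refine ⟨a, a', ha, ?_⟩
    have h : R g (R τ v) = R τ (R (τ⁻¹ * g * τ) v) := by
      rw [← Module.End.mul_apply, ← Module.End.mul_apply, ← map_mul, ← map_mul]
      congr 2
      group
    rw [h, ha', map_smul]

include hdim hirr hG hV hV0 hV1 in
theorem trace_eq_zero {τ : Γ} (hτ : τ ∉ G) : LinearMap.trace K U (R τ) = 0 := by
  obtain ⟨v, -, hli, ⟨e, he⟩, -⟩ := exists_pair hdim hirr hG hV hV0 hV1 hτ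
  set b := basisOfLinearIndependentOfCardEqFinrank hli (by simp [hdim]) with hb
  have h0 : b 0 = v := by simp [hb]
  have h1 : b 1 = R τ v := by simp [hb]
  have e0 : R τ (b 0) = b 1 := by rw [h0, h1]
  have e1 : R τ (b 1) = e • b 0 := by rw [h0, h1, he]
  rw [LinearMap.trace_eq_matrix_trace K b, Matrix.trace_fin_two, LinearMap.toMatrix_apply,
    LinearMap.toMatrix_apply, e0, e1]
  simp

include hdim hirr hG hV hV0 hV1 in
theorem eq_smul_one_of_commute {τ h : Γ} (hτ : τ ∉ G) (hh : h ∈ G)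
    (hc : R h * R τ = R τ * R h) : ∃ a : K, R h = a • 1 := by
  obtain ⟨v, -, hli, -, hdiag⟩ := exists_pair hdim hirr hG hV hV0 hV1 hτ
  obtain ⟨a, -, ha, -⟩ := hdiag h hh
  refine ⟨a, end_eq_of_pair hdim hli ?_ ?_⟩
  · rw [ha]; rfl
  · rw [← Module.End.mul_apply, hc, Module.End.mul_apply, ha, map_smul]; rfl

include hdim hirr hG hV hV0 hV1 in
/-- Elements of `p`-power order of the image are trivial. -/
theorem eq_one_of_pow_eq_one {p : ℕ} [Fact p.Prime] [CharP K p] (hp2 : p ≠ 2) {σ : Γ} {k : ℕ}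
    (hσ : R σ ^ p ^ k = 1) : R σ = 1 := by
  have hp : p.Prime := Fact.out
  have hσG : σ ∈ G := by
    have h := mem_of_eq_one hirr hG hV hV0 hV1 (σ := σ ^ p ^ k) (by rw [map_pow, hσ])
    obtain ⟨m, hm⟩ := (hp.odd_of_ne_two hp2).pow (n := k)
    rw [hm, pow_succ, pow_mul] at h
    exact (Subgroup.mul_mem_cancel_left _ (pow_mem (Subgroup.sq_mem_of_index_two hG σ) m)).mp h
  obtain ⟨τ, hτ, -⟩ := exists_notMem_not_stable hirr hV hV0 hV1
  obtain ⟨v, hv0, hli, -, hdiag⟩ := exists_pair hdim hirr hG hV hV0 hV1 hτ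
  obtain ⟨a, a', ha, ha'⟩ := hdiag σ hσG
  have key : ∀ {x : U} {c : K}, x ≠ 0 → R σ x = c • x → c = 1 := by
    intro x c hx hc
    have hn : ∀ n : ℕ, (R σ ^ n) x = c ^ n • x := by
      intro n
      induction n with
      | zero => simp
      | succ n ih => rw [pow_succ, Module.End.mul_apply, hc, map_smul, ih, smul_smul, pow_succ']
    have h := hn (p ^ k)
    rw [hσ, Module.End.one_apply] at h
    have h1 : c ^ p ^ k = 1 := by
      rw [← sub_eq_zero]
      refine (smul_eq_zero.mp ?_).resolve_right hx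
      rw [sub_smul, ← h, one_smul, sub_self]
    have h2 : (c - 1) ^ p ^ k = 0 := by rw [sub_pow_char_pow, h1, one_pow, sub_self]
    exact sub_eq_zero.mp (pow_eq_zero_iff (pow_ne_zero k hp.ne_zero) |>.mp h2)
  refine end_eq_of_pair hdim hli ?_ ?_
  · rw [ha, key hv0 ha, one_smul]; rfl
  · rw [ha', key (hli.ne_zero 1) ha', one_smul]; rfl

end FLTAgent.ResidualSetup
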