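import Fermat.Agent.ResidualSetup.Tate
import Fermat.Agent.ResidualSetup.Residual
import Fermat.Agent.Reps.Eigen
import Fermat.Agent.EllFrob.Interface

/-!
# The Tate representation over a coefficient ring

`tateRep` is the representation on `O ^ 2` obtained from `TateSystem.mat` along `ℤ_p → O`.
Its reduction is `E[p]` (`isModRep_residual`) and Frobenius at a good `ℓ ≠ p` satisfies
`X ^ 2 - a_ℓ X + ℓ` (`tateRep_frob_rel`).
-/

set_option autoImplicit false
set_option linter.style.haveILetI false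
set_option linter.unusedSectionVars false

noncomputable section

open WeierstrassCurve WeierstrassCurve.Affine.Point
open scoped WeierstrassCurve.Affine TensorProduct
open IsLocalRing (ResidueField maximalIdeal)
open Polynomial (X C)

namespace FLTAgent.ResidualSetup

open FLTAgent.MazurP
open Reps (padicHom cyc)

local notation "Qb" => AlgebraicClosure ℚ
local notation "Γℚ" => (AlgebraicClosure ℚ ≃ₐ[ℚ] AlgebraicClosure ℚ)

variable {W : WeierstrassCurve ℤ} {p : ℕ} [Fact p.Prime] {O : Type} [CommRing O] [IsLocalRing O]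
  [IsAdicComplete (maximalIdeal O) O] (S : TateSystem W p) (hΔ : W.Δ ≠ 0)
  (hpO : (p : O) ∈ maximalIdeal O)

theorem mem_smul_top_fin {I : Ideal O} {v : Fin 2 → O} (h : ∀ i, v i ∈ I) :
    v ∈ I • (⊤ : Submodule O (Fin 2 → O)) := by
  rw [pi_eq_sum_univ' v]
  exact sum_mem fun i _ => Submodule.smul_mem_smul (h i) Submodule.mem_top

/-- The representation on `O ^ 2`. -/
def tateRep : GaloisRepAdic O where
  V := Fin 2 → O
  finrank_eq := Module.finrank_fin_fun O
  ρ := ((Matrix.toLinAlgEquiv' (R := O) (n := Fin 2)).toMonoidHom.comp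
    ((padicHom (maximalIdeal O) hpO).mapMatrix.toMonoidHom)).comp (S.mat hΔ)
  isAdicContinuous := fun n => by
    obtain ⟨L, hL, h⟩ := S.exists_level hΔ n
    refine ⟨L, hL, fun σ hσ v => mem_smul_top_fin fun i => ?_⟩
    have hm : ∀ k l, Ideal.Quotient.mk (maximalIdeal O ^ n)
        ((padicHom (maximalIdeal O) hpO).mapMatrix (S.mat hΔ σ) k l) =
          Ideal.Quotient.mk _ ((1 : Matrix (Fin 2) (Fin 2) O) k l) := by
      intro k l
      rw [RingHom.mapMatrix_apply, Matrix.map_apply, Reps.mk_padicHom]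
      have := congrFun (congrFun (h σ hσ) k) l
      simp only [RingHom.mapMatrix_apply, Matrix.map_apply] at this
      rw [this]
      by_cases hkl : k = l <;> simp [Matrix.one_apply, hkl]
    rw [← Ideal.Quotient.eq_zero_iff_mem]
    show Ideal.Quotient.mk _ ((Matrix.mulVec
      ((padicHom (maximalIdeal O) hpO).mapMatrix (S.mat hΔ σ)) v - v) i) = 0
    rw [Pi.sub_apply, map_sub, Matrix.mulVec, dotProduct, map_sum]
    simp_rw [map_mul, hm, ← map_mul, ← map_sum]
    rw [show ∑ l, (1 : Matrix (Fin 2) (Fin 2) O) i l * v l = v i from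
      congrFun (Matrix.one_mulVec v) i, sub_self]

/-- The standard basis. -/
def tateBasis : Module.Basis (Fin 2) O (tateRep S hΔ hpO).V := Pi.basisFun O (Fin 2)

theorem toMatrix_tateRep (σ : Γℚ) :
    LinearMap.toMatrix (tateBasis S hΔ hpO) (tateBasis S hΔ hpO)
      ((tateRep S hΔ hpO).ρ σ) = (padicHom (maximalIdeal O) hpO).mapMatrix (S.mat hΔ σ) := by
  refine Eq.trans ?_ (LinearMap.toMatrix'_toLin' _)
  exact congrFun (congrArg DFunLike.coe LinearMap.toMatrix_eq_toMatrix') _

/-- The map `ℤ/p → k`. -/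
def residueHom : ZMod p →+* ResidueField O :=
  ZMod.castHom (m := ringChar (ResidueField O)) (ringChar.dvd (by
    rw [← map_natCast (IsLocalRing.residue O), IsLocalRing.residue_eq_zero_iff]
    exact hpO)) (ResidueField O)

theorem residue_padicHom (x : ℤ_[p]) :
    IsLocalRing.residue O (padicHom (maximalIdeal O) hpO x) =
      residueHom hpO (PadicInt.toZMod x) := by
  haveI : NeZero p := ⟨(Fact.out : p.Prime).ne_zero⟩
  set n := (PadicInt.toZMod x).val with hn
  have hx : x - n ∈ RingHom.ker (PadicInt.toZMod (p := p)) := by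
    rw [RingHom.mem_ker, map_sub, map_natCast, hn, ZMod.natCast_zmod_val, sub_self]
  rw [PadicInt.ker_toZMod, PadicInt.maximalIdeal_eq_span_p, Ideal.mem_span_singleton'] at hx
  obtain ⟨y, hy⟩ := hx
  have hp0 : IsLocalRing.residue O (p : O) = 0 := (IsLocalRing.residue_eq_zero_iff _).mpr hpO
  conv_lhs => rw [show x = y * p + n by rw [hy, sub_add_cancel]]
  rw [map_add, map_add, map_mul, map_mul, map_natCast, map_natCast, map_natCast, map_natCast,
    ← map_natCast (IsLocalRing.residue O) p, hp0, mul_zero, zero_add,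
    ← map_natCast (residueHom hpO), hn, ZMod.natCast_zmod_val]

theorem exists_torsBasis :
    ∃ b : Module.Basis (Fin 2) (ZMod p) (TorsSpace W p), ∀ σ,
      LinearMap.toMatrix b b (modRep W p σ) =
        (PadicInt.toZMod (p := p)).mapMatrix (S.mat hΔ σ) := by
  haveI := moduleFinite_torsSpace (p := p) hΔ
  haveI : NeZero p := ⟨(Fact.out : p.Prime).ne_zero⟩
  -- the coordinates at level one, read modulo `p`
  let e : TorsSpace W p → EllP.QTorsion W (p ^ 1) := fun x =>
    ⟨x.1, by rw [pow_one]; exact x.2⟩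
  let c : ZMod (p ^ 1) →+* ZMod p := (ZMod.ringEquivCongr (pow_one p)).toRingHom
  let F : TorsSpace W p →+ (Fin 2 → ZMod p) :=
    { toFun := fun x i => c (S.coord hΔ 1 (e x) i)
      map_zero' := by
        funext i
        rw [show e 0 = 0 from rfl, _root_.map_zero, Pi.zero_apply, _root_.map_zero]
        rfl
      map_add' := fun x y => by
        funext i
        rw [show e (x + y) = e x + e y from rfl, map_add, Pi.add_apply, map_add]
        rfl }
  have hFinj : Function.Injective F := by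
    intro x y h
    have hc : Function.Injective c := (ZMod.ringEquivCongr (pow_one p)).injective
    refine Subtype.ext ?_
    have := (S.coord hΔ 1).injective (funext fun i => hc (congrFun h i))
    exact (congrArg Subtype.val this :)
  let G : TorsSpace W p ≃ₗ[ZMod p] (Fin 2 → ZMod p) :=
    LinearEquiv.ofBijective (F.toZModLinearMap p) ⟨hFinj, by
      refine (LinearMap.injective_iff_surjective_of_finrank_eq_finrank ?_).mp hFinj
      rw [finrank_torsSpace hΔ, Module.finrank_fin_fun]⟩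
  refine ⟨Module.Basis.ofEquivFun G, fun σ => ?_⟩
  ext i j
  rw [LinearMap.toMatrix_apply, Module.Basis.ofEquivFun_repr_apply,
    Module.Basis.coe_ofEquivFun]
  set x := G.symm (Pi.single j 1) with hx
  have hGx : ∀ k, c (S.coord hΔ 1 (e x) k) = (Pi.single j 1 : Fin 2 → ZMod p) k := fun k =>
    congrFun (G.apply_symm_apply (Pi.single j 1)) k
  show c (S.coord hΔ 1 (e (σ • x)) i) = _
  rw [show e (σ • x) = σ • e x from rfl, ← S.galMat_mulVec, ← S.toZModPow_mat]
  simp only [Matrix.mulVec, dotProduct, map_sum, map_mul, hGx, RingHom.mapMatrix_apply,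
    Matrix.map_apply]
  rw [Finset.sum_eq_single j (fun k _ hk => by simp [hk]) (by simp)]
  rw [Pi.single_eq_same, mul_one]
  exact RingHom.congr_fun (RingHom.ext_zmod_of_comp (c.comp (PadicInt.toZModPow 1))) _
where
  RingHom.ext_zmod_of_comp (f : ℤ_[p] →+* ZMod p) : f = PadicInt.toZMod := by
    haveI : NeZero p := ⟨(Fact.out : p.Prime).ne_zero⟩
    refine RingHom.ext fun x => ?_
    have h : x - ((PadicInt.toZMod x).val : ℤ_[p]) ∈ RingHom.ker (PadicInt.toZMod (p := p)) := by
      rw [RingHom.mem_ker, map_sub, map_natCast, ZMod.natCast_zmod_val, sub_self]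
    rw [PadicInt.ker_toZMod, PadicInt.maximalIdeal_eq_span_p, Ideal.mem_span_singleton'] at h
    obtain ⟨y, hy⟩ := h
    have := congrArg f hy
    rw [map_mul, map_natCast, ZMod.natCast_self, mul_zero, map_sub, map_natCast,
      ZMod.natCast_zmod_val, eq_comm, sub_eq_zero] at this
    exact this

/-- The residual representation of `tateRep` is `E[p]`. -/
theorem isModRep_residual : IsModRep W p (residueHom hpO) (tateRep S hΔ hpO).residual := by
  haveI := EllTorsion.isElliptic_map_rat hΔ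
  obtain ⟨ρ₁, h₁⟩ := exists_isModRep (k := ResidueField O) hΔ (residueHom (p := p) hpO)
  obtain ⟨b, hb⟩ := exists_torsBasis S hΔ
  obtain ⟨B₁, hB₁⟩ := h₁ b
  let B₀ : Module.Basis (Fin 2) (ResidueField O) (tateRep S hΔ hpO).residual.V :=
    Algebra.TensorProduct.basis (ResidueField O) (tateBasis S hΔ hpO)
  refine h₁.of_equiv ⟨{ toLinearEquiv := B₁.equiv B₀ (Equiv.refl _), map_apply := fun σ => ?_ }⟩
  have hmat : LinearMap.toMatrix B₀ B₀ ((tateRep S hΔ hpO).residual.ρ σ) =
      LinearMap.toMatrix B₁ B₁ (ρ₁.ρ σ) := by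
    rw [hB₁, hb]
    refine (LinearMap.toMatrix_baseChange (ResidueField O) ((tateRep S hΔ hpO).ρ σ)
      (tateBasis S hΔ hpO) (tateBasis S hΔ hpO)).trans ?_
    rw [toMatrix_tateRep]
    ext i j
    simp only [RingHom.mapMatrix_apply, Matrix.map_apply]
    exact residue_padicHom hpO _
  intro x
  refine LinearMap.congr_fun (f := (B₁.equiv B₀ (Equiv.refl _)).toLinearMap.comp (ρ₁.ρ σ))
    (g := ((tateRep S hΔ hpO).residual.ρ σ).comp (B₁.equiv B₀ (Equiv.refl _)).toLinearMap)
    (B₁.ext fun j => ?_) x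
  simp only [LinearMap.comp_apply, LinearEquiv.coe_coe, Module.Basis.equiv_apply,
    Equiv.refl_apply]
  refine B₀.repr.injective (Finsupp.ext fun i => ?_)
  rw [← LinearMap.toMatrix_apply B₀ B₀, hmat, LinearMap.toMatrix_apply]
  simp [Module.Basis.equiv]

theorem mat_rel {a : ℤ} {m : ℕ} {σ : Γℚ}
    (h : ∀ n : ℕ, ∀ x : EllP.QTorsion W (p ^ n),
      σ • σ • (x : EllP.QPoint W) - a • (σ • (x : EllP.QPoint W)) + (m : ℤ) • (x : EllP.QPoint W)
        = 0) :
    S.mat hΔ σ * S.mat hΔ σ - (a : ℤ_[p]) • S.mat hΔ σ +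
      (m : ℤ_[p]) • (1 : Matrix (Fin 2) (Fin 2) ℤ_[p]) = 0 := by
  refine TateSystem.padicMat_ext fun n => ?_
  have e : ∀ (c : ℤ_[p]) (M : Matrix (Fin 2) (Fin 2) ℤ_[p]),
      (PadicInt.toZModPow n).mapMatrix (c • M) =
        PadicInt.toZModPow n c • (PadicInt.toZModPow n).mapMatrix M := by
    intro c M; ext i j; simp
  rw [_root_.map_zero, map_add, map_sub, map_mul, e, e, map_one, S.toZModPow_mat, map_intCast,
    map_natCast]
  refine S.galMat_ext hΔ fun x => ?_
  rw [Matrix.add_mulVec, Matrix.sub_mulVec, Matrix.smul_mulVec, Matrix.smul_mulVec,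
    ← Matrix.mulVec_mulVec, Matrix.one_mulVec, Matrix.zero_mulVec, S.galMat_mulVec,
    S.galMat_mulVec, Int.cast_smul_eq_zsmul, Nat.cast_smul_eq_nsmul, ← map_zsmul, ← map_nsmul,
    ← map_sub, ← map_add, ← _root_.map_zero (S.coord hΔ n)]
  refine congrArg _ (Subtype.ext ?_)
  rw [← natCast_zsmul (a := x)]
  exact h n x

theorem tateRep_rel {a : ℤ} {m : ℕ} {σ : Γℚ}
    (h : ∀ n : ℕ, ∀ x : EllP.QTorsion W (p ^ n),
      σ • σ • (x : EllP.QPoint W) - a • (σ • (x : EllP.QPoint W)) + (m : ℤ) • (x : EllP.QPoint W)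
        = 0) :
    (tateRep S hΔ hpO).ρ σ * (tateRep S hΔ hpO).ρ σ - (a : O) • (tateRep S hΔ hpO).ρ σ +
      (m : O) • (1 : Module.End O (tateRep S hΔ hpO).V) = 0 := by
  have h1 := congrArg (fun M => Matrix.toLinAlgEquiv' (R := O) (n := Fin 2)
    ((padicHom (maximalIdeal O) hpO).mapMatrix M)) (mat_rel S hΔ h)
  have e : ∀ (c : ℤ_[p]) (M : Matrix (Fin 2) (Fin 2) ℤ_[p]),
      (padicHom (maximalIdeal O) hpO).mapMatrix (c • M) =
        padicHom (maximalIdeal O) hpO c • (padicHom (maximalIdeal O) hpO).mapMatrix M := by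
    intro c M; ext i j; simp
  simp only [_root_.map_zero, map_add, map_sub, map_mul, e, map_one, map_smul, map_intCast,
    map_natCast] at h1
  exact h1

/-- Frobenius at a good `ℓ ≠ p` satisfies `X ^ 2 - a_ℓ X + ℓ`. -/
theorem tateRep_frob_rel (hp2 : p ≠ 2) {ℓ : ℕ} (hℓ : ℓ.Prime) (hgood : W.IsGoodPrimeFor ℓ)
    (hℓp : ℓ ≠ p) {A : ValuationSubring Qb} (hA : A.LiesOverPrime ℓ) {σ : Γℚ}
    (hσ : A.IsFrobeniusAt σ ℓ) :
    (tateRep S hΔ hpO).ρ σ * (tateRep S hΔ hpO).ρ σ
      - (W.apOfModel ℓ : O) • (tateRep S hΔ hpO).ρ σ +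
      (ℓ : O) • (1 : Module.End O (tateRep S hΔ hpO).V) = 0 :=
  tateRep_rel S hΔ hpO fun n x =>
    EllFrob.frobenius_relation W hℓ hgood (((Fact.out : p.Prime).odd_of_ne_two hp2).pow)
      (((Nat.coprime_primes Fact.out hℓ).mpr (Ne.symm hℓp)).pow_left n) hA hσ x
      (torsion_nsmul_eq_zero x)

end FLTAgent.ResidualSetup
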